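import Fermat.Agent.P3.helper64_TraceT
import Fermat.Agent.P3.helper40_Cheb
import Fermat.Agent.P3.helper24_Cyclo
import Fermat.Agent.P6.helper78_NDefs
import Fermat.Agent.T2.helper34_WireS34

/-!
# S58, module [CMP] (helper34): comparison of a `λ`-adic representation with the torsion of an
elliptic curve

Let `W` be an integral Weierstrass curve, `λ` a prime, `ρ` a `λ`-adic representation whose
Frobenius lifts at the primes `ℓ ∉ S` have characteristic polynomial `X² - a_ℓ(W) X + ℓ`.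
By weak Chebotarev (cyclic form) and the Dickson recursion, every `s ∈ G_ℚ` satisfies on
`W[λ^k]` an equation `s² - V s + D = 0` with integers `V ≡ tr ρ(s)`, `D ≡ χ_cyc(s)` modulo `λ^k`
(`exists_int_trace`).  Consequences:

* `trace_frobenius_eq` : at a good prime `q ≠ λ` (possibly in `S`), `tr ρ(Frob_q) = a_q(W)`;
* `charpoly_inertia_eq` : if inertia at `q ≠ λ` acts unipotently on `W[λ^k]` for all `k`, then
  `charpoly ρ(τ) = (X - 1)²` for `τ` in an inertia group at `q`.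

Inputs (boxes, as hypotheses at one torsion level `n = λ^k`):
`ECFieldAt W n` (the points of `W[n]` are defined over a number field), `ECFaithAt W n`
(`W[n]` is a faithful `ℤ/n`-module), `ECFrobAt W n S` (characteristic equation of the Frobenius
lifts at `ℓ ∉ S` on `W[n]`).
-/

set_option autoImplicit false
set_option linter.unusedSectionVars false
set_option linter.style.haveILetI false

open Polynomial

noncomputable section

namespace Fermat.Agent.S58.helper34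

open Fermat.Agent.P3 Fermat.Agent.P6.helper78

/-! ## The boxes -/

/-- **[EC-FIELD]** the points of `W[n]` are defined over a number field. -/
def ECFieldAt (W : WeierstrassCurve ℤ) (n : ℕ) : Prop :=
  ∃ L : IntermediateField ℚ Qbar, FiniteDimensional ℚ L ∧
    ∀ σ : GQ, (∀ x ∈ L, σ x = x) → ∀ P : Tors W n, σ • P = P

/-- **[EC-TORS]** `W[n]` is a faithful `ℤ/n`-module. -/
def ECFaithAt (W : WeierstrassCurve ℤ) (n : ℕ) : Prop :=
  ∀ m : ℤ, (∀ P : Tors W n, m • P = 0) → (n : ℤ) ∣ m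

/-- **[EC-FROB]** the characteristic equation of the Frobenius lifts at the primes `ℓ ∉ S` on
`W[n]`. -/
def ECFrobAt (W : WeierstrassCurve ℤ) (n : ℕ) (S : Finset ℕ) : Prop :=
  ∀ ℓ : ℕ, ℓ.Prime → ℓ ∉ S → ∀ A : ValuationSubring Qbar, A.LiesOverPrime ℓ →
    ∀ φ : GQ, A.IsFrobeniusAt φ ℓ → ∀ P : Tors W n,
      φ • φ • P - W.apOfModel ℓ • (φ • P) + (ℓ : ℤ) • P = 0

/-! ## The Galois action on torsion as endomorphisms -/

section Action

variable (W : WeierstrassCurve ℤ) (n : ℕ)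

/-- the action of `G_ℚ` on `W[n]` by `ℤ`-linear endomorphisms -/
def torsEnd : GQ →* Module.End ℤ (Tors W n) where
  toFun σ := (DistribSMul.toAddMonoidHom (Tors W n) σ).toIntLinearMap
  map_one' := by
    apply LinearMap.ext
    intro P
    exact one_smul GQ P
  map_mul' σ τ := by
    apply LinearMap.ext
    intro P
    exact mul_smul σ τ P

@[simp]
theorem torsEnd_apply (σ : GQ) (P : Tors W n) : torsEnd W n σ P = σ • P := rfl

/-- the action by units -/
def torsUnit : GQ →* (Module.End ℤ (Tors W n))ˣ :=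
  (Units.map (torsEnd W n)).comp (toUnits (G := GQ)).toMonoidHom

theorem torsUnit_coe (σ : GQ) :
    ((torsUnit W n σ : (Module.End ℤ (Tors W n))ˣ) : Module.End ℤ (Tors W n)) = torsEnd W n σ :=
  rfl

end Action

/-! ## Dickson polynomials -/

section Dickson

/-- evaluation of the Dickson polynomials commutes with the integer cast -/
theorem dickson_eval_intCast (R : Type*) [CommRing R] (a b : ℤ) (j : ℕ) :
    (dickson 1 ((b : ℤ) : R) j).eval ((a : ℤ) : R) = (((dickson 1 b j).eval a : ℤ) : R) := by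
  have h1 := map_dickson (k := 1) (a := b) (Int.castRingHom R) j
  rw [eq_intCast] at h1
  rw [← h1, eval_intCast_map, eq_intCast, Int.cast_id]

/-- the Dickson relation for a power of an element of `G_ℚ` acting on `W[n]` -/
theorem tors_pow_dickson (W : WeierstrassCurve ℤ) (n : ℕ) (φ : GQ) (a b : ℤ)
    (h : ∀ P : Tors W n, φ • φ • P - a • (φ • P) + b • P = 0) (j : ℕ) (P : Tors W n) :
    (φ ^ j) • (φ ^ j) • P - (dickson 1 b j).eval a • ((φ ^ j) • P) + b ^ j • P = 0 := by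
  set x : (Module.End ℤ (Tors W n))ˣ := torsUnit W n φ with hx
  have hrel : ((x : (Module.End ℤ (Tors W n))ˣ) : Module.End ℤ (Tors W n)) * x -
      algebraMap ℤ (Module.End ℤ (Tors W n)) a * x +
        algebraMap ℤ (Module.End ℤ (Tors W n)) b = 0 := by
    apply LinearMap.ext
    intro Q
    rw [LinearMap.add_apply, LinearMap.sub_apply, Module.End.mul_apply, Module.End.mul_apply,
      Module.algebraMap_end_apply, Module.algebraMap_end_apply, LinearMap.zero_apply, hx,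
      torsUnit_coe, torsEnd_apply, torsEnd_apply]
    exact h Q
  have hcomm : Commute (algebraMap ℤ (Module.End ℤ (Tors W n)) a)
      ((x : (Module.End ℤ (Tors W n))ˣ) : Module.End ℤ (Tors W n)) :=
    Algebra.commute_algebraMap_left a _
  have hD := Fermat.Agent.P3.helper64.unit_pow_add_eq_dickson x
    (algebraMap ℤ (Module.End ℤ (Tors W n)) a) b hcomm hrel j
  rw [Polynomial.aeval_algebraMap_apply] at hD
  -- apply to `φ ^ j • P`
  have hxj : ((x : (Module.End ℤ (Tors W n))ˣ) : Module.End ℤ (Tors W n)) ^ j =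
      torsEnd W n (φ ^ j) := by
    rw [hx, torsUnit_coe, map_pow]
  have hxinv : (((x⁻¹ : (Module.End ℤ (Tors W n))ˣ)) : Module.End ℤ (Tors W n)) ^ j *
      torsEnd W n (φ ^ j) = 1 := by
    rw [← hxj, ← Units.val_pow_eq_pow_val, ← Units.val_pow_eq_pow_val, ← Units.val_mul,
      inv_pow, inv_mul_cancel, Units.val_one]
  have h2 := congrArg (fun f : Module.End ℤ (Tors W n) => f ((φ ^ j) • P)) hD
  simp only [LinearMap.add_apply, Module.End.mul_apply, Module.algebraMap_end_apply] at h2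
  rw [hxj, torsEnd_apply] at h2
  have h3 : ((((x⁻¹ : (Module.End ℤ (Tors W n))ˣ)) : Module.End ℤ (Tors W n)) ^ j)
      ((φ ^ j) • P) = P := by
    have := congrArg (fun f : Module.End ℤ (Tors W n) => f P) hxinv
    simpa only [Module.End.mul_apply, torsEnd_apply, Module.End.one_apply] using this
  rw [h3, Polynomial.coe_aeval_eq_eval] at h2
  rw [← h2]
  abel

end Dickson

/-! ## The transfer -/

section Transfer

open Fermat.Agent.P3.helper64 Fermat.Agent.P3.helper98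

variable (W : WeierstrassCurve ℤ) (lam : ℕ) [Fact lam.Prime]

/-- **[CMP], transfer**: every `s ∈ G_ℚ` satisfies on `W[λ^k]` an equation `s² - V s + D = 0`
with integers `V ≡ tr ρ(s)` and `D ≡ χ_cyc(s)` modulo `λ^k`. -/
theorem exists_int_trace (k : ℕ) (O' : Type) [CommRing O'] [IsLocalRing O']
    (ρ : GaloisRepAdic O') (S : Finset ℕ)
    (hρ : ∀ (ℓ : ℕ), ℓ.Prime → ℓ ∉ S → ∀ A : ValuationSubring Qbar, A.LiesOverPrime ℓ →
      ∀ φ : GQ, A.IsFrobeniusAt φ ℓ →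
        LinearMap.charpoly (ρ.ρ φ) =
          X ^ 2 - C ((W.apOfModel ℓ : ℤ) : O') * X + C ((ℓ : ℕ) : O'))
    (hField : ECFieldAt W (lam ^ k)) (hFrob : ECFrobAt W (lam ^ k) S)
    (d : GQ →* ℤ_[lam]ˣ) (hd : IsCycloChar lam d) (hdc : IsAdicContinuousChar d) (s : GQ) :
    ∃ V D : ℤ,
      LinearMap.trace O' ρ.V (ρ.ρ s) - (V : O') ∈ IsLocalRing.maximalIdeal O' ^ k ∧
      ((d s : ℤ_[lam]) - (D : ℤ_[lam])) ∈ IsLocalRing.maximalIdeal ℤ_[lam] ^ k ∧
      ∀ P : Tors W (lam ^ k), s • s • P - V • (s • P) + D • P = 0 := by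
  obtain ⟨L₁, hL₁, h₁⟩ := ρ.isAdicContinuous k
  obtain ⟨L₂, hL₂, h₂⟩ := hField
  obtain ⟨L₃, hL₃, h₃⟩ := hdc k
  have := hL₁
  have := hL₂
  have := hL₃
  obtain ⟨ℓ, hℓ, hℓBad, A, hA, φ, hφ, j, hj⟩ :=
    Fermat.Agent.P3.helper40.chebStatement (L₁ ⊔ L₂ ⊔ L₃) inferInstance s (S ∪ {lam})
  have hℓS : ℓ ∉ S := fun h => hℓBad (Finset.mem_union_left _ h)
  have hℓlam : ℓ ≠ lam := fun h =>
    hℓBad (Finset.mem_union_right _ (Finset.mem_singleton.mpr h))
  set g : GQ := φ ^ j with hgdef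
  set h : GQ := g⁻¹ * s with hhdef
  have hs : s = g * h := by rw [hhdef, mul_inv_cancel_left]
  have hfix : ∀ x ∈ L₁ ⊔ L₂ ⊔ L₃, h x = x := by
    intro x hx
    rw [hhdef, AlgEquiv.mul_apply, ← hj x hx]
    exact AlgEquiv.symm_apply_apply g x
  have hle₁ : L₁ ≤ L₁ ⊔ L₂ ⊔ L₃ := le_sup_left.trans le_sup_left
  have hle₂ : L₂ ≤ L₁ ⊔ L₂ ⊔ L₃ := le_sup_right.trans le_sup_left
  have hle₃ : L₃ ≤ L₁ ⊔ L₂ ⊔ L₃ := le_sup_right
  refine ⟨(dickson 1 ((ℓ : ℕ) : ℤ) j).eval (W.apOfModel ℓ), ((ℓ : ℕ) : ℤ) ^ j, ?_, ?_, ?_⟩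
  · -- the trace
    have e1 : LinearMap.trace O' ρ.V (ρ.ρ s) - LinearMap.trace O' ρ.V (ρ.ρ g) ∈
        IsLocalRing.maximalIdeal O' ^ k := by
      have h1 : ρ.ρ s - ρ.ρ g = ρ.ρ g * (ρ.ρ h - 1) := by
        rw [hs, map_mul, mul_sub, mul_one]
      rw [← map_sub, h1]
      apply trace_mem_of_forall_mem
      intro v
      rw [Module.End.mul_apply, LinearMap.sub_apply, Module.End.one_apply]
      exact apply_mem_smul_top _ _ (h₁ h (fun x hx => hfix x (hle₁ hx)) v)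
    have e3 : LinearMap.trace O' ρ.V (ρ.ρ g) =
        (((dickson 1 ((ℓ : ℕ) : ℤ) j).eval (W.apOfModel ℓ) : ℤ) : O') := by
      have hc := hρ ℓ hℓ hℓS A hA φ hφ
      rw [hgdef, map_pow, trace_pow_eq_dickson ρ.finrank_eq (ρ.ρ φ) _ _ hc j,
        ← dickson_eval_intCast, Int.cast_natCast]
    rw [← e3]
    exact e1
  · -- the cyclotomic character
    have hdg : (d g : ℤ_[lam]) = ((ℓ : ℕ) : ℤ_[lam]) ^ j := by
      rw [hgdef, map_pow, Units.val_pow_eq_pow_val,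
        cyclo_frobenius_padic hd hℓ hℓlam A hA hφ]
    have hdh : ((d h : ℤ_[lam]) - 1) ∈ IsLocalRing.maximalIdeal ℤ_[lam] ^ k :=
      h₃ h (fun x hx => hfix x (hle₃ hx))
    have e : (d s : ℤ_[lam]) - ((((ℓ : ℕ) : ℤ) ^ j : ℤ) : ℤ_[lam]) =
        (d g : ℤ_[lam]) * ((d h : ℤ_[lam]) - 1) := by
      rw [hs, map_mul, Units.val_mul, hdg]
      push_cast
      ring
    rw [e]
    exact Ideal.mul_mem_left _ _ hdh
  · -- the torsion
    intro P
    have hsP : ∀ Q : Tors W (lam ^ k), s • Q = g • Q := by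
      intro Q
      rw [hs, mul_smul, h₂ h (fun x hx => hfix x (hle₂ hx)) Q]
    rw [hsP, hsP]
    exact tors_pow_dickson W (lam ^ k) φ (W.apOfModel ℓ) ((ℓ : ℕ) : ℤ)
      (hFrob ℓ hℓ hℓS A hA φ hφ) j P

end Transfer

/-! ## Consequences -/

section Consequences

open Fermat.Agent.P3.helper64 Fermat.Agent.P3.helper98

variable (W : WeierstrassCurve ℤ) (lam : ℕ) [Fact lam.Prime]

/-- an integer lying in `𝔪 ^ k` of `ℤ_[λ]` is divisible by `λ ^ k` -/
theorem dvd_of_intCast_mem_maximalIdeal_pow (m : ℤ) (k : ℕ)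
    (h : (m : ℤ_[lam]) ∈ IsLocalRing.maximalIdeal ℤ_[lam] ^ k) : ((lam ^ k : ℕ) : ℤ) ∣ m := by
  rw [PadicInt.maximalIdeal_eq_span_p, Ideal.span_singleton_pow,
    ← PadicInt.norm_le_pow_iff_mem_span_pow, PadicInt.norm_int_le_pow_iff_dvd] at h
  rw [Nat.cast_pow]
  exact h

/-- a multiple of `λ ^ k` lies in `𝔪 ^ k` -/
theorem intCast_mem_maximalIdeal_pow {O' : Type} [CommRing O'] [IsLocalRing O']
    (hlam : (lam : O') ∈ IsLocalRing.maximalIdeal O') (m : ℤ) (k : ℕ)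
    (h : ((lam ^ k : ℕ) : ℤ) ∣ m) : (m : O') ∈ IsLocalRing.maximalIdeal O' ^ k := by
  obtain ⟨c, rfl⟩ := h
  rw [Int.cast_mul, Int.cast_natCast, Nat.cast_pow]
  exact Ideal.mul_mem_right _ _ (Ideal.pow_mem_pow hlam k)

/-- a multiple of `λ ^ k` kills `W[λ^k]` -/
theorem tors_zsmul_eq_zero (n : ℕ) (m : ℤ) (h : (n : ℤ) ∣ m) (P : Tors W n) : m • P = 0 := by
  obtain ⟨c, rfl⟩ := h
  rw [mul_comm, mul_smul]
  have h1 : (n : ℤ) • P = 0 := Submodule.smul_torsionBy _ P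
  rw [h1, smul_zero]

/-- **[CMP], the trace**: if `s` satisfies `s² - a s + b = 0` on `W[λ^k]` for all `k`, with
integers `a`, `b` such that `χ_cyc(s) = b`, then `tr ρ(s) = a`. -/
theorem trace_eq_of_tors (O' : Type) [CommRing O'] [IsLocalRing O'] [IsNoetherianRing O']
    (hlam : (lam : O') ∈ IsLocalRing.maximalIdeal O')
    (ρ : GaloisRepAdic O') (S : Finset ℕ)
    (hρ : ∀ (ℓ : ℕ), ℓ.Prime → ℓ ∉ S → ∀ A : ValuationSubring Qbar, A.LiesOverPrime ℓ →
      ∀ φ : GQ, A.IsFrobeniusAt φ ℓ →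
        LinearMap.charpoly (ρ.ρ φ) =
          X ^ 2 - C ((W.apOfModel ℓ : ℤ) : O') * X + C ((ℓ : ℕ) : O'))
    (hField : ∀ k, ECFieldAt W (lam ^ k)) (hFaith : ∀ k, ECFaithAt W (lam ^ k))
    (hFrob : ∀ k, ECFrobAt W (lam ^ k) S)
    (d : GQ →* ℤ_[lam]ˣ) (hd : IsCycloChar lam d) (hdc : IsAdicContinuousChar d)
    (s : GQ) (a b : ℤ) (hds : (d s : ℤ_[lam]) = (b : ℤ_[lam]))
    (hs : ∀ k, ∀ P : Tors W (lam ^ k), s • s • P - a • (s • P) + b • P = 0) :
    LinearMap.trace O' ρ.V (ρ.ρ s) = (a : O') := by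
  rw [← sub_eq_zero]
  have hK := Ideal.iInf_pow_eq_bot_of_isLocalRing (IsLocalRing.maximalIdeal O')
    (Ideal.IsPrime.ne_top inferInstance)
  have hmem : LinearMap.trace O' ρ.V (ρ.ρ s) - (a : O') ∈
      ⨅ n : ℕ, IsLocalRing.maximalIdeal O' ^ n := by
    rw [Ideal.mem_iInf]
    intro k
    obtain ⟨V, D, hV, hD, hP⟩ :=
      exists_int_trace W lam k O' ρ S hρ (hField k) (hFrob k) d hd hdc s
    -- `D ≡ b`
    have hDb : ((lam ^ k : ℕ) : ℤ) ∣ b - D := by
      apply dvd_of_intCast_mem_maximalIdeal_pow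
      rw [Int.cast_sub, ← hds]
      exact hD
    -- `(a - V)` kills `W[λ^k]`
    have hkill : ∀ Q : Tors W (lam ^ k), (a - V) • Q = 0 := by
      intro Q
      have hQ : Q = s • (s⁻¹ • Q) := (smul_inv_smul s Q).symm
      have e1 := hP (s⁻¹ • Q)
      have e2 := hs k (s⁻¹ • Q)
      have e3 : (b - D) • (s⁻¹ • Q) = 0 := tors_zsmul_eq_zero W _ _ hDb _
      rw [← hQ] at e1 e2
      have e4 : (a - V) • Q =
          (s • Q - V • Q + D • s⁻¹ • Q) - (s • Q - a • Q + b • s⁻¹ • Q) +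
            (b - D) • s⁻¹ • Q := by
        rw [sub_smul, sub_smul]
        abel
      rw [e4, e1, e2, e3]
      simp
    have hdiv : ((lam ^ k : ℕ) : ℤ) ∣ a - V := hFaith k _ hkill
    have h1 : ((a - V : ℤ) : O') ∈ IsLocalRing.maximalIdeal O' ^ k :=
      intCast_mem_maximalIdeal_pow lam hlam _ k hdiv
    have e : LinearMap.trace O' ρ.V (ρ.ρ s) - (a : O') =
        (LinearMap.trace O' ρ.V (ρ.ρ s) - (V : O')) - ((a - V : ℤ) : O') := by
      push_cast
      ring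
    rw [e]
    exact Ideal.sub_mem _ hV h1
  rw [hK] at hmem
  exact hmem

end Consequences

/-! ## Inertia and Frobenius -/

section Local

open Fermat.Agent.P3.helper64 Fermat.Agent.P3.helper98

variable (W : WeierstrassCurve ℤ) (lam : ℕ) [Fact lam.Prime]

/-- **[CMP-I]** if the inertia group of `A ∣ q`, `q ≠ λ`, acts unipotently on `W[λ^k]` for all
`k`, then `ρ(τ)` has characteristic polynomial `(X - 1)²` for `τ` in that inertia group. -/
theorem charpoly_inertia_eq (O' : Type) [CommRing O'] [IsDomain O'] [IsLocalRing O']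
    [IsNoetherianRing O'] [CharZero O']
    (hlam : (lam : O') ∈ IsLocalRing.maximalIdeal O')
    (ρ : GaloisRepAdic O') (S : Finset ℕ)
    (hρ : ∀ (ℓ : ℕ), ℓ.Prime → ℓ ∉ S → ∀ A : ValuationSubring Qbar, A.LiesOverPrime ℓ →
      ∀ φ : GQ, A.IsFrobeniusAt φ ℓ →
        LinearMap.charpoly (ρ.ρ φ) =
          X ^ 2 - C ((W.apOfModel ℓ : ℤ) : O') * X + C ((ℓ : ℕ) : O'))
    (hField : ∀ k, ECFieldAt W (lam ^ k)) (hFaith : ∀ k, ECFaithAt W (lam ^ k))
    (hFrob : ∀ k, ECFrobAt W (lam ^ k) S)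
    (q : ℕ) (hq : q.Prime) (hqlam : q ≠ lam) (A : ValuationSubring Qbar)
    (hA : A.LiesOverPrime q)
    (hUnip : ∀ k, ∀ τ ∈ A.inertiaSubgroupIn ℚ, ∀ P : Tors W (lam ^ k),
      τ • τ • P - (2 : ℤ) • (τ • P) + P = 0)
    (τ : GQ) (hτ : τ ∈ A.inertiaSubgroupIn ℚ) :
    LinearMap.charpoly (ρ.ρ τ) = (X - 1) ^ 2 := by
  have hpZ : (lam : ℤ_[lam]) ∈ IsLocalRing.maximalIdeal ℤ_[lam] := by
    rw [PadicInt.maximalIdeal_eq_span_p]
    exact Ideal.mem_span_singleton_self _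
  obtain ⟨d, hd, hdc, hdloc, -⟩ := Fermat.Agent.P3.helper24.cyclo lam ℤ_[lam] hpZ
  have key : ∀ σ ∈ A.inertiaSubgroupIn ℚ, LinearMap.trace O' ρ.V (ρ.ρ σ) = 2 := by
    intro σ hσ
    have hdσ : d σ = 1 := (hdloc q hq hqlam A hA).1 σ hσ
    have h := trace_eq_of_tors W lam O' hlam ρ S hρ hField hFaith hFrob d hd hdc σ 2 1
      (by rw [hdσ, Units.val_one, Int.cast_one])
      (fun k P => by
        have := hUnip k σ hσ P
        rw [one_smul]
        exact this)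
    rw [h, Int.cast_ofNat]
  have e1 := key τ hτ
  have e2 : LinearMap.trace O' ρ.V (ρ.ρ τ * ρ.ρ τ) = 2 := by
    rw [← map_mul]
    exact key (τ * τ) (mul_mem hτ hτ)
  refine Fermat.Agent.T2.helper34.charpoly_eq_of_trace_eq_two ρ.finrank_eq (ρ.ρ τ) ?_ e1 e2
  intro x hx
  rcases mul_eq_zero.mp hx with h | h
  · exact absurd h two_ne_zero
  · exact h

/-- **[CMP-F]** if a Frobenius lift `φ` at `q ≠ λ` satisfies the characteristic equation
`φ² - a_q φ + q = 0` on `W[λ^k]` for all `k`, then `tr ρ(φ) = a_q(W)`. -/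
theorem trace_frobenius_eq (O' : Type) [CommRing O'] [IsLocalRing O'] [IsNoetherianRing O']
    (hlam : (lam : O') ∈ IsLocalRing.maximalIdeal O')
    (ρ : GaloisRepAdic O') (S : Finset ℕ)
    (hρ : ∀ (ℓ : ℕ), ℓ.Prime → ℓ ∉ S → ∀ A : ValuationSubring Qbar, A.LiesOverPrime ℓ →
      ∀ φ : GQ, A.IsFrobeniusAt φ ℓ →
        LinearMap.charpoly (ρ.ρ φ) =
          X ^ 2 - C ((W.apOfModel ℓ : ℤ) : O') * X + C ((ℓ : ℕ) : O'))
    (hField : ∀ k, ECFieldAt W (lam ^ k)) (hFaith : ∀ k, ECFaithAt W (lam ^ k))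
    (hFrob : ∀ k, ECFrobAt W (lam ^ k) S)
    (q : ℕ) (hq : q.Prime) (hqlam : q ≠ lam) (A : ValuationSubring Qbar)
    (hA : A.LiesOverPrime q) (φ : GQ) (hφ : A.IsFrobeniusAt φ q)
    (hCE : ∀ k, ∀ P : Tors W (lam ^ k),
      φ • φ • P - W.apOfModel q • (φ • P) + (q : ℤ) • P = 0) :
    LinearMap.trace O' ρ.V (ρ.ρ φ) = ((W.apOfModel q : ℤ) : O') := by
  have hpZ : (lam : ℤ_[lam]) ∈ IsLocalRing.maximalIdeal ℤ_[lam] := by
    rw [PadicInt.maximalIdeal_eq_span_p]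
    exact Ideal.mem_span_singleton_self _
  obtain ⟨d, hd, hdc, hdloc, -⟩ := Fermat.Agent.P3.helper24.cyclo lam ℤ_[lam] hpZ
  have hdφ : (d φ : ℤ_[lam]) = ((q : ℤ) : ℤ_[lam]) := by
    rw [(hdloc q hq hqlam A hA).2 φ hφ, Int.cast_natCast]
  exact trace_eq_of_tors W lam O' hlam ρ S hρ hField hFaith hFrob d hd hdc φ
    (W.apOfModel q) (q : ℤ) hdφ hCE

end Local

end Fermat.Agent.S58.helper34

end
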