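/-
S58 prep (helper7): the box [EC-FROB] of `Fermat.Agent.S58.helper34_Cmp`, verbatim shape.

* `ecFrob W hℓ hg hℓn A hA φ hφ P` : for a good prime `ℓ ∤ n` (ANY `n` prime to `ℓ`, no
  primality), a place `A | ℓ` and a Frobenius lift `φ` at `A`:
  `φ² P - a_ℓ(W) φ P + ℓ P = 0` on `W[n]`;
* `ecFrobAt W n S hS : helper34.ECFrobAt W n S` whenever the primes outside `S` are good and
  prime to `n`;
* `ecFrobAt_pow` : the case `n = λ ^ k`, `S ∋ λ` containing the bad primes.

Proof: the characteristic equation of Frobenius on `W(k_A)` (`Fermat.Agent.P7.helper92.ceStatement`,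
Manin) pulled back along the additive, injective, Frobenius-compatible reduction
`Fermat.Agent.P7.helper65.redTors`.
-/
import Fermat.Agent.S58.helper34_Cmp
import Fermat.Agent.P7.helper92_ManinFinal
import Fermat.Agent.P7.helper65_RedIso
import Fermat.Agent.P6.helper38_NWL
import Fermat.Agent.S05.helper92_Inertia

set_option autoImplicit false
set_option linter.unusedSimpArgs false
set_option linter.unusedVariables false
set_option linter.unusedSectionVars false
set_option linter.style.haveILetI false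

open WeierstrassCurve WeierstrassCurve.Affine
open scoped WeierstrassCurve.Affine Classical

namespace Fermat.Agent.S58.helper7

open Fermat.Agent.P3 Fermat.Agent.P6.helper78 Fermat.Agent.P6.helper65 Fermat.Agent.P7.helper65
  Fermat.Agent.S05.helper92 Fermat.Agent.S58.helper34

/-- **[EC-FROB]**, one prime: the characteristic equation of a Frobenius lift at a good prime
`ℓ ∤ n` on `W[n]`. -/
theorem ecFrob (W : WeierstrassCurve ℤ) {ℓ n : ℕ} (hℓ : ℓ.Prime) (hg : W.IsGoodPrimeFor ℓ)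
    (hℓn : ¬ ℓ ∣ n) (A : ValuationSubring NQbar) (hA : A.LiesOverPrime ℓ) (φ : NGQ)
    (hφ : A.IsFrobeniusAt φ ℓ) (P : Tors W n) :
    φ • φ • P - W.apOfModel ℓ • (φ • P) + (ℓ : ℤ) • P = 0 := by
  haveI : Fact ℓ.Prime := ⟨hℓ⟩
  haveI : CharP (IsLocalRing.ResidueField A) ℓ :=
    Fermat.Agent.P6.helper38.charP_resField A hℓ hA
  haveI : IsAlgClosed (IsLocalRing.ResidueField A) :=
    Fermat.Agent.P6.helper38.isAlgClosed_resField A
  have hgood := nred_good A W hℓ hA hg
  have hn : ((n : ℕ) : NQbar) ∉ A.nonunits := fun h =>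
    hℓn ((natCast_mem_nonunits_iff hℓ hA n).mp h)
  apply redTors_injective hgood hn
  rw [map_zero, map_add, map_sub, map_zsmul, map_zsmul, redTors_frobPt hgood hn hφ,
    redTors_frobPt hgood hn hφ]
  exact Fermat.Agent.P7.helper92.ceStatement W ℓ hg (IsLocalRing.ResidueField A)
    (redTors W A hgood n P)

/-- **[EC-FROB]**, verbatim box of `helper34_Cmp`. -/
theorem ecFrobAt (W : WeierstrassCurve ℤ) (n : ℕ) (S : Finset ℕ)
    (hS : ∀ ℓ : ℕ, ℓ.Prime → ℓ ∉ S → W.IsGoodPrimeFor ℓ ∧ ¬ ℓ ∣ n) : ECFrobAt W n S := by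
  intro ℓ hℓ hℓS A hA φ hφ P
  obtain ⟨hg, hℓn⟩ := hS ℓ hℓ hℓS
  exact ecFrob W hℓ hg hℓn A hA φ hφ P

/-- **[EC-FROB]** at the level `λ ^ k`, for a set `S ∋ λ` containing the bad primes. -/
theorem ecFrobAt_pow (W : WeierstrassCurve ℤ) {lam : ℕ} (hlam : lam.Prime) (k : ℕ)
    (S : Finset ℕ) (hlamS : lam ∈ S) (hbad : ∀ ℓ : ℕ, ℓ.Prime → (ℓ : ℤ) ∣ W.Δ → ℓ ∈ S) :
    ECFrobAt W (lam ^ k) S := by
  apply ecFrobAt
  intro ℓ hℓ hℓS
  refine ⟨fun h => hℓS (hbad ℓ hℓ h), fun h => ?_⟩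
  have := hℓ.dvd_of_dvd_pow h
  rw [Nat.prime_dvd_prime_iff_eq hℓ hlam] at this
  exact hℓS (this ▸ hlamS)

end Fermat.Agent.S58.helper7
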