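/-
S58 prep (helper7): the boxes [EC-FIELD] and [EC-TORS] of `Fermat.Agent.S58.helper34_Cmp`,
verbatim shapes.

* `ecFieldAt W hΔ hn : helper34.ECFieldAt W n` : the points of `W[n]` are defined over a number
  field (the field of the coordinates, `Fermat.Agent.P6.helper31.torsionField`);
* `ecFaithAt W hΔ hn : helper34.ECFaithAt W n` : `W[n]` is a faithful `ℤ/n`-module
  (from `#E[d] = d ^ 2`, `Fermat.Agent.P6.helper78.card_torsionBy_Qbar`);
* `ecTors_finite`, `ecTors_card`.
-/
import Fermat.Agent.S58.helper34_Cmp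
import Fermat.Agent.P6.helper31_NCheb
import Fermat.Agent.P6.helper78_TorsionCard

set_option autoImplicit false
set_option linter.unusedSimpArgs false
set_option linter.unusedVariables false
set_option linter.unusedSectionVars false
set_option linter.style.haveILetI false

open WeierstrassCurve WeierstrassCurve.Affine
open scoped WeierstrassCurve.Affine

namespace Fermat.Agent.S58.helper7

open Fermat.Agent.P3 Fermat.Agent.P6.helper78 Fermat.Agent.S58.helper34

noncomputable section

lemma ecu_Δ_ne_zero (W : WeierstrassCurve ℤ) (hΔ : W.Δ ≠ 0) :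
    (W.map (Int.castRingHom ℚ)).Δ ≠ 0 := by
  rw [WeierstrassCurve.map_Δ, eq_intCast]
  exact_mod_cast hΔ

/-- `#W[n] = n ^ 2`. -/
theorem ecTors_card (W : WeierstrassCurve ℤ) (hΔ : W.Δ ≠ 0) {n : ℕ} (hn : 0 < n) :
    Nat.card (Tors W n) = n ^ 2 :=
  card_torsionBy_Qbar (W.map (Int.castRingHom ℚ)) (ecu_Δ_ne_zero W hΔ) hn

/-- `W[n]` is finite. -/
theorem ecTors_finite (W : WeierstrassCurve ℤ) (hΔ : W.Δ ≠ 0) {n : ℕ} (hn : 0 < n) :
    Finite (Tors W n) := by
  apply Nat.finite_of_card_ne_zero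
  rw [ecTors_card W hΔ hn]
  exact pow_ne_zero _ hn.ne'

/-- **[EC-FIELD]**: the points of `W[n]` are defined over a number field. -/
theorem ecFieldAt (W : WeierstrassCurve ℤ) (hΔ : W.Δ ≠ 0) {n : ℕ} (hn : 0 < n) :
    ECFieldAt W n := by
  haveI := ecTors_finite W hΔ hn
  refine ⟨Fermat.Agent.P6.helper31.torsionField (W.map (Int.castRingHom ℚ)) n 1,
    Fermat.Agent.P6.helper31.finiteDimensional_torsionField (W.map (Int.castRingHom ℚ)) n 1,
    ?_⟩
  intro σ hσ P
  have h := Fermat.Agent.P6.helper31.smul_eq_of_eqOn_torsionField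
    (W.map (Int.castRingHom ℚ)) n 1 σ 1 (fun x hx => by rw [hσ x hx]; rfl) P
  rw [h, one_smul]

/-- **[EC-TORS]**: `W[n]` is a faithful `ℤ/n`-module. -/
theorem ecFaithAt (W : WeierstrassCurve ℤ) (hΔ : W.Δ ≠ 0) {n : ℕ} (hn : 0 < n) :
    ECFaithAt W n := by
  intro m hm
  have hg : 0 < Nat.gcd m.natAbs n := Nat.gcd_pos_of_pos_right _ hn
  -- every point of `W[n]` is killed by `gcd m n`
  have hkill : ∀ P : Tors W n, ((Nat.gcd m.natAbs n : ℕ) : ℤ) • P = 0 := by
    intro P
    have hb := Int.gcd_eq_gcd_ab m n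
    have hgg : ((Nat.gcd m.natAbs n : ℕ) : ℤ) = (Int.gcd m n : ℤ) := by
      rw [Int.gcd_def]
      simp
    have hnP : (n : ℤ) • P = 0 := by
      apply Subtype.ext
      simp
    rw [hgg, hb, add_smul, mul_comm m, mul_comm (n : ℤ), mul_smul, mul_smul, hm P, hnP,
      smul_zero, smul_zero, add_zero]
  -- hence `W[n]` injects into `W[gcd m n]`
  let f : Tors W n → Tors W (Nat.gcd m.natAbs n) := fun P =>
    ⟨P.1, by
      rw [Submodule.mem_torsionBy_iff]
      have := congrArg Subtype.val (hkill P)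
      simpa using this⟩
  have hf : Function.Injective f := by
    intro P Q h
    apply Subtype.ext
    have h1 : (f P).1 = (f Q).1 := congrArg Subtype.val h
    exact h1
  haveI := ecTors_finite W hΔ hg
  have hle := Nat.card_le_card_of_injective f hf
  rw [ecTors_card W hΔ hn, ecTors_card W hΔ hg] at hle
  have hle' : n ≤ Nat.gcd m.natAbs n := by
    by_contra hcon
    rw [not_le] at hcon
    have := Nat.pow_lt_pow_left hcon (two_ne_zero)
    omega
  have hdvd : Nat.gcd m.natAbs n ∣ n := Nat.gcd_dvd_right _ _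
  have heq : Nat.gcd m.natAbs n = n := le_antisymm (Nat.le_of_dvd hn hdvd) hle'
  have h1 : n ∣ m.natAbs := by
    rw [← heq]
    exact Nat.gcd_dvd_left _ _
  exact Int.natCast_dvd.mpr h1

end

end Fermat.Agent.S58.helper7
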