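import Fermat.Agent.S58.helper34_WireS58
import Fermat.Agent.S58.helper7_EcFrob
import Fermat.Agent.S58.helper7_EcTors

/-!
# S58 from the tier-3 core alone (helper34)

The three elliptic-curve boxes of `helper34_WireS58` are on main (helper7: `ecFrob`,
`ecFieldAt`, `ecFaithAt`); hence the frozen statement S58 (verbatim binders) follows from the
core of tier 3 alone:

* `s58_of_core` : `Fermat.Agent.T3.helper34.S36CoreStatement → <frozen S58>`.

(`helper5.s36Core_of_newInv` and `helper72.s36Core_of_newCore` both produce the core.)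
-/

set_option autoImplicit false
set_option linter.unusedVariables false

noncomputable section

namespace Fermat.Agent.S58.helper34

/-- **[EC-FIELD]**, unconditional (helper7). -/
theorem ecFieldStatement : ECFieldStatement :=
  fun W hΔ _ hn => Fermat.Agent.S58.helper7.ecFieldAt W hΔ hn

/-- **[EC-TORS]**, unconditional (helper7). -/
theorem ecFaithStatement : ECFaithStatement :=
  fun W hΔ _ hn => Fermat.Agent.S58.helper7.ecFaithAt W hΔ hn

/-- **[EC-FROB]**, unconditional (helper7, from the congruence relation of P7). -/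
theorem ecFrobStatement : ECFrobStatement :=
  fun W _ _ hℓ hℓn hg A hA φ hφ P => Fermat.Agent.S58.helper7.ecFrob W hℓ hg hℓn A hA φ hφ P

/-- **S58 from the tier-3 core**: the frozen statement, verbatim binders. -/
theorem s58_of_core (hCore : Fermat.Agent.T3.helper34.S36CoreStatement)
    (W : WeierstrassCurve ℤ) (hss : W.IsSemistableModel) (N : ℕ)
    (p : ℕ) [Fact p.Prime] (hp2 : p ≠ 2) (hirr : W.ModRepIsIrreducible p)
    (hp2N : ¬ p ^ 2 ∣ N)
    (hN : W.IsModularModelOfLevel N) (hbad : ∀ ℓ : ℕ, ℓ.Prime → (ℓ : ℤ) ∣ W.Δ → ℓ ∣ N)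
    (hN3 : ∀ q : ℕ, q.Prime → ¬ q ^ 3 ∣ N) :
    W.IsModularModelOfLevel W.conductorLevel :=
  s58_of_boxes hCore ecFieldStatement ecFaithStatement ecFrobStatement W hss N p hp2 hirr hp2N
    hN hbad hN3

end Fermat.Agent.S58.helper34

end
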