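import Mathlib
import Fermat.Prelude.Def_CuspForm_Newforms

/-!
# S58, forms side [F1]: the newform of minimal level (helper32)

For a normalised eigenform `f` of level `N ≠ 0`, the least divisor `M₀` of `N` at which the good
eigensystem of `f` occurs carries a *newform* `g` in the Prelude's sense
(`CuspForm.IsNewform`), with `a_ℓ(g) = a_ℓ(f)` for all primes `ℓ ∤ N`.  No multiplicity one is
needed: newness follows from minimality, because `ℓ ∤ N` implies `ℓ ∤ M₀`.
-/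

set_option autoImplicit false

open CongruenceSubgroup ModularFormClass

namespace Fermat.Agent.S58.helper32

/-- **[F1]** the newform of minimal level attached to a normalised eigenform. -/
theorem exists_isNewform {N : ℕ} (hN : N ≠ 0) (f : CuspForm (Gamma0 N) 2)
    (hf : f.IsNormalizedEigenform) :
    ∃ (M₀ : ℕ) (_ : M₀ ∣ N) (g : CuspForm (Gamma0 M₀) 2), g.IsNewform ∧
      ∀ ℓ : ℕ, ℓ.Prime → ¬ ℓ ∣ N → qCoeff ⇑g ℓ = qCoeff ⇑f ℓ := by
  classical
  have hex : ∃ M : ℕ, M ∣ N ∧ CuspForm.GoodEigensystemOccursAt f M :=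
    ⟨N, dvd_rfl, CuspForm.GoodEigensystemOccursAt.refl hf⟩
  obtain ⟨hM₀N, g, hg, hgf⟩ := Nat.find_spec hex
  refine ⟨Nat.find hex, hM₀N, g, ⟨hg, fun M hM hne hocc => ?_⟩, hgf⟩
  obtain ⟨h, hh, hhg⟩ := hocc
  have hM₀pos : 0 < Nat.find hex := Nat.pos_of_ne_zero fun h0 => by
    rw [h0] at hM₀N
    exact hN (zero_dvd_iff.mp hM₀N)
  have hlt : M < Nat.find hex := lt_of_le_of_ne (Nat.le_of_dvd hM₀pos hM) hne
  refine Nat.find_min hex hlt ⟨hM.trans hM₀N, h, hh, fun ℓ hℓ hℓN => ?_⟩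
  rw [hhg ℓ hℓ (fun hd => hℓN (hd.trans hM₀N)), hgf ℓ hℓ hℓN]

end Fermat.Agent.S58.helper32
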