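import Fermat.Agent.P6.helper32_LiftMain
import Fermat.Agent.P6.helper95_HB0
import Fermat.Agent.P6.helper67_HB1
import Fermat.Agent.P6.helper62_HB2
import Fermat.Agent.P3.helper54_EigenChar

/-!
# S58, forms side [F2]: pushing a normalised eigenform to a higher level (helper32)

* `exists_algHom_of_ne_top` : a proper ideal of a finite-dimensional commutative algebra over an
  algebraically closed field is contained in the kernel of a character;
* `exists_eigenform_of_eigenvector` : a nonzero cusp form of level `M` which is an eigenvector of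
  the `T_ℓ`, `ℓ ∈ G` (`G` any set of primes), gives a normalised eigenform with the same
  eigenvalues;
* `exists_eigenform_mul_prime` : **[F2]** from level `M` to level `M * r`, `r ∤ M` prime;
* `exists_eigenform_of_dvd` : **[F2']** from level `M` to a squarefree multiple `C` of `M`.

The route is cohomological: the period class of `g` is restricted to `Γ₀(M r)` (P6 `a1`), where it
is still parabolic, nonzero ([HB2]) and an eigenvector ([HB1]); the Eichler–Shimura isomorphism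
S21 at level `M r` brings it back to cusp forms.
-/

set_option autoImplicit false

open CongruenceSubgroup ModularCurve ModularCurve.Period ModularFormClass
open scoped MatrixGroups

namespace Fermat.Agent.S58.helper32

open Fermat.Agent.S16.helper26 Fermat.Agent.S49 Fermat.Agent.P6.helper4 Fermat.Agent.P6.helper32

/-- A proper ideal of a finite-dimensional commutative algebra over an algebraically closed field
lies in the kernel of a character. -/
theorem exists_algHom_of_ne_top {K A : Type*} [Field K] [IsAlgClosed K] [CommRing A]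
    [Algebra K A] [FiniteDimensional K A] (𝔞 : Ideal A) (h𝔞 : 𝔞 ≠ ⊤) :
    ∃ χ : A →ₐ[K] K, ∀ x ∈ 𝔞, χ x = 0 := by
  obtain ⟨𝔮, h𝔮max, h𝔮le⟩ := Ideal.exists_le_maximal 𝔞 h𝔞
  have := h𝔮max
  have hbij : Function.Bijective (algebraMap K (A ⧸ 𝔮)) :=
    IsAlgClosed.algebraMap_bijective_of_isIntegral
  let e : K ≃ₐ[K] (A ⧸ 𝔮) := AlgEquiv.ofBijective (Algebra.ofId K (A ⧸ 𝔮)) hbij
  refine ⟨(e.symm : (A ⧸ 𝔮) →ₐ[K] K).comp (Ideal.Quotient.mkₐ K 𝔮), fun x hx => ?_⟩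
  have h1 : Ideal.Quotient.mk 𝔮 x = 0 := Ideal.Quotient.eq_zero_iff_mem.mpr (h𝔮le hx)
  show e.symm (Ideal.Quotient.mk 𝔮 x) = 0
  rw [h1, map_zero]

section Eigen

variable (M : ℕ) [NeZero M]

/-- **From an eigenvector to a normalised eigenform.**  If a nonzero cusp form `v` of level `M`
satisfies `T_ℓ v = a ℓ • v` for all primes `ℓ ∈ G`, there is a normalised eigenform `f'` of level
`M` with `a_ℓ(f') = a ℓ` for `ℓ ∈ G`. -/
theorem exists_eigenform_of_eigenvector (G : Set Nat.Primes) (a : Nat.Primes → ℂ)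
    (v : CuspForm (Gamma0 M) 2) (hv : v ≠ 0)
    (hev : ∀ ℓ ∈ G, (CuspForm.heckeFormsGen M 2 ℓ : Module.End ℂ (CuspForm (Gamma0 M) 2)) v
      = a ℓ • v) :
    ∃ f' : CuspForm (Gamma0 M) 2, f'.IsNormalizedEigenform ∧
      ∀ ℓ ∈ G, qCoeff ⇑f' ((ℓ : Nat.Primes) : ℕ) = a ℓ := by
  have hfinV : FiniteDimensional ℂ (CuspForm (Gamma0 M) 2) :=
    Fermat.Agent.S23.helper87.finiteDimensional_cuspForm_Gamma0 M 2
  have hfinA : FiniteDimensional ℂ (heckeAlgC M) :=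
    (exists_vector_of_pairing (heckeRep M) (heckeRep_injective M) (qcLin M 2 1)
      (pairing_nondeg M) 0).1
  have hne : annIdeal M {v} ≠ ⊤ := by
    intro h
    have h1 : (1 : heckeAlgC M) ∈ annIdeal M {v} := by rw [h]; trivial
    exact hv (h1 v rfl)
  obtain ⟨χ, hχ⟩ := exists_algHom_of_ne_top (K := ℂ) (annIdeal M {v}) hne
  obtain ⟨f', hf1, hf⟩ := exists_eigenform_of_character χ
  refine ⟨f', isNormalizedEigenform_of_eigen χ f' hf1 hf, fun ℓ hℓ => ?_⟩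
  rw [qCoeff_tgen_of_eigen M χ f' hf1 hf ℓ]
  have hmem : tgen M ℓ - algebraMap ℂ (heckeAlgC M) (a ℓ) ∈ annIdeal M {v} := by
    intro f hf
    rw [Set.mem_singleton_iff] at hf
    subst hf
    have h1 : (((tgen M ℓ - algebraMap ℂ (heckeAlgC M) (a ℓ) : heckeAlgC M)) :
        Module.End ℂ (CuspForm (Gamma0 M) 2)) f
        = (CuspForm.heckeFormsGen M 2 ℓ : Module.End ℂ (CuspForm (Gamma0 M) 2)) f - a ℓ • f := by
      rw [← tgen_val]
      rfl
    rw [h1, hev ℓ hℓ, sub_self]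
  have h2 := hχ _ hmem
  rw [map_sub, AlgHom.commutes] at h2
  exact sub_eq_zero.mp h2

end Eigen

section Push

variable (M r : ℕ)

/-- the degeneracy map `a1` commutes with complex scalars -/
theorem a1_smul (c : ℂ) (w : Additive (Gamma0 M) →+ ℂ) :
    a1 M r ℂ (c • w) = c • a1 M r ℂ w := by
  refine AddMonoidHom.ext fun γ => ?_
  rfl

/-- the restriction of a parabolic class is parabolic (complex coefficients) -/
theorem a1_mem_parabolicHoms {w : Additive (Gamma0 M) →+ ℂ}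
    (hw : w ∈ parabolicHoms ℂ (Gamma0 M) ℂ) :
    a1 M r ℂ w ∈ parabolicHoms ℂ (Gamma0 (M * r)) ℂ :=
  Fermat.Agent.P6.helper95.isParabolicHom_pull ℂ (Fermat.Agent.P6.helper77.jOne M r)
    (Fermat.Agent.P6.helper95.tr_jOne M r) w hw

/-- the restriction map is injective on complex classes -/
theorem a1_eq_zero (hM : 0 < M) (hr : r.Prime) (hrM : ¬ r ∣ M) {w : Additive (Gamma0 M) →+ ℂ}
    (h : a1 M r ℂ w = 0) : w = 0 := by
  have h1 := (Fermat.Agent.P6.helper62.hb2Statement M r hr.ne_zero ℂ hM hr hrM w).1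
  rw [h] at h1
  have h2 : b1 M r ℂ (0 : Additive (Gamma0 (M * r)) →+ ℂ) = 0 :=
    Fermat.Agent.P6.helper95.push_zero ℂ _ _
  rw [h2] at h1
  refine AddMonoidHom.ext fun γ => ?_
  have h3 := congrArg (fun φ : Additive (Gamma0 M) →+ ℂ => φ γ) h1
  simp only [AddMonoidHom.zero_apply, AddMonoidHom.smul_apply, nsmul_eq_mul] at h3
  have h4 : ((r + 1 : ℕ) : ℂ) ≠ 0 := Nat.cast_ne_zero.mpr (Nat.succ_ne_zero r)
  rcases mul_eq_zero.mp h3.symm with h5 | h5
  · exact absurd h5 h4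
  · exact h5

/-- **[F2]** pushing a normalised eigenform from level `M` to level `M * r`. -/
theorem exists_eigenform_mul_prime (hM : 0 < M) (hr : r.Prime) (hrM : ¬ r ∣ M)
    (g : CuspForm (Gamma0 M) 2) (hg : g.IsNormalizedEigenform) :
    ∃ f' : CuspForm (Gamma0 (M * r)) 2, f'.IsNormalizedEigenform ∧
      ∀ ℓ : ℕ, ℓ.Prime → ¬ ℓ ∣ M * r → qCoeff ⇑f' ℓ = qCoeff ⇑g ℓ := by
  have _i1 : NeZero M := ⟨hM.ne'⟩
  have _i2 : NeZero (M * r) := ⟨Nat.mul_ne_zero hM.ne' hr.ne_zero⟩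
  -- the period class of `g`
  set w : Additive (Gamma0 M) →+ ℂ := periodHomPair M (g, 0) with hw
  have hwpar : w ∈ parabolicHoms ℂ (Gamma0 M) ℂ := by
    rw [← (Fermat.Agent.S21.result M).2]
    exact LinearMap.mem_range_self _ _
  have hg0 : g ≠ 0 := hg.ne_zero
  have hw0 : w ≠ 0 := by
    intro h
    have h1 : ((g, 0) : CuspForm (Gamma0 M) 2 × CuspForm (Gamma0 M) 2) = 0 :=
      prod_eq_zero_of_period M h
    exact hg0 (congrArg Prod.fst h1)
  have hwev : ∀ ℓ : Nat.Primes, ¬ (ℓ : ℕ) ∣ M →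
      heckeHom M ℓ w = qCoeff ⇑g (ℓ : ℕ) • w := by
    intro ℓ hℓ
    rw [hw, ← periodHomPair_heckePair, ← map_smul]
    congr 1
    unfold heckePair
    rw [CuspForm.heckeFormsGen_of_not_dvd hℓ]
    show (CuspForm.heckeTLin 2 ℓ.2 hℓ g, CuspForm.heckeTLin 2 ℓ.2 hℓ 0) = _
    rw [Fermat.Agent.P3.helper54.heckeT_eigen g hg ℓ.2 hℓ, map_zero]
    simp
  -- its restriction to level `M * r`
  have hw'par := a1_mem_parabolicHoms M r hwpar
  have hw'0 : a1 M r ℂ w ≠ 0 := fun h => hw0 (a1_eq_zero M r hM hr hrM h)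
  have hw'ev : ∀ ℓ : Nat.Primes, ¬ (ℓ : ℕ) ∣ M * r →
      heckeHom (M * r) ℓ (a1 M r ℂ w) = qCoeff ⇑g (ℓ : ℕ) • a1 M r ℂ w := by
    intro ℓ hℓ
    have hℓM : ¬ (ℓ : ℕ) ∣ M := fun h => hℓ (h.mul_right r)
    rw [((Fermat.Agent.P6.helper67.hb1 M r hr.ne_zero ℂ hM hr hrM ℓ hℓ).1 w).1, hwev ℓ hℓM,
      a1_smul]
  -- back to cusp forms
  obtain ⟨x, hx⟩ : ∃ x : CuspForm (Gamma0 (M * r)) 2 × CuspForm (Gamma0 (M * r)) 2,
      periodHomPair (M * r) x = a1 M r ℂ w := by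
    have h : a1 M r ℂ w ∈ LinearMap.range (periodHomPair (M * r)) := by
      rw [(Fermat.Agent.S21.result (M * r)).2]
      exact hw'par
    exact h
  have hx0 : x ≠ 0 := by
    intro h
    rw [h, map_zero] at hx
    exact hw'0 hx.symm
  have hxev : ∀ ℓ : Nat.Primes, ¬ (ℓ : ℕ) ∣ M * r →
      heckePair (M * r) ℓ x = qCoeff ⇑g (ℓ : ℕ) • x := by
    intro ℓ hℓ
    apply (Fermat.Agent.S21.result (M * r)).1
    rw [periodHomPair_heckePair, hx, hw'ev ℓ hℓ, map_smul, hx]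
  have hx1 : ∀ ℓ : Nat.Primes, ¬ (ℓ : ℕ) ∣ M * r →
      (CuspForm.heckeFormsGen (M * r) 2 ℓ : Module.End ℂ (CuspForm (Gamma0 (M * r)) 2)) x.1
        = qCoeff ⇑g (ℓ : ℕ) • x.1 := fun ℓ hℓ => congrArg Prod.fst (hxev ℓ hℓ)
  have hx2 : ∀ ℓ : Nat.Primes, ¬ (ℓ : ℕ) ∣ M * r →
      (CuspForm.heckeFormsGen (M * r) 2 ℓ : Module.End ℂ (CuspForm (Gamma0 (M * r)) 2)) x.2
        = qCoeff ⇑g (ℓ : ℕ) • x.2 := fun ℓ hℓ => congrArg Prod.snd (hxev ℓ hℓ)
  obtain ⟨v, hv0, hvev⟩ : ∃ v : CuspForm (Gamma0 (M * r)) 2, v ≠ 0 ∧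
      ∀ ℓ : Nat.Primes, ¬ (ℓ : ℕ) ∣ M * r →
        (CuspForm.heckeFormsGen (M * r) 2 ℓ : Module.End ℂ (CuspForm (Gamma0 (M * r)) 2)) v
          = qCoeff ⇑g (ℓ : ℕ) • v := by
    by_cases h1 : x.1 = 0
    · refine ⟨x.2, fun h2 => hx0 (Prod.ext h1 h2), hx2⟩
    · exact ⟨x.1, h1, hx1⟩
  obtain ⟨f', hf', hf'ev⟩ := exists_eigenform_of_eigenvector (M * r)
    {ℓ : Nat.Primes | ¬ (ℓ : ℕ) ∣ M * r} (fun ℓ => qCoeff ⇑g (ℓ : ℕ)) v hv0 hvev
  exact ⟨f', hf', fun ℓ hℓ hℓMr => hf'ev ⟨ℓ, hℓ⟩ hℓMr⟩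

end Push

/-- **[F2']** pushing a normalised eigenform from level `M` to a squarefree multiple `C`. -/
theorem exists_eigenform_of_dvd : ∀ (C : ℕ), Squarefree C → ∀ (M : ℕ), M ∣ C →
    ∀ (g : CuspForm (Gamma0 M) 2), g.IsNormalizedEigenform →
    ∃ f' : CuspForm (Gamma0 C) 2, f'.IsNormalizedEigenform ∧
      ∀ ℓ : ℕ, ℓ.Prime → ¬ ℓ ∣ C → qCoeff ⇑f' ℓ = qCoeff ⇑g ℓ := by
  intro C
  induction C using Nat.strong_induction_on with
  | _ C ih =>
    intro hC M hMC g hg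
    by_cases hMeq : M = C
    · subst hMeq
      exact ⟨g, hg, fun _ _ _ => rfl⟩
    obtain ⟨k, rfl⟩ := hMC
    have hk1 : k ≠ 1 := fun h => hMeq (by rw [h, mul_one])
    obtain ⟨r, hr, hrk⟩ := Nat.exists_prime_and_dvd hk1
    obtain ⟨k', rfl⟩ := hrk
    -- `C = M * (r * k')`, set `C' = M * k'`
    have hC0 : M * (r * k') ≠ 0 := hC.ne_zero
    have hMpos : 0 < M := Nat.pos_of_ne_zero fun h => hC0 (by rw [h, zero_mul])
    have hk'pos : 0 < k' := Nat.pos_of_ne_zero fun h => hC0 (by rw [h, mul_zero, mul_zero])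
    have hCeq : M * (r * k') = M * k' * r := by ring
    have hC'sq : Squarefree (M * k') := by
      rw [hCeq] at hC
      exact Squarefree.of_mul_left hC
    have hrC' : ¬ r ∣ M * k' := by
      intro h
      obtain ⟨t, ht⟩ := h
      have h2 : r * r ∣ M * (r * k') := ⟨t, by rw [hCeq, ht]; ring⟩
      exact hr.one_lt.ne' (Nat.isUnit_iff.mp (hC r h2))
    have hlt : M * k' < M * (r * k') := by
      rw [hCeq]
      exact lt_mul_of_one_lt_right (Nat.mul_pos hMpos hk'pos) hr.one_lt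
    obtain ⟨f₁, hf₁, hf₁g⟩ := ih (M * k') hlt hC'sq M (Dvd.intro k' rfl) g hg
    obtain ⟨f₂, hf₂, hf₂f₁⟩ := exists_eigenform_mul_prime (M * k') r
      (Nat.mul_pos hMpos hk'pos) hr hrC' f₁ hf₁
    rw [hCeq]
    refine ⟨f₂, hf₂, fun ℓ hℓ hℓC => ?_⟩
    rw [hf₂f₁ ℓ hℓ hℓC, hf₁g ℓ hℓ (fun h => hℓC (h.mul_right r))]

end Fermat.Agent.S58.helper32
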