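/-
S58 prep [EC-UNIP] (helper7): the deliverables.

For an integral Weierstrass curve `W`, a prime `q` (ANY prime, `q = 2` included) with
`q ∣ Δ → q ∤ c₄` (semistable at `q`), an ODD number `m` prime to `q` (no primality), a place
`A` of `ℚ̄` over `q` and `τ` in the inertia group of `A`:

* `ecUnip_point`  : `τ • (τ • P - P) = τ • P - P` for every point `P` with `m • P = 0`;
* `ecUnip`        : `τ • (τ • x) - 2 • (τ • x) + x = 0` on `Tors W m` (shape of
                    `Fermat.Agent.P7.helper47.Unip3Statement`);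
* `ecUnip_sub`    : `τ • (τ • x - x) = τ • x - x` on `Tors W m`;
* `ecGood_point`, `ecGood` : at a good prime `q ∤ m` (any `m`) inertia acts trivially;
* `ecUnip_pow`    : `τ ^ m` acts trivially on `Tors W m`;
* `ecUnip_pow_smul` : `τ ^ n` acts as `x ↦ x + n • (τ • x - x)`;
* `ecUnipStatement : EcUnipStatement` : everything in one closed `Prop`, prelude vocabulary only;
* `ecUnip_of_semistable` : the same for `W.IsSemistableModel` and a prime power `m = lam ^ k`.
-/
import Fermat.Agent.S58.helper7_EcUnipCore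

set_option autoImplicit false
set_option linter.unusedSimpArgs false
set_option linter.unusedVariables false
set_option linter.unusedSectionVars false
set_option linter.style.haveILetI false

open WeierstrassCurve WeierstrassCurve.Affine
open scoped WeierstrassCurve.Affine

namespace Fermat.Agent.S58.helper7

open Fermat.Agent.S05.helper92 Fermat.Agent.P6.helper65 Fermat.Agent.P6.helper78

noncomputable section

/-- The action of `τ` on the points of the prelude curve, as an additive homomorphism. -/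
def ecuGalAct (W : WeierstrassCurve ℤ) (τ : NGQ) :
    ((W.map (Int.castRingHom ℚ))⁄NQbar).Point →+ ((W.map (Int.castRingHom ℚ))⁄NQbar).Point :=
  DistribSMul.toAddMonoidHom _ τ

lemma ecuGalAct_apply (W : WeierstrassCurve ℤ) (τ : NGQ)
    (P : ((W.map (Int.castRingHom ℚ))⁄NQbar).Point) : ecuGalAct W τ P = τ • P := rfl

lemma ecuGalAct_some (W : WeierstrassCurve ℤ) (τ : NGQ) (x y : NQbar)
    (h : ((W.map (Int.castRingHom ℚ))⁄NQbar).Nonsingular x y) :
    ∃ h', ecuGalAct W τ (Point.some x y h) = Point.some (τ x) (τ y) h' :=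
  ⟨_, rfl⟩

/-- **Inertia at a good prime `q ∤ m` fixes `E[m]`** (any `q`, any `m` prime to `q`). -/
theorem ecGood_point (W : WeierstrassCurve ℤ) {q m : ℕ} (hq : q.Prime) (hqm : ¬ q ∣ m)
    (hgood : ¬ (q : ℤ) ∣ W.Δ) (A : ValuationSubring NQbar) (hA : A.LiesOverPrime q) (τ : NGQ)
    (hτ : τ ∈ A.inertiaSubgroupIn ℚ) (P : ((W.map (Int.castRingHom ℚ))⁄NQbar).Point)
    (hP : m • P = 0) : τ • P = P :=
  ecu_core_fixes_of_good A W (nred_curve_eq W) hq hqm hA τ hτ (ecuGalAct W τ)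
    (ecuGalAct_some W τ) hgood P hP

/-- **[EC-UNIP], points**: inertia at a semistable prime `q` (any `q`, `q = 2` included) is
unipotent on `E[m]`, `m` odd and prime to `q`. -/
theorem ecUnip_point (W : WeierstrassCurve ℤ) {q m : ℕ} (hq : q.Prime) (hodd : Odd m)
    (hqm : ¬ q ∣ m) (hss : (q : ℤ) ∣ W.Δ → ¬ (q : ℤ) ∣ W.c₄)
    (A : ValuationSubring NQbar) (hA : A.LiesOverPrime q) (τ : NGQ)
    (hτ : τ ∈ A.inertiaSubgroupIn ℚ) (P : ((W.map (Int.castRingHom ℚ))⁄NQbar).Point)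
    (hP : m • P = 0) : τ • (τ • P - P) = τ • P - P := by
  have hE := nred_curve_eq W
  by_cases hΔ : (q : ℤ) ∣ W.Δ
  · exact ecu_core_unipotent_of_mult A W hE hq hqm hA τ hτ (ecuGalAct W τ) (ecuGalAct_some W τ)
      hodd hΔ (hss hΔ) P hP
  · have h := ecGood_point W hq hqm hΔ A hA τ hτ P hP
    rw [h, sub_self, smul_zero]

/-- `(τ - 1) ^ 2 = 0` in the expanded form `τ² x - 2 τ x + x = 0`. -/
lemma ecu_expand {M : Type*} [AddCommGroup M] {G : Type*} [Group G] [DistribMulAction G M]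
    (τ : G) (P : M) (h : τ • (τ • P - P) = τ • P - P) :
    τ • (τ • P) - (2 : ℤ) • (τ • P) + P = 0 := by
  rw [smul_sub] at h
  rw [two_zsmul]
  have e : τ • (τ • P) = τ • P - P + τ • P := sub_eq_iff_eq_add.mp h
  rw [e]
  abel

/-- A unipotent automorphism: `τ ^ n` acts as `P ↦ P + n • (τ • P - P)`. -/
lemma ecu_pow_smul_of_unipotent {M : Type*} [AddCommGroup M] {G : Type*} [Group G]
    [DistribMulAction G M] (τ : G) (P : M) (h : τ • (τ • P - P) = τ • P - P) (n : ℕ) :
    (τ ^ n) • P = P + n • (τ • P - P) := by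
  have hN : ∀ k : ℕ, (τ ^ k) • (τ • P - P) = τ • P - P := by
    intro k
    induction k with
    | zero => rw [pow_zero, one_smul]
    | succ k ih => rw [pow_succ, mul_smul, h, ih]
  induction n with
  | zero => rw [pow_zero, one_smul, zero_smul, add_zero]
  | succ n ih =>
    have e : τ • P = P + (τ • P - P) := (add_sub_cancel P (τ • P)).symm
    calc (τ ^ (n + 1)) • P = (τ ^ n) • (τ • P) := by rw [pow_succ, mul_smul]
      _ = (τ ^ n) • (P + (τ • P - P)) := by rw [← e]
      _ = (τ ^ n) • P + (τ ^ n) • (τ • P - P) := smul_add _ _ _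
      _ = P + n • (τ • P - P) + (τ • P - P) := by rw [ih, hN]
      _ = P + (n + 1) • (τ • P - P) := by rw [succ_nsmul, add_assoc]

section Tors

variable (W : WeierstrassCurve ℤ) {q m : ℕ} (hq : q.Prime) (hqm : ¬ q ∣ m)
  (A : ValuationSubring NQbar) (hA : A.LiesOverPrime q) (τ : NGQ)
  (hτ : τ ∈ A.inertiaSubgroupIn ℚ)

include hq hqm hA hτ

/-- **Inertia at a good prime `q ∤ m` fixes `Tors W m`**. -/
theorem ecGood (hgood : ¬ (q : ℤ) ∣ W.Δ) (x : Tors W m) : τ • x = x := by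
  apply Subtype.ext
  exact ecGood_point W hq hqm hgood A hA τ hτ x.1 (nred_tors_nsmul W m x)

/-- **[EC-UNIP]** on `Tors W m`: `τ • (τ • x - x) = τ • x - x`. -/
theorem ecUnip_sub (hodd : Odd m) (hss : (q : ℤ) ∣ W.Δ → ¬ (q : ℤ) ∣ W.c₄) (x : Tors W m) :
    τ • (τ • x - x) = τ • x - x := by
  apply Subtype.ext
  exact ecUnip_point W hq hodd hqm hss A hA τ hτ x.1 (nred_tors_nsmul W m x)

/-- **[EC-UNIP]** on `Tors W m`, in the shape of `Fermat.Agent.P7.helper47.Unip3Statement`. -/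
theorem ecUnip (hodd : Odd m) (hss : (q : ℤ) ∣ W.Δ → ¬ (q : ℤ) ∣ W.c₄) (x : Tors W m) :
    τ • (τ • x) - (2 : ℤ) • (τ • x) + x = 0 :=
  ecu_expand τ x (ecUnip_sub W hq hqm A hA τ hτ hodd hss x)

/-- `τ ^ n` acts on `Tors W m` as `x ↦ x + n • (τ • x - x)`. -/
theorem ecUnip_pow_smul (hodd : Odd m) (hss : (q : ℤ) ∣ W.Δ → ¬ (q : ℤ) ∣ W.c₄)
    (x : Tors W m) (n : ℕ) : (τ ^ n) • x = x + n • (τ • x - x) :=
  ecu_pow_smul_of_unipotent τ x (ecUnip_sub W hq hqm A hA τ hτ hodd hss x) n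

/-- `τ ^ m` acts trivially on `Tors W m`. -/
theorem ecUnip_pow (hodd : Odd m) (hss : (q : ℤ) ∣ W.Δ → ¬ (q : ℤ) ∣ W.c₄) (x : Tors W m) :
    (τ ^ m) • x = x := by
  rw [ecUnip_pow_smul W hq hqm A hA τ hτ hodd hss x m]
  have h1 : m • (τ • x - x) = 0 := by
    apply Subtype.ext
    have := nred_tors_nsmul W m (τ • x - x)
    simpa using this
  rw [h1, add_zero]

end Tors

end

/-- **[EC-UNIP]** as a closed statement in prelude vocabulary: inertia at a prime `q` at which
the integral model `W` is semistable acts unipotently on `E[m]` for every odd `m` prime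
to `q`. -/
def EcUnipStatement : Prop :=
  ∀ (W : WeierstrassCurve ℤ) (q : ℕ), q.Prime → ((q : ℤ) ∣ W.Δ → ¬ (q : ℤ) ∣ W.c₄) →
    ∀ m : ℕ, Odd m → ¬ q ∣ m →
    ∀ A : ValuationSubring (AlgebraicClosure ℚ), A.LiesOverPrime q →
    ∀ τ ∈ A.inertiaSubgroupIn ℚ,
    ∀ x : Submodule.torsionBy ℤ ((W.map (Int.castRingHom ℚ))⁄(AlgebraicClosure ℚ)).Point m,
      τ • (τ • x) - (2 : ℤ) • (τ • x) + x = 0

theorem ecUnipStatement : EcUnipStatement := by
  intro W q hq hss m hodd hqm A hA τ hτ x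
  exact ecUnip W hq hqm A hA τ hτ hodd hss x

/-- **[EC-UNIP]** for a semistable model and the `lam ^ k`-torsion, `lam` an odd prime,
`q ≠ lam` any prime. -/
theorem ecUnip_of_semistable (W : WeierstrassCurve ℤ) (hW : W.IsSemistableModel) {q lam : ℕ}
    (hq : q.Prime) (hlam : lam.Prime) (hlam2 : lam ≠ 2) (hne : q ≠ lam) (k : ℕ)
    (A : ValuationSubring (AlgebraicClosure ℚ)) (hA : A.LiesOverPrime q)
    (τ : AlgebraicClosure ℚ ≃ₐ[ℚ] AlgebraicClosure ℚ) (hτ : τ ∈ A.inertiaSubgroupIn ℚ)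
    (x : Submodule.torsionBy ℤ
      ((W.map (Int.castRingHom ℚ))⁄(AlgebraicClosure ℚ)).Point ((lam ^ k : ℕ))) :
    τ • (τ • x) - (2 : ℤ) • (τ • x) + x = 0 := by
  have hodd : Odd (lam ^ k) := (hlam.odd_of_ne_two hlam2).pow
  have hqm : ¬ q ∣ lam ^ k := by
    intro h
    have := hq.dvd_of_dvd_pow h
    exact hne ((Nat.prime_dvd_prime_iff_eq hq hlam).mp this)
  exact ecUnip W hq hqm A hA τ hτ hodd (hW q hq) x

end Fermat.Agent.S58.helper7
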