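import Mathlib

/-!
# S58 prep [O-PRIME] (helper8): degree-one primes of an order

Spare tool, Mathlib only.  For a subring `R` of `ℂ` that is finitely generated as a `ℤ`-module
(an order in a number field, e.g. the range of the eigencharacter of an eigenform) there are
infinitely many primes `p` with an INJECTIVE ring homomorphism `R →+* ℤ_[p]`
(`exists_padic_embedding`), and a nonzero integral element is a unit under every ring
homomorphism to `ℤ_[p]` for all large `p` (`exists_bound_not_dvd`).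

Route: primitive element, Schur's lemma (`schur_prime_dvd_eval`: a non-constant integer
polynomial has a root modulo infinitely many primes), Bezout with the derivative up to a
constant (`exists_bezout_int`), Hensel (`exists_padicInt_root`), and `ℤ_[p]` integrally closed
(`padic_norm_le_one_of_isIntegral`).
-/

set_option autoImplicit false

open Polynomial

namespace Fermat.Agent.S58.helper8

/-- **Schur**: a non-constant integer polynomial has a root modulo infinitely many primes. -/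
theorem schur_prime_dvd_eval (Q : ℤ[X]) (hQ : 0 < Q.natDegree) (B : ℕ) :
    ∃ p : ℕ, B < p ∧ p.Prime ∧ ∃ n : ℤ, (p : ℤ) ∣ Q.eval n := by
  by_cases hc : Q.eval 0 = 0
  · obtain ⟨p, hpB, hp⟩ := Nat.exists_infinite_primes (B + 1)
    exact ⟨p, by omega, hp, 0, by rw [hc]; exact dvd_zero _⟩
  set c₀ : ℤ := Q.eval 0 with hc₀
  have hfact : ((B.factorial : ℕ) : ℤ) ≠ 0 := by
    exact_mod_cast (Nat.factorial_pos B).ne'
  set a : ℤ := c₀ * (B.factorial : ℤ) with ha
  have ha0 : a ≠ 0 := mul_ne_zero hc hfact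
  set G : ℤ[X] := Q.comp (C a * X) with hG
  have hGdeg : G.natDegree = Q.natDegree := by
    rw [hG, natDegree_comp, natDegree_C_mul_X a ha0, mul_one]
  have hGne : ∀ v : ℤ, G - C v ≠ 0 := by
    intro v h
    have : G = C v := sub_eq_zero.mp h
    rw [this, natDegree_C] at hGdeg
    omega
  have hH : G * (G - C c₀) * (G - C (-c₀)) ≠ 0 :=
    mul_ne_zero (mul_ne_zero (by simpa using hGne 0) (hGne c₀)) (hGne (-c₀))
  obtain ⟨t, ht⟩ : ∃ t : ℤ, (G * (G - C c₀) * (G - C (-c₀))).eval t ≠ 0 := by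
    by_contra hcon
    push Not at hcon
    apply hH
    apply Polynomial.eq_zero_of_infinite_isRoot
    have : {x | IsRoot (G * (G - C c₀) * (G - C (-c₀))) x} = Set.univ := by
      ext x; simp only [Set.mem_ofPred_eq, Set.mem_univ, iff_true]; exact hcon x
    rw [this]
    exact Set.infinite_univ
  have hGt : G.eval t = Q.eval (a * t) := by
    simp [hG, eval_comp]
  simp only [eval_mul, eval_sub, eval_C, hGt, mul_ne_zero_iff, sub_ne_zero] at ht
  obtain ⟨⟨h0, h1⟩, h2⟩ := ht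
  obtain ⟨w, hw⟩ : a * t - 0 ∣ Q.eval (a * t) - Q.eval 0 := Polynomial.sub_dvd_eval_sub _ _ _
  have hval : Q.eval (a * t) = c₀ * (1 + (B.factorial : ℤ) * (t * w)) := by
    have : Q.eval (a * t) = c₀ + (a * t - 0) * w := by rw [← hw, hc₀]; ring
    rw [this, ha]; ring
  set h : ℤ := 1 + (B.factorial : ℤ) * (t * w) with hh
  have hh0 : h ≠ 0 := by
    intro h'; apply h0; rw [hval, h', mul_zero]
  have hh1 : h ≠ 1 := by
    intro h'; apply h1; rw [hval, h', mul_one]
  have hhm1 : h ≠ -1 := by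
    intro h'; apply h2; rw [hval, h']; ring
  have hnat : h.natAbs ≠ 1 := by
    intro h'
    rcases Int.natAbs_eq h with h'' | h''
    · apply hh1; rw [h'', h']; rfl
    · apply hhm1; rw [h'', h']; rfl
  obtain ⟨p, hp, hpd⟩ := Nat.exists_prime_and_dvd hnat
  have hpdh : (p : ℤ) ∣ h := Int.natCast_dvd.mpr hpd
  refine ⟨p, ?_, hp, a * t, ?_⟩
  · by_contra hle
    push Not at hle
    have hpf : p ∣ B.factorial := (Nat.Prime.dvd_factorial hp).mpr hle
    have hpf' : (p : ℤ) ∣ (B.factorial : ℤ) := by exact_mod_cast hpf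
    have : (p : ℤ) ∣ 1 := by
      have h3 : (p : ℤ) ∣ (B.factorial : ℤ) * (t * w) := Dvd.dvd.mul_right hpf' _
      have h4 : (1 : ℤ) = h - (B.factorial : ℤ) * (t * w) := by rw [hh]; ring
      rw [h4]; exact dvd_sub hpdh h3
    have := Int.natCast_dvd_natCast.mp (by simpa using this : ((p : ℕ) : ℤ) ∣ ((1 : ℕ) : ℤ))
    exact hp.one_lt.ne' (Nat.dvd_one.mp this)
  · rw [hval]; exact Dvd.dvd.mul_left hpdh _

/-- Bezout over `ℤ` up to a nonzero constant, for an integer polynomial separable over `ℚ`. -/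
theorem exists_bezout_int (Q : ℤ[X]) (hQ : (Q.map (Int.castRingHom ℚ)).Separable) :
    ∃ (u v : ℤ[X]) (e : ℤ), e ≠ 0 ∧ u * Q + v * derivative Q = C e := by
  obtain ⟨U, V, hUV⟩ := hQ
  obtain ⟨d₁, hd₁, hu⟩ := IsLocalization.integerNormalization_spec (nonZeroDivisors ℤ) U
  obtain ⟨d₂, hd₂, hv⟩ := IsLocalization.integerNormalization_spec (nonZeroDivisors ℤ) V
  set u := IsLocalization.integerNormalization (nonZeroDivisors ℤ) U
  set v := IsLocalization.integerNormalization (nonZeroDivisors ℤ) V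
  have hd₁0 : d₁ ≠ 0 := nonZeroDivisors.ne_zero hd₁
  have hd₂0 : d₂ ≠ 0 := nonZeroDivisors.ne_zero hd₂
  refine ⟨C d₂ * u, C d₁ * v, d₁ * d₂, mul_ne_zero hd₁0 hd₂0, ?_⟩
  apply Polynomial.map_injective (Int.castRingHom ℚ) Int.cast_injective
  have hu' : u.map (Int.castRingHom ℚ) = C (d₁ : ℚ) * U := by
    have := hu
    simp only [algebraMap_int_eq] at this
    rw [this, zsmul_eq_mul, ← map_intCast (C : ℚ →+* ℚ[X])]
  have hv' : v.map (Int.castRingHom ℚ) = C (d₂ : ℚ) * V := by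
    have := hv
    simp only [algebraMap_int_eq] at this
    rw [this, zsmul_eq_mul, ← map_intCast (C : ℚ →+* ℚ[X])]
  rw [Polynomial.map_add, Polynomial.map_mul, Polynomial.map_mul, Polynomial.map_mul,
    Polynomial.map_mul, Polynomial.map_C, Polynomial.map_C, Polynomial.map_C, hu', hv',
    ← Polynomial.derivative_map]
  simp only [eq_intCast, Int.cast_mul]
  have : C (d₂ : ℚ) * (C (d₁ : ℚ) * U) * map (Int.castRingHom ℚ) Q
      + C (d₁ : ℚ) * (C (d₂ : ℚ) * V) * derivative (map (Int.castRingHom ℚ) Q)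
      = C (d₁ : ℚ) * C (d₂ : ℚ) * (U * map (Int.castRingHom ℚ) Q
        + V * derivative (map (Int.castRingHom ℚ) Q)) := by ring
  rw [this, hUV, mul_one, ← C_mul]

/-- A simple root mod `p` lifts to a root in `ℤ_[p]` (Hensel). -/
theorem exists_padicInt_root (Q : ℤ[X]) (p : ℕ) [Fact p.Prime] (n : ℤ)
    (h0 : (p : ℤ) ∣ Q.eval n) (h1 : ¬ (p : ℤ) ∣ (derivative Q).eval n) :
    ∃ z : ℤ_[p], aeval z Q = 0 := by
  have e0 : aeval (n : ℤ_[p]) Q = ((Q.eval n : ℤ) : ℤ_[p]) := by
    have := Polynomial.aeval_algebraMap_apply_eq_algebraMap_eval (R := ℤ) (A := ℤ_[p]) n Q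
    simpa using this
  have e1 : aeval (n : ℤ_[p]) (derivative Q) = (((derivative Q).eval n : ℤ) : ℤ_[p]) := by
    have := Polynomial.aeval_algebraMap_apply_eq_algebraMap_eval (R := ℤ) (A := ℤ_[p]) n
      (derivative Q)
    simpa using this
  have hn0 : ‖aeval (n : ℤ_[p]) Q‖ < 1 := by
    rw [e0]; exact (PadicInt.norm_int_lt_one_iff_dvd _).mpr h0
  have hn1 : ‖aeval (n : ℤ_[p]) (derivative Q)‖ = 1 := by
    rw [e1]
    have hle := PadicInt.norm_le_one (((derivative Q).eval n : ℤ) : ℤ_[p])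
    have hnlt : ¬ ‖(((derivative Q).eval n : ℤ) : ℤ_[p])‖ < 1 := fun h =>
      h1 ((PadicInt.norm_int_lt_one_iff_dvd _).mp h)
    exact le_antisymm hle (not_lt.mp hnlt)
  have hnorm : ‖aeval (n : ℤ_[p]) Q‖ < ‖aeval (n : ℤ_[p]) (derivative Q)‖ ^ 2 := by
    rw [hn1]; simpa using hn0
  obtain ⟨z, hz, -⟩ := hensels_lemma hnorm
  exact ⟨z, hz⟩

/-- A separable non-constant rational polynomial has a root in `ℚ_[p]`, in fact in `ℤ_[p]`,
for infinitely many primes `p`. -/
theorem exists_padic_root (P : ℚ[X]) (hsep : P.Separable) (hdeg : 0 < P.natDegree) (B : ℕ) :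
    ∃ (p : ℕ) (_ : Fact p.Prime), B < p ∧ ∃ y : ℚ_[p], aeval y P = 0 := by
  obtain ⟨d, hd, hQ⟩ := IsLocalization.integerNormalization_spec (nonZeroDivisors ℤ) P
  set Q := IsLocalization.integerNormalization (nonZeroDivisors ℤ) P
  have hd0 : d ≠ 0 := nonZeroDivisors.ne_zero hd
  have hdQ : (d : ℚ) ≠ 0 := by exact_mod_cast hd0
  have hQ' : Q.map (Int.castRingHom ℚ) = C (d : ℚ) * P := by
    have := hQ
    simp only [algebraMap_int_eq] at this
    rw [this, zsmul_eq_mul, ← map_intCast (C : ℚ →+* ℚ[X])]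
  have hQsep : (Q.map (Int.castRingHom ℚ)).Separable := by
    rw [hQ']
    exact Polynomial.Separable.unit_mul
      (Polynomial.isUnit_C.mpr (isUnit_iff_ne_zero.mpr hdQ)) hsep
  have hQdeg : 0 < Q.natDegree := by
    have h1 : (Q.map (Int.castRingHom ℚ)).natDegree = P.natDegree := by
      rw [hQ', natDegree_C_mul hdQ]
    have h2 : (Q.map (Int.castRingHom ℚ)).natDegree = Q.natDegree :=
      natDegree_map_eq_of_injective Int.cast_injective Q
    omega
  obtain ⟨u, v, e, he, huv⟩ := exists_bezout_int Q hQsep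
  obtain ⟨p, hpB, hp, n, hn⟩ := schur_prime_dvd_eval Q hQdeg (max B e.natAbs)
  have : Fact p.Prime := ⟨hp⟩
  have hpe : ¬ (p : ℤ) ∣ e := by
    intro hdiv
    have h1 : p ∣ e.natAbs := Int.natCast_dvd.mp hdiv
    have h2 : p ≤ e.natAbs := Nat.le_of_dvd (Int.natAbs_pos.mpr he) h1
    have h3 : e.natAbs < p := lt_of_le_of_lt (le_max_right _ _) hpB
    omega
  have hder : ¬ (p : ℤ) ∣ (derivative Q).eval n := by
    intro hdiv
    apply hpe
    have := congrArg (Polynomial.eval n) huv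
    simp only [eval_add, eval_mul, eval_C] at this
    rw [← this]
    exact dvd_add (Dvd.dvd.mul_left hn _) (Dvd.dvd.mul_left hdiv _)
  obtain ⟨z, hz⟩ := exists_padicInt_root Q p n hn hder
  refine ⟨p, ⟨hp⟩, lt_of_le_of_lt (le_max_left _ _) hpB, (z : ℚ_[p]), ?_⟩
  have h1 : aeval (z : ℚ_[p]) (Q.map (Int.castRingHom ℚ)) = 0 := by
    have h2 : aeval (z : ℚ_[p]) (Q.map (Int.castRingHom ℚ)) = aeval (z : ℚ_[p]) Q := by
      have := Polynomial.aeval_map_algebraMap (A := ℚ) (B := ℚ_[p]) (z : ℚ_[p]) Q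
      simpa using this
    rw [h2]
    have h3 : aeval (z : ℚ_[p]) Q = ((aeval z Q : ℤ_[p]) : ℚ_[p]) := by
      have := Polynomial.aeval_algebraMap_apply (A := ℤ_[p]) (B := ℚ_[p]) z Q
      simpa using this
    rw [h3, hz]; simp
  rw [hQ', map_mul, aeval_C] at h1
  rcases mul_eq_zero.mp h1 with h | h
  · exfalso
    simp only [eq_ratCast, Rat.cast_intCast, Int.cast_eq_zero] at h
    exact hd0 h
  · exact h

/-- Elements of `ℚ_[p]` integral over `ℤ` lie in `ℤ_[p]`. -/
theorem padic_norm_le_one_of_isIntegral (p : ℕ) [Fact p.Prime] (x : ℚ_[p])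
    (hx : IsIntegral ℤ x) : ‖x‖ ≤ 1 := by
  have hx' : IsIntegral ℤ_[p] x := hx.tower_top
  obtain ⟨y, hy⟩ := (IsIntegrallyClosed.isIntegral_iff (R := ℤ_[p]) (K := ℚ_[p])).mp hx'
  rw [← hy]
  exact y.2

/-- A ring homomorphism to `ℚ_[p]` with integral values factors through `ℤ_[p]`. -/
noncomputable def toPadicInt {R : Type*} [Ring R] (p : ℕ) [Fact p.Prime] (f : R →+* ℚ_[p])
    (hf : ∀ r, ‖f r‖ ≤ 1) : R →+* ℤ_[p] where
  toFun r := ⟨f r, hf r⟩
  map_one' := Subtype.ext (map_one f)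
  map_mul' a b := Subtype.ext (map_mul f a b)
  map_zero' := Subtype.ext (map_zero f)
  map_add' a b := Subtype.ext (map_add f a b)

theorem coe_toPadicInt {R : Type*} [Ring R] (p : ℕ) [Fact p.Prime] (f : R →+* ℚ_[p])
    (hf : ∀ r, ‖f r‖ ≤ 1) (r : R) : ((toPadicInt p f hf r : ℤ_[p]) : ℚ_[p]) = f r := rfl

/-- **[O-PRIME]** An order in a number field (a subring of `ℂ`, finitely generated as a
`ℤ`-module) embeds into `ℤ_[p]` for infinitely many primes `p` (the primes of degree one). -/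
theorem exists_padic_embedding (R : Subring ℂ) [Module.Finite ℤ R] (B : ℕ) :
    ∃ (p : ℕ) (_ : Fact p.Prime), B < p ∧ ∃ iota : R →+* ℤ_[p], Function.Injective iota := by
  classical
  have hint : ∀ r : R, IsIntegral ℤ (r : ℂ) := fun r =>
    map_isIntegral_int R.subtype (Algebra.IsIntegral.isIntegral (R := ℤ) r)
  obtain ⟨s, hs⟩ := (Module.Finite.fg_top : (⊤ : Submodule ℤ R).FG)
  set S : Set ℂ := Subtype.val '' (s : Set R) with hS
  have hSfin : S.Finite := (Finset.finite_toSet s).image _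
  set L : IntermediateField ℚ ℂ := IntermediateField.adjoin ℚ S with hL
  have hSint : ∀ x ∈ S, IsIntegral ℚ x := by
    rintro x ⟨r, -, rfl⟩
    exact (hint r).tower_top
  have : Finite S := hSfin.to_subtype
  have : FiniteDimensional ℚ L := IntermediateField.finiteDimensional_adjoin hSint
  have hmem : ∀ r : R, (r : ℂ) ∈ L := by
    intro r
    have hr : r ∈ Submodule.span ℤ (s : Set R) := by rw [hs]; trivial
    induction hr using Submodule.span_induction with
    | mem x hx => exact IntermediateField.subset_adjoin ℚ S ⟨x, hx, rfl⟩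
    | zero => exact L.zero_mem
    | add x y _ _ hx hy => exact L.add_mem hx hy
    | smul a x _ hx =>
      have : ((a • x : R) : ℂ) = a • (x : ℂ) := by simp
      rw [this]
      exact zsmul_mem hx a
  let pb : PowerBasis ℚ L := Field.powerBasisOfFiniteOfSeparable ℚ L
  have hgen : IsIntegral ℚ pb.gen := pb.isIntegral_gen
  have hirr : Irreducible (minpoly ℚ pb.gen) := minpoly.irreducible hgen
  obtain ⟨p, hp, hpB, y, hy⟩ := exists_padic_root (minpoly ℚ pb.gen) hirr.separable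
    (minpoly.natDegree_pos hgen) B
  let ψ : L →ₐ[ℚ] ℚ_[p] := pb.lift y hy
  let incl : R →+* L :=
    { toFun := fun r => ⟨(r : ℂ), hmem r⟩
      map_one' := rfl
      map_mul' := fun _ _ => rfl
      map_zero' := rfl
      map_add' := fun _ _ => rfl }
  let f : R →+* ℚ_[p] := (ψ : L →+* ℚ_[p]).comp incl
  have hf : ∀ r, ‖f r‖ ≤ 1 := fun r =>
    padic_norm_le_one_of_isIntegral p (f r)
      (map_isIntegral_int f (Algebra.IsIntegral.isIntegral (R := ℤ) r))
  refine ⟨p, hp, hpB, toPadicInt p f hf, ?_⟩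
  intro a b hab
  have h1 : f a = f b := by
    rw [← coe_toPadicInt p f hf a, ← coe_toPadicInt p f hf b, hab]
  have h2 : incl a = incl b := (ψ : L →+* ℚ_[p]).injective h1
  have h3 : (a : ℂ) = (b : ℂ) := congrArg (fun x : L => (x : ℂ)) h2
  exact Subtype.ext h3

/-- One prime for all subrings of a fixed order. -/
theorem exists_padic_embedding_of_le (R₀ : Subring ℂ) [Module.Finite ℤ R₀] (B : ℕ) :
    ∃ (p : ℕ) (_ : Fact p.Prime), B < p ∧
      ∀ R : Subring ℂ, R ≤ R₀ → ∃ iota : R →+* ℤ_[p], Function.Injective iota := by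
  obtain ⟨p, hp, hpB, iota, hiota⟩ := exists_padic_embedding R₀ B
  refine ⟨p, hp, hpB, fun R hR => ⟨iota.comp (Subring.inclusion hR), ?_⟩⟩
  exact hiota.comp (Subring.inclusion_injective hR)

/-- A nonzero algebraic integer is a `p`-adic unit under every ring homomorphism to `ℤ_[p]`,
for all large primes `p`. -/
theorem exists_bound_not_dvd (x : ℂ) (hx : IsIntegral ℤ x) (hx0 : x ≠ 0) :
    ∃ B : ℕ, ∀ (p : ℕ) [Fact p.Prime], B < p → ∀ (R : Subring ℂ) (hxR : x ∈ R)
      (iota : R →+* ℤ_[p]), ¬ (p : ℤ_[p]) ∣ iota ⟨x, hxR⟩ := by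
  set m : ℤ[X] := minpoly ℤ x with hm
  have hm0 : m.coeff 0 ≠ 0 := by
    intro h0
    have h1 : (minpoly ℚ x).coeff 0 ≠ 0 := minpoly.coeff_zero_ne_zero hx.tower_top hx0
    apply h1
    rw [minpoly.isIntegrallyClosed_eq_field_fractions' ℚ hx, Polynomial.coeff_map, ← hm, h0,
      map_zero]
  refine ⟨(m.coeff 0).natAbs, ?_⟩
  intro p _ hpB R hxR iota hdiv
  have hroot : aeval (⟨x, hxR⟩ : R) m = 0 := by
    apply Subtype.ext
    have h1 : ((aeval (⟨x, hxR⟩ : R) m : R) : ℂ) = aeval x m := by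
      have := Polynomial.aeval_algHom_apply (R.subtype.toIntAlgHom) (⟨x, hxR⟩ : R) m
      exact this.symm
    rw [h1, hm, minpoly.aeval]
    rfl
  have hroot' : aeval (iota ⟨x, hxR⟩) m = 0 := by
    have := Polynomial.aeval_algHom_apply (iota.toIntAlgHom) (⟨x, hxR⟩ : R) m
    rw [hroot, map_zero] at this
    exact this
  obtain ⟨q, hq⟩ : X ∣ m - C (m.coeff 0) := Polynomial.X_dvd_sub_C
  have hmq : m = C (m.coeff 0) + X * q := by rw [← hq]; ring
  have h2 : aeval (iota ⟨x, hxR⟩) m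
      = ((m.coeff 0 : ℤ) : ℤ_[p]) + iota ⟨x, hxR⟩ * aeval (iota ⟨x, hxR⟩) q := by
    conv_lhs => rw [hmq]
    simp
  rw [hroot'] at h2
  have h3 : (p : ℤ_[p]) ∣ ((m.coeff 0 : ℤ) : ℤ_[p]) := by
    have h4 : ((m.coeff 0 : ℤ) : ℤ_[p]) = - (iota ⟨x, hxR⟩ * aeval (iota ⟨x, hxR⟩) q) := by
      linear_combination - h2
    rw [h4]
    exact (Dvd.dvd.mul_right hdiv _).neg_right
  have h5 : (p : ℤ) ∣ m.coeff 0 := by
    rw [← PadicInt.norm_int_lt_one_iff_dvd, PadicInt.norm_lt_one_iff_dvd]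
    exact h3
  have h6 : p ∣ (m.coeff 0).natAbs := Int.natCast_dvd.mp h5
  have h7 : p ≤ (m.coeff 0).natAbs := Nat.le_of_dvd (Int.natAbs_pos.mpr hm0) h6
  omega

end Fermat.Agent.S58.helper8
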