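import Fermat.Agent.S58.helper34_Cmp
import Fermat.Agent.S58.helper32_FormsNew
import Fermat.Agent.S58.helper32_FormsPush
import Fermat.Agent.S58.helper7_EcUnip
import Fermat.Agent.S58.helper8_OPrime
import Fermat.Agent.S35
import Fermat.Agent.T3.helper34_WireS36
import Fermat.Agent.P3.helper54_EigenChar
import Fermat.Agent.P3.helper32_P3Uncond
import Fermat.Agent.S54.helper91_Frobenius
import Fermat.Prelude.Def_WeierstrassCurve_ConductorLevel

/-!
# S58, the wiring (helper34): conductor-level matching from the tier-3 core and the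
elliptic-curve boxes

`s58_of_boxes` : the frozen statement S58 (verbatim binders) from

* `Fermat.Agent.T3.helper34.S36CoreStatement` (the deliverable of tier 3, `hres`-free),
* `ECFieldStatement`, `ECFaithStatement`, `ECFrobStatement` (torsion of `W` over `ℚ̄`),

using on main: the forms side of helper32 (minimal-level newform, push to `rad Δ`), `[EC-UNIP]`
of helper7, `[O-PRIME]` of helper8, the comparison `[CMP]`, the frozen statement S35 and strong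
S30.  The hypotheses `hirr`, `hp2`, `hp2N` of S58 are not used.
-/

set_option autoImplicit false
set_option linter.unusedSectionVars false
set_option linter.unusedVariables false
set_option linter.style.haveILetI false

open Polynomial CongruenceSubgroup

noncomputable section

namespace Fermat.Agent.S58.helper34

open Fermat.Agent.P3 Fermat.Agent.P6.helper78 ModularFormClass
open Fermat.Agent.P3.helper54

/-! ## The boxes -/

/-- **[EC-FIELD]** for all curves and all torsion levels. -/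
def ECFieldStatement : Prop :=
  ∀ (W : WeierstrassCurve ℤ), W.Δ ≠ 0 → ∀ n : ℕ, 0 < n → ECFieldAt W n

/-- **[EC-TORS]** for all curves and all torsion levels. -/
def ECFaithStatement : Prop :=
  ∀ (W : WeierstrassCurve ℤ), W.Δ ≠ 0 → ∀ n : ℕ, 0 < n → ECFaithAt W n

/-- **[EC-FROB]** the characteristic equation of the Frobenius lifts at a good prime `ℓ ∤ n` on
`W[n]`. -/
def ECFrobStatement : Prop :=
  ∀ (W : WeierstrassCurve ℤ) (n ℓ : ℕ), ℓ.Prime → ¬ ℓ ∣ n → W.IsGoodPrimeFor ℓ →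
    ∀ A : ValuationSubring Qbar, A.LiesOverPrime ℓ → ∀ φ : GQ, A.IsFrobeniusAt φ ℓ →
      ∀ P : Tors W n, φ • φ • P - W.apOfModel ℓ • (φ • P) + (ℓ : ℤ) • P = 0

/-! ## The coefficient ring -/

section Coeff

variable {M₀ : ℕ} [NeZero M₀] (g₀ : CuspForm (Gamma0 M₀) 2) (hg₀ : g₀.IsNormalizedEigenform)

/-- the range of the eigencharacter is a finite `ℤ`-module -/
theorem finite_range_eigenCharC (S : Set ℕ) :
    Module.Finite ℤ (eigenCharC S g₀ hg₀).range := by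
  have _i : Module.Finite ℤ (CuspForm.heckeAlgebra M₀ 2 S) := Fermat.Agent.S22.result M₀ 2 S
  exact Module.Finite.of_surjective
    ((eigenCharC S g₀ hg₀).rangeRestrict.toIntAlgHom.toLinearMap)
    (eigenCharC S g₀ hg₀).rangeRestrict_surjective

/-- the range of the eigencharacter decreases with `S` -/
theorem range_eigenCharC_mono {S S' : Set ℕ} (h : S ⊆ S') :
    (eigenCharC S' g₀ hg₀).range ≤ (eigenCharC S g₀ hg₀).range := by
  rintro x ⟨t, rfl⟩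
  exact ⟨⟨(t : Module.End ℂ (CuspForm (Gamma0 M₀) 2)), CuspForm.heckeAlgebra_mono h t.2⟩, rfl⟩

/-- **the coefficient ring**: for every bound `B` there is a prime `λ > B` and an injective
ring homomorphism from the range of the eigencharacter away from `S₀ ∪ {λ}` to `ℤ_[λ]`. -/
theorem exists_lam (S₀ : Finset ℕ) (B : ℕ) :
    ∃ (lam : ℕ) (_ : Fact lam.Prime), B < lam ∧
      ∃ iota : (eigenCharC (↑(insert lam S₀ : Finset ℕ) : Set ℕ) g₀ hg₀).range →+* ℤ_[lam],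
        Function.Injective iota := by
  haveI := finite_range_eigenCharC g₀ hg₀ (↑S₀ : Set ℕ)
  obtain ⟨lam, hlam, hB, h⟩ := Fermat.Agent.S58.helper8.exists_padic_embedding_of_le
    (eigenCharC (↑S₀ : Set ℕ) g₀ hg₀).range B
  refine ⟨lam, hlam, hB, h _ (range_eigenCharC_mono g₀ hg₀ ?_)⟩
  intro x hx
  exact Finset.mem_coe.mpr (Finset.mem_insert_of_mem (Finset.mem_coe.mp hx))

end Coeff

/-! ## The count bound -/

section Count

variable {F : Type*} [Field F] [Fintype F] [DecidableEq F]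

/-- the quadratic polynomial in `y` cut out by the Weierstrass equation at a fixed `x` -/
noncomputable def fibrePoly (W : WeierstrassCurve.Affine F) (x : F) : F[X] :=
  X ^ 2 + C (W.a₁ * x + W.a₃) * X - C (x ^ 3 + W.a₂ * x ^ 2 + W.a₄ * x + W.a₆)

theorem fibrePoly_ne_zero (W : WeierstrassCurve.Affine F) (x : F) : fibrePoly W x ≠ 0 := by
  intro h
  have h2 := congrArg (fun p : F[X] => p.coeff 2) h
  simp only [fibrePoly, coeff_sub, coeff_add, coeff_X_pow, coeff_C_mul, coeff_X, coeff_C,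
    coeff_zero] at h2
  norm_num at h2

theorem fibrePoly_natDegree_le (W : WeierstrassCurve.Affine F) (x : F) :
    (fibrePoly W x).natDegree ≤ 2 := by
  unfold fibrePoly
  compute_degree

theorem isRoot_fibrePoly_iff (W : WeierstrassCurve.Affine F) (x y : F) :
    (fibrePoly W x).IsRoot y ↔ W.Equation x y := by
  rw [WeierstrassCurve.Affine.equation_iff, IsRoot.def, fibrePoly]
  simp only [eval_sub, eval_add, eval_pow, eval_X, eval_mul, eval_C]
  constructor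
  · intro h
    linear_combination h
  · intro h
    linear_combination h

open scoped Classical in
/-- the number of solutions of the Weierstrass equation is at most `2 #F` -/
theorem card_equation_le (W : WeierstrassCurve.Affine F) :
    (Finset.univ.filter (fun p : F × F => W.Equation p.1 p.2)).card ≤ 2 * Fintype.card F := by
  classical
  have hsub : Finset.univ.filter (fun p : F × F => W.Equation p.1 p.2) ⊆
      Finset.univ.biUnion (fun x : F => (fibrePoly W x).roots.toFinset.image (fun y => (x, y))) := by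
    intro p hp
    rw [Finset.mem_filter] at hp
    rw [Finset.mem_biUnion]
    refine ⟨p.1, Finset.mem_univ _, ?_⟩
    rw [Finset.mem_image]
    refine ⟨p.2, ?_, rfl⟩
    rw [Multiset.mem_toFinset, mem_roots (fibrePoly_ne_zero W p.1), isRoot_fibrePoly_iff]
    exact hp.2
  refine (Finset.card_le_card hsub).trans ?_
  refine Finset.card_biUnion_le.trans ?_
  have h1 : ∀ x ∈ (Finset.univ : Finset F),
      ((fibrePoly W x).roots.toFinset.image (fun y => (x, y))).card ≤ 2 := by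
    intro x _
    refine Finset.card_image_le.trans ?_
    refine (Multiset.toFinset_card_le _).trans ?_
    exact (card_roots' _).trans (fibrePoly_natDegree_le W x)
  refine (Finset.sum_le_card_nsmul _ _ 2 h1).trans ?_
  rw [Finset.card_univ, smul_eq_mul, mul_comm]

open scoped Classical in
/-- the number of points of a Weierstrass curve over a finite field is at most `2 #F + 1` -/
theorem card_point_le (W : WeierstrassCurve.Affine F) :
    Nat.card W.Point ≤ 2 * Fintype.card F + 1 := by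
  classical
  let f : W.Point → Option (F × F) := fun P =>
    match P with
    | .zero => none
    | .some x y _ => some (x, y)
  have hf : Function.Injective f := by
    rintro (_ | ⟨x₁, y₁, h₁⟩) (_ | ⟨x₂, y₂, h₂⟩) h <;>
      simp only [f, Option.some.injEq, Prod.mk.injEq, reduceCtorEq] at h
    · rfl
    · obtain ⟨rfl, rfl⟩ := h
      rfl
  let T : Finset (Option (F × F)) :=
    insert none ((Finset.univ.filter (fun p : F × F => W.Equation p.1 p.2)).image some)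
  have hT : ∀ P : W.Point, f P ∈ T := by
    rintro (_ | ⟨x, y, h⟩)
    · exact Finset.mem_insert_self _ _
    · refine Finset.mem_insert_of_mem (Finset.mem_image.mpr ⟨(x, y), ?_, rfl⟩)
      rw [Finset.mem_filter]
      exact ⟨Finset.mem_univ _, h.1⟩
  have h1 : Nat.card W.Point ≤ Nat.card T := by
    refine Nat.card_le_card_of_injective (fun P => (⟨f P, hT P⟩ : T)) ?_
    intro P Q h
    exact hf (congrArg Subtype.val h)
  have h2 : Nat.card T = T.card := by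
    rw [Nat.card_eq_fintype_card, Fintype.card_coe]
  rw [h2] at h1
  refine h1.trans ?_
  refine (Finset.card_insert_le _ _).trans ?_
  refine Nat.succ_le_succ ?_
  exact Finset.card_image_le.trans (card_equation_le W)

end Count

/-- **the count bound**: at a prime `q`, `a_q(W) ≠ ± (q + 1)`. -/
theorem apOfModel_ne (W : WeierstrassCurve ℤ) {q : ℕ} (hq : q.Prime) :
    W.apOfModel q ≠ (q : ℤ) + 1 ∧ W.apOfModel q ≠ -((q : ℤ) + 1) := by
  haveI : Fact q.Prime := ⟨hq⟩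
  have hcard : Nat.card (ZMod q) = q := by
    rw [Nat.card_eq_fintype_card, ZMod.card]
  have hle : Nat.card (W.reductionMod q).toAffine.Point ≤ 2 * q + 1 := by
    have := card_point_le (W.reductionMod q).toAffine
    rwa [ZMod.card] at this
  have hpos : 0 < Nat.card (W.reductionMod q).toAffine.Point := Nat.card_pos
  have e : W.apOfModel q =
      (q : ℤ) + 1 - (Nat.card (W.reductionMod q).toAffine.Point : ℤ) := by
    rw [WeierstrassCurve.apOfModel, WeierstrassCurve.traceOfFrobenius, hcard]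
    rfl
  constructor
  · rw [e]
    intro h
    have : (Nat.card (W.reductionMod q).toAffine.Point : ℤ) = 0 := by linarith
    have h0 : Nat.card (W.reductionMod q).toAffine.Point = 0 := by exact_mod_cast this
    omega
  · rw [e]
    intro h
    have : (Nat.card (W.reductionMod q).toAffine.Point : ℤ) = 2 * (q : ℤ) + 2 := by linarith
    have h0 : Nat.card (W.reductionMod q).toAffine.Point = 2 * q + 2 := by exact_mod_cast this
    omega


/-! ## Conversions -/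

section Conv

variable {M₀ : ℕ} [NeZero M₀] (g₀ : CuspForm (Gamma0 M₀) 2) (hg₀ : g₀.IsNormalizedEigenform)

/-- the value of `iota ∘ chig` at `T_ℓ` when `a_ℓ(g₀)` is the integer `a` -/
theorem iota_T_eq (S : Set ℕ) {O' : Type} [CommRing O']
    (iota : (eigenCharC S g₀ hg₀).range →+* O')
    {ℓ : ℕ} (hℓ : ℓ.Prime) (hℓM : ¬ ℓ ∣ M₀) (hℓS : ℓ ∉ S) (a : ℤ)
    (ha : qCoeff ⇑g₀ ℓ = (a : ℂ)) :
    (iota.comp (eigenCharC S g₀ hg₀).rangeRestrict) (CuspForm.heckeAlgebra.T hℓ hℓM hℓS) =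
      (a : O') := by
  have h1 : (eigenCharC S g₀ hg₀).rangeRestrict (CuspForm.heckeAlgebra.T hℓ hℓM hℓS) =
      ((a : ℤ) : (eigenCharC S g₀ hg₀).range) := by
    apply Subtype.ext
    rw [RingHom.coe_rangeRestrict, eigenCharC_T, ha]
    simp
  rw [RingHom.comp_apply, h1, map_intCast]

/-- the trace of an endomorphism of a free module of rank two with characteristic polynomial
`X² - a X + b` -/
theorem trace_of_charpoly {R : Type*} [CommRing R] {V : Type*} [AddCommGroup V] [Module R V]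
    [Module.Free R V] [Module.Finite R V] (hrank : Module.finrank R V = 2)
    (f : Module.End R V) (a b : R) (hf : LinearMap.charpoly f = X ^ 2 - C a * X + C b) :
    LinearMap.trace R V f = a := by
  have h := Fermat.Agent.P3.helper64.trace_pow_eq_dickson hrank f a b hf 1
  rwa [pow_one, dickson_one, eval_X] at h

/-- `λ` lies in the maximal ideal of a local extension -/
theorem natCast_mem_maximalIdeal_of_isLocalHom {O' O'' : Type} [CommRing O'] [IsLocalRing O']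
    [CommRing O''] [IsLocalRing O''] [Algebra O' O''] [IsLocalHom (algebraMap O' O'')]
    (lam : ℕ) (h : (lam : O') ∈ IsLocalRing.maximalIdeal O') :
    (lam : O'') ∈ IsLocalRing.maximalIdeal O'' := by
  rw [IsLocalRing.mem_maximalIdeal, mem_nonunits_iff]
  intro hu
  have h1 : IsUnit (algebraMap O' O'' (lam : O')) := by rw [map_natCast]; exact hu
  exact (IsLocalRing.mem_maximalIdeal _).mp h (IsUnit.of_map (algebraMap O' O'') _ h1)

/-- the boxes at the torsion levels `λ^k` -/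
theorem boxes_at (hField : ECFieldStatement) (hFaith : ECFaithStatement)
    (hFrob : ECFrobStatement) (W : WeierstrassCurve ℤ) (hΔ : W.Δ ≠ 0) (lam : ℕ)
    [hlam : Fact lam.Prime] (S : Finset ℕ) (hlamS : lam ∈ S)
    (hS : ∀ ℓ : ℕ, ℓ.Prime → ℓ ∉ S → W.IsGoodPrimeFor ℓ) :
    (∀ k, ECFieldAt W (lam ^ k)) ∧ (∀ k, ECFaithAt W (lam ^ k)) ∧
      (∀ k, ECFrobAt W (lam ^ k) S) := by
  have hpos : ∀ k, 0 < lam ^ k := fun k => pow_pos hlam.out.pos k
  refine ⟨fun k => hField W hΔ _ (hpos k), fun k => hFaith W hΔ _ (hpos k), ?_⟩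
  intro k ℓ hℓ hℓS A hA φ hφ P
  refine hFrob W (lam ^ k) ℓ hℓ ?_ (hS ℓ hℓ hℓS) A hA φ hφ P
  intro hdvd
  have h1 : ℓ ∣ lam := hℓ.dvd_of_dvd_pow hdvd
  have h2 : ℓ = lam := (Nat.prime_dvd_prime_iff_eq hℓ hlam.out).mp h1
  exact hℓS (h2 ▸ hlamS)

end Conv

/-! ## Lemma A (i): the primes exactly dividing the minimal level are bad -/

section Main

theorem padic_lam_mem (lam : ℕ) [Fact lam.Prime] :
    (lam : ℤ_[lam]) ∈ IsLocalRing.maximalIdeal ℤ_[lam] := by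
  rw [IsLocalRing.mem_maximalIdeal]
  exact PadicInt.p_nonunit

/-- the Frobenius characteristic polynomials of an attached representation, in terms of the
curve -/
theorem charpoly_curve {M₀ : ℕ} [NeZero M₀] (g₀ : CuspForm (Gamma0 M₀) 2)
    (hg₀ : g₀.IsNormalizedEigenform) (W : WeierstrassCurve ℤ) (S : Finset ℕ)
    (hMS : ∀ q : ℕ, q.Prime → q ∣ M₀ → q ∈ S)
    (hgW : ∀ ℓ : ℕ, ℓ.Prime → ℓ ∉ S → qCoeff ⇑g₀ ℓ = (W.apOfModel ℓ : ℂ))
    {O' O'' : Type} [CommRing O'] [CommRing O''] [IsLocalRing O''] [Algebra O' O'']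
    (iota : (eigenCharC (↑S : Set ℕ) g₀ hg₀).range →+* O')
    (ρ : GaloisRepAdic O'')
    (hρ1 : ∀ (ℓ : ℕ) (hℓ : ℓ.Prime) (hℓM : ¬ ℓ ∣ M₀) (hℓS : ℓ ∉ (↑S : Set ℕ))
      (A : ValuationSubring Qbar), A.LiesOverPrime ℓ → ∀ σ : GQ, A.IsFrobeniusAt σ ℓ →
        LinearMap.charpoly (ρ.ρ σ) =
          X ^ 2 - C (algebraMap O' O''
            ((iota.comp (eigenCharC (↑S : Set ℕ) g₀ hg₀).rangeRestrict)
              (CuspForm.heckeAlgebra.T hℓ hℓM hℓS))) * X + C ((ℓ : ℕ) : O'')) :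
    ∀ (ℓ : ℕ), ℓ.Prime → ℓ ∉ S → ∀ A : ValuationSubring Qbar, A.LiesOverPrime ℓ →
      ∀ φ : GQ, A.IsFrobeniusAt φ ℓ →
        LinearMap.charpoly (ρ.ρ φ) =
          X ^ 2 - C ((W.apOfModel ℓ : ℤ) : O'') * X + C ((ℓ : ℕ) : O'') := by
  intro ℓ hℓ hℓS A hA φ hφ
  have hℓM : ¬ ℓ ∣ M₀ := fun h => hℓS (hMS ℓ hℓ h)
  have hℓS' : ℓ ∉ (↑S : Set ℕ) := fun h => hℓS (Finset.mem_coe.mp h)
  rw [hρ1 ℓ hℓ hℓM hℓS' A hA φ hφ,
    iota_T_eq g₀ hg₀ (↑S : Set ℕ) iota hℓ hℓM hℓS' (W.apOfModel ℓ) (hgW ℓ hℓ hℓS), map_intCast]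

/-- **Lemma A (i)**: a prime exactly dividing the level of the newform is a bad prime of the
curve. -/
theorem dvd_disc_of_exactly_dvd (hField : ECFieldStatement) (hFaith : ECFaithStatement)
    (hFrob : ECFrobStatement)
    (W : WeierstrassCurve ℤ) (hΔ : W.Δ ≠ 0) {M₀ : ℕ} [NeZero M₀]
    {g₀ : CuspForm (Gamma0 M₀) 2} (hg₀ : g₀.IsNewform)
    (S₀ : Finset ℕ)
    (hS₀M : ∀ q : ℕ, q.Prime → q ∣ M₀ → q ∈ S₀)
    (hS₀ : ∀ ℓ : ℕ, ℓ.Prime → ℓ ∉ S₀ →
      W.IsGoodPrimeFor ℓ ∧ qCoeff ⇑g₀ ℓ = (W.apOfModel ℓ : ℂ))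
    {q : ℕ} (hq : q.Prime) (hqM : q ∣ M₀) (hq2 : ¬ q ^ 2 ∣ M₀) : (q : ℤ) ∣ W.Δ := by
  by_contra hgood
  obtain ⟨lam, hlamF, hqlam, iota, -⟩ := exists_lam g₀ hg₀.1 S₀ q
  haveI := hlamF
  have hlamS : lam ∈ insert lam S₀ := Finset.mem_insert_self _ _
  have hMS : ∀ q : ℕ, q.Prime → q ∣ M₀ → q ∈ insert lam S₀ :=
    fun q hq hqM => Finset.mem_insert_of_mem (hS₀M q hq hqM)
  have hS : ∀ ℓ : ℕ, ℓ.Prime → ℓ ∉ insert lam S₀ →
      W.IsGoodPrimeFor ℓ ∧ qCoeff ⇑g₀ ℓ = (W.apOfModel ℓ : ℂ) :=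
    fun ℓ hℓ hℓS => hS₀ ℓ hℓ (fun h => hℓS (Finset.mem_insert_of_mem h))
  have hlam : (lam : ℤ_[lam]) ∈ IsLocalRing.maximalIdeal ℤ_[lam] := padic_lam_mem lam
  obtain ⟨O'', i1, i2, i3, i4, i5, i6, i7, i8, i9, hinj, ρ, hρ1, hρ2⟩ :=
    Fermat.Agent.S35.result hg₀ lam (insert lam S₀) ℤ_[lam] hlam
      (eigenCharC (↑(insert lam S₀ : Finset ℕ) : Set ℕ) g₀ hg₀.1)
      (fun ℓ hℓ hℓM hℓS => eigenCharC_T _ g₀ hg₀.1 hℓ hℓM hℓS) iota hlamS hMS
  have hlam'' : (lam : O'') ∈ IsLocalRing.maximalIdeal O'' :=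
    natCast_mem_maximalIdeal_of_isLocalHom (O' := ℤ_[lam]) lam hlam
  have hρ := charpoly_curve g₀ hg₀.1 W (insert lam S₀) hMS (fun ℓ hℓ hℓS => (hS ℓ hℓ hℓS).2)
    iota ρ hρ1
  obtain ⟨hF1, hF2, hF3⟩ := boxes_at hField hFaith hFrob W hΔ lam (insert lam S₀) hlamS
    (fun ℓ hℓ hℓS => (hS ℓ hℓ hℓS).1)
  obtain ⟨A, φ, hA, hφ⟩ := Fermat.Agent.S54.helper91.exists_isFrobeniusAt hq
  have hqlam' : q ≠ lam := hqlam.ne
  have hCE : ∀ k, ∀ P : Tors W (lam ^ k),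
      φ • φ • P - W.apOfModel q • (φ • P) + (q : ℤ) • P = 0 := by
    intro k P
    refine hFrob W (lam ^ k) q hq ?_ hgood A hA φ hφ P
    intro hdvd
    exact hqlam' ((Nat.prime_dvd_prime_iff_eq hq hlamF.out).mp (hq.dvd_of_dvd_pow hdvd))
  have htr := trace_frobenius_eq W lam O'' hlam'' ρ (insert lam S₀) hρ hF1 hF2 hF3 q hq hqlam'
    A hA φ hφ hCE
  obtain ⟨hne1, hne2⟩ := apOfModel_ne W hq
  rcases hρ2 q hq hqlam' hqM hq2 A hA φ hφ with h | h
  · have h1 := trace_of_charpoly ρ.finrank_eq (ρ.ρ φ) ((q : O'') + 1) (q : O'') h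
    rw [htr] at h1
    apply hne1
    have : ((W.apOfModel q : ℤ) : O'') = (((q : ℤ) + 1 : ℤ) : O'') := by
      rw [h1]; push_cast; rfl
    exact Int.cast_injective this
  · have h' : LinearMap.charpoly (ρ.ρ φ) =
        X ^ 2 - C (-((q : O'') + 1)) * X + C (q : O'') := by
      rw [h, map_neg]; ring
    have h1 := trace_of_charpoly ρ.finrank_eq (ρ.ρ φ) (-((q : O'') + 1)) (q : O'') h'
    rw [htr] at h1
    apply hne2
    have : ((W.apOfModel q : ℤ) : O'') = ((-((q : ℤ) + 1) : ℤ) : O'') := by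
      rw [h1]; push_cast; rfl
    exact Int.cast_injective this

/-- **Lemma A (ii)**: the level of the newform is not divisible by the square of a prime whose
cube does not divide it. -/
theorem not_sq_dvd_of_core (hCore : Fermat.Agent.T3.helper34.S36CoreStatement)
    (hField : ECFieldStatement) (hFaith : ECFaithStatement) (hFrob : ECFrobStatement)
    (W : WeierstrassCurve ℤ) (hss : W.IsSemistableModel) (hΔ : W.Δ ≠ 0) {M₀ : ℕ} [NeZero M₀]
    {g₀ : CuspForm (Gamma0 M₀) 2} (hg₀ : g₀.IsNewform)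
    (S₀ : Finset ℕ)
    (hS₀M : ∀ q : ℕ, q.Prime → q ∣ M₀ → q ∈ S₀)
    (hS₀ : ∀ ℓ : ℕ, ℓ.Prime → ℓ ∉ S₀ →
      W.IsGoodPrimeFor ℓ ∧ qCoeff ⇑g₀ ℓ = (W.apOfModel ℓ : ℂ))
    {q : ℕ} (hq : q.Prime) (hq3 : ¬ q ^ 3 ∣ M₀) : ¬ q ^ 2 ∣ M₀ := by
  intro hq2
  obtain ⟨lam, hlamF, hqlam, iota, -⟩ := exists_lam g₀ hg₀.1 S₀ (q + 2)
  haveI := hlamF
  have hqlam' : q ≠ lam := by omega
  have hlam2 : lam ≠ 2 := by omega
  have hfac : M₀.factorization q = 2 := by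
    have h2 := (Nat.Prime.pow_dvd_iff_le_factorization hq (NeZero.ne M₀)).mp hq2
    have h3 : ¬ 3 ≤ M₀.factorization q :=
      fun h => hq3 ((Nat.Prime.pow_dvd_iff_le_factorization hq (NeZero.ne M₀)).mpr h)
    omega
  have hlamS : lam ∈ insert lam S₀ := Finset.mem_insert_self _ _
  have hMS : ∀ q : ℕ, q.Prime → q ∣ M₀ → q ∈ insert lam S₀ :=
    fun q hq hqM => Finset.mem_insert_of_mem (hS₀M q hq hqM)
  have hS : ∀ ℓ : ℕ, ℓ.Prime → ℓ ∉ insert lam S₀ →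
      W.IsGoodPrimeFor ℓ ∧ qCoeff ⇑g₀ ℓ = (W.apOfModel ℓ : ℂ) :=
    fun ℓ hℓ hℓS => hS₀ ℓ hℓ (fun h => hℓS (Finset.mem_insert_of_mem h))
  have hlam : (lam : ℤ_[lam]) ∈ IsLocalRing.maximalIdeal ℤ_[lam] := padic_lam_mem lam
  obtain ⟨M', iM', hNM, D, Y, iY, f, c, A, hc, hA, hKS, hEV, hNI⟩ :=
    hCore hg₀ lam (insert lam S₀) ℤ_[lam] hlam hlam2
      (eigenCharC (↑(insert lam S₀ : Finset ℕ) : Set ℕ) g₀ hg₀.1)
      (fun ℓ hℓ hℓM hℓS => eigenCharC_T _ g₀ hg₀.1 hℓ hℓM hℓS) iota hlamS hMS q hq hqlam' hfac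
  haveI := iM'
  obtain ⟨ρ, hρ1, -⟩ := Fermat.Agent.P3.helper32.strongS30 lam M₀ (insert lam S₀) hlamS hMS
    ℤ_[lam] hlam
    (iota.comp (eigenCharC (↑(insert lam S₀ : Finset ℕ) : Set ℕ) g₀ hg₀.1).rangeRestrict)
  have hρ : ∀ (ℓ : ℕ), ℓ.Prime → ℓ ∉ insert lam S₀ → ∀ A : ValuationSubring Qbar,
      A.LiesOverPrime ℓ → ∀ φ : GQ, A.IsFrobeniusAt φ ℓ →
        LinearMap.charpoly (ρ.ρ φ) =
          X ^ 2 - C ((W.apOfModel ℓ : ℤ) : ℤ_[lam]) * X + C ((ℓ : ℕ) : ℤ_[lam]) := by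
    intro ℓ hℓ hℓS A hA φ hφ
    have hℓM : ¬ ℓ ∣ M₀ := fun h => hℓS (hMS ℓ hℓ h)
    have hℓS' : ℓ ∉ (↑(insert lam S₀ : Finset ℕ) : Set ℕ) := fun h => hℓS (Finset.mem_coe.mp h)
    rw [hρ1 ℓ hℓ hℓM hℓS' A hA φ hφ,
      iota_T_eq g₀ hg₀.1 _ iota hℓ hℓM hℓS' (W.apOfModel ℓ) (hS ℓ hℓ hℓS).2]
  obtain ⟨hF1, hF2, hF3⟩ := boxes_at hField hFaith hFrob W hΔ lam (insert lam S₀) hlamS
    (fun ℓ hℓ hℓS => (hS ℓ hℓ hℓS).1)
  have hunip : ∀ σ ∈ A.inertiaSubgroupIn ℚ, LinearMap.charpoly (ρ.ρ σ) = (X - 1) ^ 2 := by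
    intro σ hσ
    refine charpoly_inertia_eq W lam ℤ_[lam] hlam ρ (insert lam S₀) hρ hF1 hF2 hF3 q hq hqlam'
      A hA ?_ σ hσ
    intro k τ hτ P
    exact Fermat.Agent.S58.helper7.ecUnip_of_semistable W hss hq hlamF.out hlam2 hqlam' k A hA
      τ hτ P
  exact Fermat.Agent.T3.helper34.not_unipotent_of_core lam M₀ (insert lam S₀) M' hNM D ℤ_[lam]
    hlam _ ρ hρ1 q hq hqlam' A hA f c hc hKS hEV hNI hunip

/-- **Lemma B**: the newform and the curve agree at every good prime of the curve not dividing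
the level of the newform. -/
theorem qCoeff_eq_of_good (hField : ECFieldStatement) (hFaith : ECFaithStatement)
    (hFrob : ECFrobStatement)
    (W : WeierstrassCurve ℤ) (hΔ : W.Δ ≠ 0) {M₀ : ℕ} [NeZero M₀]
    {g₀ : CuspForm (Gamma0 M₀) 2} (hg₀ : g₀.IsNormalizedEigenform)
    (S₀ : Finset ℕ)
    (hS₀M : ∀ q : ℕ, q.Prime → q ∣ M₀ → q ∈ S₀)
    (hS₀ : ∀ ℓ : ℕ, ℓ.Prime → ℓ ∉ S₀ →
      W.IsGoodPrimeFor ℓ ∧ qCoeff ⇑g₀ ℓ = (W.apOfModel ℓ : ℂ))
    {ℓ₀ : ℕ} (hℓ₀ : ℓ₀.Prime) (hgood : W.IsGoodPrimeFor ℓ₀) (hℓ₀M : ¬ ℓ₀ ∣ M₀) :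
    qCoeff ⇑g₀ ℓ₀ = (W.apOfModel ℓ₀ : ℂ) := by
  by_cases hmem : ℓ₀ ∈ S₀
  swap
  · exact (hS₀ ℓ₀ hℓ₀ hmem).2
  obtain ⟨lam, hlamF, hℓlam, iota, hinj⟩ := exists_lam g₀ hg₀ (S₀.erase ℓ₀) ℓ₀
  haveI := hlamF
  have hℓlam' : ℓ₀ ≠ lam := hℓlam.ne
  have hlamS : lam ∈ insert lam (S₀.erase ℓ₀) := Finset.mem_insert_self _ _
  have hMS : ∀ q : ℕ, q.Prime → q ∣ M₀ → q ∈ insert lam (S₀.erase ℓ₀) := by
    intro q hq hqM
    refine Finset.mem_insert_of_mem (Finset.mem_erase.mpr ⟨?_, hS₀M q hq hqM⟩)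
    rintro rfl
    exact hℓ₀M hqM
  have hℓ₀S : ℓ₀ ∉ insert lam (S₀.erase ℓ₀) := by
    intro h
    rcases Finset.mem_insert.mp h with h | h
    · exact hℓlam' h
    · exact (Finset.mem_erase.mp h).1 rfl
  have hℓ₀S' : ℓ₀ ∉ (↑(insert lam (S₀.erase ℓ₀) : Finset ℕ) : Set ℕ) :=
    fun h => hℓ₀S (Finset.mem_coe.mp h)
  have hlam : (lam : ℤ_[lam]) ∈ IsLocalRing.maximalIdeal ℤ_[lam] := padic_lam_mem lam
  obtain ⟨ρ, hρ1, -⟩ := Fermat.Agent.P3.helper32.strongS30 lam M₀ (insert lam (S₀.erase ℓ₀))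
    hlamS hMS ℤ_[lam] hlam
    (iota.comp (eigenCharC (↑(insert lam (S₀.erase ℓ₀) : Finset ℕ) : Set ℕ) g₀ hg₀).rangeRestrict)
  -- the comparison set
  have hlamC : lam ∈ insert ℓ₀ (insert lam (S₀.erase ℓ₀)) :=
    Finset.mem_insert_of_mem hlamS
  have hC : ∀ ℓ : ℕ, ℓ.Prime → ℓ ∉ insert ℓ₀ (insert lam (S₀.erase ℓ₀)) →
      (ℓ ∉ insert lam (S₀.erase ℓ₀)) ∧
      W.IsGoodPrimeFor ℓ ∧ qCoeff ⇑g₀ ℓ = (W.apOfModel ℓ : ℂ) := by
    intro ℓ hℓ hℓC
    have h1 : ℓ ≠ ℓ₀ := fun h => hℓC (h ▸ Finset.mem_insert_self _ _)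
    have h2 : ℓ ∉ insert lam (S₀.erase ℓ₀) := fun h => hℓC (Finset.mem_insert_of_mem h)
    have h3 : ℓ ∉ S₀ := fun h =>
      h2 (Finset.mem_insert_of_mem (Finset.mem_erase.mpr ⟨h1, h⟩))
    exact ⟨h2, hS₀ ℓ hℓ h3⟩
  have hρ : ∀ (ℓ : ℕ), ℓ.Prime → ℓ ∉ insert ℓ₀ (insert lam (S₀.erase ℓ₀)) →
      ∀ A : ValuationSubring Qbar,
      A.LiesOverPrime ℓ → ∀ φ : GQ, A.IsFrobeniusAt φ ℓ →
        LinearMap.charpoly (ρ.ρ φ) =
          X ^ 2 - C ((W.apOfModel ℓ : ℤ) : ℤ_[lam]) * X + C ((ℓ : ℕ) : ℤ_[lam]) := by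
    intro ℓ hℓ hℓC A hA φ hφ
    obtain ⟨hℓS, -, hgW⟩ := hC ℓ hℓ hℓC
    have hℓM : ¬ ℓ ∣ M₀ := fun h => hℓS (hMS ℓ hℓ h)
    have hℓS' : ℓ ∉ (↑(insert lam (S₀.erase ℓ₀) : Finset ℕ) : Set ℕ) :=
      fun h => hℓS (Finset.mem_coe.mp h)
    rw [hρ1 ℓ hℓ hℓM hℓS' A hA φ hφ,
      iota_T_eq g₀ hg₀ _ iota hℓ hℓM hℓS' (W.apOfModel ℓ) hgW]
  obtain ⟨hF1, hF2, hF3⟩ := boxes_at hField hFaith hFrob W hΔ lam
    (insert ℓ₀ (insert lam (S₀.erase ℓ₀))) hlamC (fun ℓ hℓ hℓS => (hC ℓ hℓ hℓS).2.1)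
  obtain ⟨A, φ, hA, hφ⟩ := Fermat.Agent.S54.helper91.exists_isFrobeniusAt hℓ₀
  have hCE : ∀ k, ∀ P : Tors W (lam ^ k),
      φ • φ • P - W.apOfModel ℓ₀ • (φ • P) + (ℓ₀ : ℤ) • P = 0 := by
    intro k P
    refine hFrob W (lam ^ k) ℓ₀ hℓ₀ ?_ hgood A hA φ hφ P
    intro hdvd
    exact hℓlam' ((Nat.prime_dvd_prime_iff_eq hℓ₀ hlamF.out).mp (hℓ₀.dvd_of_dvd_pow hdvd))
  have htr := trace_frobenius_eq W lam ℤ_[lam] hlam ρ (insert ℓ₀ (insert lam (S₀.erase ℓ₀))) hρ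
    hF1 hF2 hF3 ℓ₀ hℓ₀ hℓlam' A hA φ hφ hCE
  have h1 := trace_of_charpoly ρ.finrank_eq (ρ.ρ φ) _ _ (hρ1 ℓ₀ hℓ₀ hℓ₀M hℓ₀S' A hA φ hφ)
  rw [htr, RingHom.comp_apply] at h1
  have h2 : iota ((W.apOfModel ℓ₀ : ℤ) :
      (eigenCharC (↑(insert lam (S₀.erase ℓ₀) : Finset ℕ) : Set ℕ) g₀ hg₀).range) =
      iota ((eigenCharC (↑(insert lam (S₀.erase ℓ₀) : Finset ℕ) : Set ℕ) g₀ hg₀).rangeRestrict
        (CuspForm.heckeAlgebra.T hℓ₀ hℓ₀M hℓ₀S')) := by
    rw [map_intCast]; exact h1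
  have h3 := congrArg Subtype.val (hinj h2)
  rw [RingHom.coe_rangeRestrict, eigenCharC_T] at h3
  rw [← h3]
  simp

/-! ## The frozen statement from the boxes -/

/-- **S58 from the boxes**: the frozen statement (verbatim binders) from the tier-3 core and
the three elliptic-curve boxes. -/
theorem s58_of_boxes (hCore : Fermat.Agent.T3.helper34.S36CoreStatement)
    (hField : ECFieldStatement) (hFaith : ECFaithStatement) (hFrob : ECFrobStatement)
    (W : WeierstrassCurve ℤ) (hss : W.IsSemistableModel) (N : ℕ)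
    (p : ℕ) [Fact p.Prime] (hp2 : p ≠ 2) (hirr : W.ModRepIsIrreducible p)
    (hp2N : ¬ p ^ 2 ∣ N)
    (hN : W.IsModularModelOfLevel N) (hbad : ∀ ℓ : ℕ, ℓ.Prime → (ℓ : ℤ) ∣ W.Δ → ℓ ∣ N)
    (hN3 : ∀ q : ℕ, q.Prime → ¬ q ^ 3 ∣ N) :
    W.IsModularModelOfLevel W.conductorLevel := by
  have hN0 : N ≠ 0 := by
    rintro rfl
    exact hN3 2 Nat.prime_two (dvd_zero _)
  have hΔ : W.Δ ≠ 0 := by
    intro h0
    obtain ⟨ℓ, hℓN, hℓ⟩ := Nat.exists_infinite_primes (N + 1)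
    have h1 := hbad ℓ hℓ (by rw [h0]; exact dvd_zero _)
    have h2 := Nat.le_of_dvd (Nat.pos_of_ne_zero hN0) h1
    omega
  obtain ⟨f, hf, hfW⟩ := hN
  obtain ⟨M₀, hM₀N, g₀, hg₀, hg₀f⟩ := Fermat.Agent.S58.helper32.exists_isNewform hN0 f hf
  have hM₀0 : M₀ ≠ 0 := by
    rintro rfl
    exact hN0 (zero_dvd_iff.mp hM₀N)
  haveI : NeZero M₀ := ⟨hM₀0⟩
  have hS₀M : ∀ q : ℕ, q.Prime → q ∣ M₀ → q ∈ N.primeFactors :=
    fun q hq hqM => Nat.mem_primeFactors.mpr ⟨hq, hqM.trans hM₀N, hN0⟩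
  have hS₀ : ∀ ℓ : ℕ, ℓ.Prime → ℓ ∉ N.primeFactors →
      W.IsGoodPrimeFor ℓ ∧ qCoeff ⇑g₀ ℓ = (W.apOfModel ℓ : ℂ) := by
    intro ℓ hℓ hℓS
    have hℓN : ¬ ℓ ∣ N := fun h => hℓS (Nat.mem_primeFactors.mpr ⟨hℓ, h, hN0⟩)
    have hgood : W.IsGoodPrimeFor ℓ := fun h => hℓN (hbad ℓ hℓ h)
    exact ⟨hgood, (hg₀f ℓ hℓ hℓN).trans (hfW ℓ hℓ hgood hℓN)⟩
  -- the level of the newform is squarefree
  have hsq : Squarefree M₀ := by
    rw [Nat.squarefree_iff_prime_squarefree]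
    intro q hq hqq
    have h3 : ¬ q ^ 3 ∣ M₀ := fun h => hN3 q hq (h.trans hM₀N)
    exact not_sq_dvd_of_core hCore hField hFaith hFrob W hss hΔ hg₀ N.primeFactors hS₀M hS₀ hq h3
      (by rw [pow_two]; exact hqq)
  -- the level of the newform divides the conductor level
  have hdvd : M₀ ∣ W.conductorLevel := by
    rw [← Nat.prod_primeFactors_of_squarefree hsq]
    refine Finset.prod_primes_dvd _ (fun q hq => (Nat.prime_of_mem_primeFactors hq).prime) ?_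
    intro q hq
    have hqp := Nat.prime_of_mem_primeFactors hq
    have hqM := Nat.dvd_of_mem_primeFactors hq
    rw [WeierstrassCurve.prime_dvd_conductorLevel_iff W hΔ hqp]
    refine dvd_disc_of_exactly_dvd hField hFaith hFrob W hΔ hg₀ N.primeFactors hS₀M hS₀ hqp hqM ?_
    intro h2
    exact (Nat.squarefree_iff_prime_squarefree.mp hsq) q hqp (by rw [← pow_two]; exact h2)
  obtain ⟨f', hf', hf'g⟩ := Fermat.Agent.S58.helper32.exists_eigenform_of_dvd W.conductorLevel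
    W.squarefree_conductorLevel M₀ hdvd g₀ hg₀.1
  refine ⟨f', hf', ?_⟩
  intro ℓ hℓ hgood hℓC
  rw [hf'g ℓ hℓ hℓC]
  have hℓM : ¬ ℓ ∣ M₀ := fun h => hℓC (h.trans hdvd)
  exact qCoeff_eq_of_good hField hFaith hFrob W hΔ hg₀.1 N.primeFactors hS₀M hS₀ hℓ hgood hℓM

end Main

end Fermat.Agent.S58.helper34

end
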