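import Mathlib
import Fermat.Prelude.Def_FLTPrelim_Modularity

/-!
# S58 PREP, leaf [EC-COUNT] (helper35): the trivial point count

For a Weierstrass curve `W` over a finite field `F`:

* `card_le` : `#W(F) ≤ 2 #F + 1` (at most two points above every `x`, plus the point at infinity);
* `one_le_card` : `1 ≤ #W(F)`;

and for an integral Weierstrass curve `W` and a prime `q`:

* `abs_apOfModel_le` : `|a_q(W)| ≤ q`;
* `apOfModel_ne_add_one`, `apOfModel_ne_neg_add_one` : `a_q(W) ≠ ± (q + 1)`;
* `apOfModel_sq_ne` : `a_q(W) ^ 2 ≠ (q + 1) ^ 2`.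

No nonsingularity / good reduction hypothesis is needed.  Mathlib + Prelude only.
-/

set_option autoImplicit false
set_option linter.style.haveILetI false

open Polynomial
open scoped Classical

noncomputable section

namespace Fermat.Agent.S58.helper35

section Field

variable {F : Type*} [Field F] (W : WeierstrassCurve F)

/-- the quadratic polynomial in `y` of the Weierstrass equation at a fixed `x` -/
def yPoly (x : F) : F[X] :=
  X ^ 2 + C (W.a₁ * x + W.a₃) * X - C (x ^ 3 + W.a₂ * x ^ 2 + W.a₄ * x + W.a₆)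

lemma yPoly_natDegree_le (x : F) : (yPoly W x).natDegree ≤ 2 := by
  unfold yPoly
  compute_degree

lemma coeff_two_aux (b c : F) : (X ^ 2 + C b * X - C c : F[X]).coeff 2 = 1 := by
  simp

lemma yPoly_coeff_two (x : F) : (yPoly W x).coeff 2 = 1 := coeff_two_aux _ _

lemma yPoly_ne_zero (x : F) : yPoly W x ≠ 0 := by
  intro h
  have := yPoly_coeff_two W x
  rw [h, coeff_zero] at this
  exact zero_ne_one this

lemma isRoot_yPoly_iff (x y : F) : (yPoly W x).IsRoot y ↔ W.toAffine.Equation x y := by
  rw [WeierstrassCurve.Affine.equation_iff]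
  unfold yPoly
  simp only [IsRoot.def, eval_sub, eval_add, eval_mul, eval_pow, eval_X, eval_C]
  constructor
  · intro h
    linear_combination h
  · intro h
    linear_combination h

/-- the `y`-coordinates above `x` -/
def ySet (x : F) : Finset F := (yPoly W x).roots.toFinset

lemma mem_ySet_iff (x y : F) : y ∈ ySet W x ↔ W.toAffine.Equation x y := by
  unfold ySet
  rw [Multiset.mem_toFinset, mem_roots (yPoly_ne_zero W x), isRoot_yPoly_iff]

lemma card_ySet_le (x : F) : (ySet W x).card ≤ 2 := by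
  unfold ySet
  calc (yPoly W x).roots.toFinset.card ≤ Multiset.card (yPoly W x).roots :=
        Multiset.toFinset_card_le _
    _ ≤ (yPoly W x).natDegree := card_roots' _
    _ ≤ 2 := yPoly_natDegree_le W x

/-- the coordinates of a point -/
def coordMap : W.toAffine.Point → Option (Σ x : F, ↥(ySet W x))
  | .zero => none
  | .some x y h => some ⟨x, ⟨y, (mem_ySet_iff W x y).2 h.1⟩⟩

lemma coordMap_injective : Function.Injective (coordMap W) := by
  rintro (_ | ⟨x₁, y₁, h₁⟩) (_ | ⟨x₂, y₂, h₂⟩) h
  · rfl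
  · simp [coordMap] at h
  · simp [coordMap] at h
  · simp only [coordMap, Option.some.injEq, Sigma.mk.injEq] at h
    obtain ⟨rfl, h2⟩ := h
    have h3 := eq_of_heq h2
    have h4 := congrArg Subtype.val h3
    simp only at h4
    subst h4
    rfl

variable [Finite F]

/-- **the trivial upper bound** `#W(F) ≤ 2 #F + 1` -/
theorem card_le : W.card ≤ 2 * Nat.card F + 1 := by
  classical
  haveI : Fintype F := Fintype.ofFinite F
  unfold WeierstrassCurve.card
  have h1 := Nat.card_le_card_of_injective (coordMap W) (coordMap_injective W)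
  refine h1.trans ?_
  rw [Nat.card_eq_fintype_card, Fintype.card_option, Fintype.card_sigma,
    Nat.card_eq_fintype_card]
  have h2 : ∑ x : F, Fintype.card ↥(ySet W x) ≤ ∑ _x : F, 2 := by
    refine Finset.sum_le_sum (fun x _ => ?_)
    rw [Fintype.card_coe]
    exact card_ySet_le W x
  rw [Finset.sum_const, Finset.card_univ, smul_eq_mul] at h2
  omega

/-- `1 ≤ #W(F)` -/
theorem one_le_card : 1 ≤ W.card := by
  unfold WeierstrassCurve.card
  haveI : Nonempty W.toAffine.Point := ⟨.zero⟩
  exact Nat.card_pos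

/-- `|q + 1 - #W(F)| ≤ q` -/
theorem abs_traceOfFrobenius_le : |W.traceOfFrobenius| ≤ (Nat.card F : ℤ) := by
  unfold WeierstrassCurve.traceOfFrobenius
  have h1 := card_le W
  have h2 := one_le_card W
  rw [abs_le]
  constructor <;> omega

end Field

section Int

variable (W : WeierstrassCurve ℤ) (q : ℕ)

/-- `|a_q(W)| ≤ q` for every prime `q` -/
theorem abs_apOfModel_le (hq : q.Prime) : |W.apOfModel q| ≤ (q : ℤ) := by
  haveI : Fact q.Prime := ⟨hq⟩
  have h := abs_traceOfFrobenius_le (W.reductionMod q)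
  rw [Nat.card_zmod] at h
  exact h

/-- `a_q(W) ≠ q + 1` -/
theorem apOfModel_ne_add_one (hq : q.Prime) : W.apOfModel q ≠ (q : ℤ) + 1 := by
  intro h
  have h1 := abs_apOfModel_le W q hq
  rw [h, abs_le] at h1
  omega

/-- `a_q(W) ≠ -(q + 1)` -/
theorem apOfModel_ne_neg_add_one (hq : q.Prime) : W.apOfModel q ≠ -((q : ℤ) + 1) := by
  intro h
  have h1 := abs_apOfModel_le W q hq
  rw [h, abs_le] at h1
  omega

/-- `a_q(W)² ≠ (q + 1)²` -/
theorem apOfModel_sq_ne (hq : q.Prime) : W.apOfModel q ^ 2 ≠ ((q : ℤ) + 1) ^ 2 := by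
  intro h
  rcases sq_eq_sq_iff_eq_or_eq_neg.1 h with h1 | h1
  · exact apOfModel_ne_add_one W q hq h1
  · exact apOfModel_ne_neg_add_one W q hq h1

/-- `a_q(W)² < (q + 1)²` -/
theorem apOfModel_sq_lt (hq : q.Prime) : W.apOfModel q ^ 2 < ((q : ℤ) + 1) ^ 2 := by
  have h1 := abs_apOfModel_le W q hq
  have h2 : |W.apOfModel q| < |(q : ℤ) + 1| := by
    rw [abs_of_nonneg (by positivity : (0 : ℤ) ≤ (q : ℤ) + 1)]
    omega
  exact sq_lt_sq.2 h2

end Int

end Fermat.Agent.S58.helper35
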