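import Fermat.Prelude.Def_FLTPrelim_Modularity
import Mathlib.Tactic

/-!
# S58 PREP [EC-CNT] (helper40): the trivial count bound

For a Weierstrass curve over a finite field `F` there are at most `2 * #F` affine points (for each
`x` at most two `y`), hence `1 ≤ #W(F) ≤ 2 * #F + 1`.  For an integral Weierstrass curve `W` and
a prime `q` this gives `|a_q(W)| ≤ q`, in particular `a_q(W) ≠ ± (q + 1)`.  No hypothesis of good
reduction is needed.
-/

set_option autoImplicit false
set_option linter.unusedSectionVars false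
set_option linter.unusedVariables false

namespace Fermat.Agent.S58.helper40

open WeierstrassCurve WeierstrassCurve.Affine Polynomial

section Field

variable {F : Type*} [Field F]

/-- the quadratic in `y` cut out by the Weierstrass equation at a fixed `x` -/
noncomputable def quadAt (W : Affine F) (x : F) : F[X] :=
  X ^ 2 + C (W.a₁ * x + W.a₃) * X - C (x ^ 3 + W.a₂ * x ^ 2 + W.a₄ * x + W.a₆)

lemma quadAt_eval (W : Affine F) (x y : F) :
    (quadAt W x).eval y =
      y ^ 2 + (W.a₁ * x + W.a₃) * y - (x ^ 3 + W.a₂ * x ^ 2 + W.a₄ * x + W.a₆) := by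
  simp [quadAt]

lemma quadAt_natDegree (W : Affine F) (x : F) : (quadAt W x).natDegree = 2 := by
  unfold quadAt
  have e : X ^ 2 + C (W.a₁ * x + W.a₃) * X - C (x ^ 3 + W.a₂ * x ^ 2 + W.a₄ * x + W.a₆)
      = C 1 * X ^ 2 + C (W.a₁ * x + W.a₃) * X
        + C (-(x ^ 3 + W.a₂ * x ^ 2 + W.a₄ * x + W.a₆)) := by
    rw [map_one, one_mul, map_neg, sub_eq_add_neg]
  rw [e]
  exact natDegree_quadratic one_ne_zero

lemma quadAt_ne_zero (W : Affine F) (x : F) : quadAt W x ≠ 0 := by
  intro h
  have := quadAt_natDegree W x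
  rw [h, natDegree_zero] at this
  exact absurd this (by norm_num)

lemma mem_roots_quadAt (W : Affine F) {x y : F} (h : W.Equation x y) :
    y ∈ (quadAt W x).roots := by
  rw [mem_roots (quadAt_ne_zero W x), IsRoot.def, quadAt_eval]
  have e := (W.equation_iff x y).mp h
  linear_combination e

/-- the set of `y` with `(x, y)` on the curve has at most two elements -/
lemma card_roots_quadAt_le [DecidableEq F] (W : Affine F) (x : F) :
    (quadAt W x).roots.toFinset.card ≤ 2 := by
  calc (quadAt W x).roots.toFinset.card ≤ Multiset.card (quadAt W x).roots :=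
        Multiset.toFinset_card_le _
    _ ≤ (quadAt W x).natDegree := card_roots' _
    _ = 2 := quadAt_natDegree W x

/-- the coordinates of a point, with the `y`-coordinate as a root of `quadAt` -/
noncomputable def coords [DecidableEq F] (W : Affine F) :
    W.Point → Option (Σ x : F, {y : F // y ∈ (quadAt W x).roots.toFinset})
  | .zero => none
  | .some x y h => some ⟨x, y, Multiset.mem_toFinset.mpr (mem_roots_quadAt W h.1)⟩

lemma coords_injective [DecidableEq F] (W : Affine F) : Function.Injective (coords W) := by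
  rintro (_ | ⟨x₁, y₁, h₁⟩) (_ | ⟨x₂, y₂, h₂⟩) h
  · rfl
  · simp [coords] at h
  · simp [coords] at h
  · simp only [coords, Option.some.injEq, Sigma.mk.injEq] at h
    obtain ⟨hx, hy⟩ := h
    subst hx
    have hy' := eq_of_heq hy
    have : y₁ = y₂ := congrArg Subtype.val hy'
    subst this
    rfl

/-- **Trivial count bound**: a Weierstrass curve over a finite field `F` has at most
`2 * #F + 1` points. -/
theorem card_point_le [Finite F] (W : Affine F) : Nat.card W.Point ≤ 2 * Nat.card F + 1 := by
  classical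
  have : Fintype F := Fintype.ofFinite F
  have h1 : Nat.card W.Point ≤
      Nat.card (Option (Σ x : F, {y : F // y ∈ (quadAt W x).roots.toFinset})) :=
    Nat.card_le_card_of_injective _ (coords_injective W)
  have h2 : Nat.card (Option (Σ x : F, {y : F // y ∈ (quadAt W x).roots.toFinset})) =
      Nat.card (Σ x : F, {y : F // y ∈ (quadAt W x).roots.toFinset}) + 1 := by
    rw [Nat.card_eq_fintype_card, Nat.card_eq_fintype_card, Fintype.card_option]
  have h3 : Nat.card (Σ x : F, {y : F // y ∈ (quadAt W x).roots.toFinset}) ≤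
      2 * Nat.card F := by
    rw [Nat.card_eq_fintype_card, Fintype.card_sigma, Nat.card_eq_fintype_card]
    calc ∑ x : F, Fintype.card {y : F // y ∈ (quadAt W x).roots.toFinset}
        ≤ ∑ _x : F, 2 := by
          apply Finset.sum_le_sum
          intro x _
          rw [Fintype.card_coe]
          exact card_roots_quadAt_le W x
      _ = 2 * Fintype.card F := by
          rw [Finset.sum_const, Finset.card_univ, smul_eq_mul, mul_comm]
  omega

/-- a Weierstrass curve over a finite field has at least one point -/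
theorem one_le_card_point [Finite F] (W : Affine F) : 1 ≤ Nat.card W.Point := by
  have : Nonempty W.Point := ⟨0⟩
  exact Nat.one_le_iff_ne_zero.mpr (Nat.card_ne_zero.mpr ⟨inferInstance, inferInstance⟩)

end Field

section Model

variable (W : WeierstrassCurve ℤ) {q : ℕ}

theorem card_reductionMod_le (hq : q.Prime) : (W.reductionMod q).card ≤ 2 * q + 1 := by
  have : Fact q.Prime := ⟨hq⟩
  have h := card_point_le (F := ZMod q) (W.reductionMod q).toAffine
  rw [Nat.card_eq_fintype_card (α := ZMod q), ZMod.card] at h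
  exact h

theorem card_reductionMod_pos (hq : q.Prime) : 1 ≤ (W.reductionMod q).card := by
  have : Fact q.Prime := ⟨hq⟩
  exact one_le_card_point (F := ZMod q) (W.reductionMod q).toAffine

lemma apOfModel_eq (hq : q.Prime) :
    W.apOfModel q = (q : ℤ) + 1 - ((W.reductionMod q).card : ℤ) := by
  have : Fact q.Prime := ⟨hq⟩
  unfold WeierstrassCurve.apOfModel WeierstrassCurve.traceOfFrobenius
  rw [Nat.card_eq_fintype_card (α := ZMod q), ZMod.card]

/-- `a_q(W) ≤ q` -/
theorem apOfModel_le (hq : q.Prime) : W.apOfModel q ≤ (q : ℤ) := by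
  have h := card_reductionMod_pos W hq
  rw [apOfModel_eq W hq]
  omega

/-- `-q ≤ a_q(W)` -/
theorem neg_le_apOfModel (hq : q.Prime) : -(q : ℤ) ≤ W.apOfModel q := by
  have h := card_reductionMod_le W hq
  rw [apOfModel_eq W hq]
  omega

/-- `|a_q(W)| ≤ q` -/
theorem abs_apOfModel_le (hq : q.Prime) : |W.apOfModel q| ≤ (q : ℤ) :=
  abs_le.mpr ⟨neg_le_apOfModel W hq, apOfModel_le W hq⟩

/-- `a_q(W) ≠ q + 1` -/
theorem apOfModel_ne_add_one (hq : q.Prime) : W.apOfModel q ≠ (q : ℤ) + 1 := by
  have h := apOfModel_le W hq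
  omega

/-- `a_q(W) ≠ -(q + 1)` -/
theorem apOfModel_ne_neg_add_one (hq : q.Prime) : W.apOfModel q ≠ -((q : ℤ) + 1) := by
  have h := neg_le_apOfModel W hq
  omega

/-- `a_q(W) ^ 2 ≠ (q + 1) ^ 2` -/
theorem apOfModel_sq_ne (hq : q.Prime) : W.apOfModel q ^ 2 ≠ ((q : ℤ) + 1) ^ 2 := by
  intro h
  rcases sq_eq_sq_iff_eq_or_eq_neg.mp h with h | h
  · exact apOfModel_ne_add_one W hq h
  · exact apOfModel_ne_neg_add_one W hq h

/-- the same in any ring of characteristic zero: `(a_q(W) : R) ≠ ± (q + 1)` -/
theorem cast_apOfModel_ne_add_one {R : Type*} [Ring R] [CharZero R] (hq : q.Prime) :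
    ((W.apOfModel q : ℤ) : R) ≠ (q : R) + 1 := by
  intro h
  apply apOfModel_ne_add_one W hq
  have : ((W.apOfModel q : ℤ) : R) = (((q : ℤ) + 1 : ℤ) : R) := by
    rw [h]; push_cast; rfl
  exact Int.cast_injective this

theorem cast_apOfModel_ne_neg_add_one {R : Type*} [Ring R] [CharZero R] (hq : q.Prime) :
    ((W.apOfModel q : ℤ) : R) ≠ -((q : R) + 1) := by
  intro h
  apply apOfModel_ne_neg_add_one W hq
  have : ((W.apOfModel q : ℤ) : R) = ((-((q : ℤ) + 1) : ℤ) : R) := by
    rw [h]; push_cast; rfl
  exact Int.cast_injective this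

end Model

end Fermat.Agent.S58.helper40
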