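import Mathlib
import Fermat.Prelude.Def_FLTPrelim_Modularity

/-!
# S58 prep, (d) [EC-COUNT] (helper5): the trivial point count of a Weierstrass curve over a
finite field

* `card_point_le` : `#W(F) ≤ 2 #F + 1` for a Weierstrass curve over a finite field `F`
  (for every `x` at most two `y`, plus the point at infinity);
* `one_le_card_point` : `1 ≤ #W(F)`;
* `card_reductionMod_le`, `one_le_card_reductionMod` : the same for the reduction modulo a prime
  `q` of an integral Weierstrass curve;
* `apOfModel_le`, `neg_le_apOfModel` : `-q ≤ a_q(W) ≤ q`;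
* `apOfModel_ne_add_one`, `apOfModel_ne_neg_add_one` : `a_q(W) ≠ ± (q + 1)`.
-/

set_option autoImplicit false

open Polynomial

noncomputable section

namespace Fermat.Agent.S58.helper5

section Field

variable {F : Type*} [Field F] (W : WeierstrassCurve F)

/-- the Weierstrass equation as a monic quadratic polynomial in `y` -/
def yPoly (x : F) : F[X] :=
  X ^ 2 + C (W.a₁ * x + W.a₃) * X - C (x ^ 3 + W.a₂ * x ^ 2 + W.a₄ * x + W.a₆)

theorem yPoly_natDegree (x : F) : (yPoly W x).natDegree = 2 := by
  unfold yPoly
  compute_degree!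

theorem yPoly_ne_zero (x : F) : yPoly W x ≠ 0 := by
  intro h
  have := yPoly_natDegree W x
  rw [h, natDegree_zero] at this
  omega

theorem yPoly_eval (x y : F) :
    (yPoly W x).eval y =
      y ^ 2 + W.a₁ * x * y + W.a₃ * y - (x ^ 3 + W.a₂ * x ^ 2 + W.a₄ * x + W.a₆) := by
  unfold yPoly
  simp only [eval_sub, eval_add, eval_pow, eval_X, eval_mul, eval_C]
  ring

theorem isRoot_yPoly_of_equation {x y : F} (h : W.toAffine.Equation x y) :
    y ∈ (yPoly W x).roots := by
  rw [mem_roots (yPoly_ne_zero W x), IsRoot.def, yPoly_eval]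
  have := (WeierstrassCurve.Affine.equation_iff x y).mp h
  linear_combination this

/-- the coordinates of a point -/
def ptCoord : W.toAffine.Point → Option (F × F)
  | .zero => none
  | .some x y _ => some (x, y)

theorem ptCoord_injective : Function.Injective (ptCoord W) := by
  rintro (_ | ⟨x₁, y₁, h₁⟩) (_ | ⟨x₂, y₂, h₂⟩) h <;>
    simp only [ptCoord, Option.some.injEq, Prod.mk.injEq, reduceCtorEq] at h
  · rfl
  · obtain ⟨rfl, rfl⟩ := h; rfl

variable [Fintype F] [DecidableEq F]

/-- the finite set of the possible coordinates -/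
def coordSet : Finset (Option (F × F)) :=
  insert none ((Finset.univ.sigma fun x : F => (yPoly W x).roots.toFinset).map
    ⟨fun p => some (p.1, p.2), fun p p' h => by
      simp only [Option.some.injEq, Prod.mk.injEq] at h
      exact Sigma.ext h.1 (heq_of_eq h.2)⟩)

theorem ptCoord_mem (P : W.toAffine.Point) : ptCoord W P ∈ coordSet W := by
  rcases P with _ | ⟨x, y, h⟩
  · exact Finset.mem_insert_self _ _
  · apply Finset.mem_insert_of_mem
    rw [Finset.mem_map]
    refine ⟨⟨x, y⟩, ?_, rfl⟩
    rw [Finset.mem_sigma]
    exact ⟨Finset.mem_univ _, Multiset.mem_toFinset.mpr (isRoot_yPoly_of_equation W h.1)⟩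

theorem card_coordSet_le : (coordSet W).card ≤ 2 * Fintype.card F + 1 := by
  unfold coordSet
  refine (Finset.card_insert_le _ _).trans ?_
  rw [Finset.card_map, Finset.card_sigma]
  have h : ∀ x : F, ((yPoly W x).roots.toFinset).card ≤ 2 := by
    intro x
    refine (Multiset.toFinset_card_le _).trans ?_
    have := card_roots' (yPoly W x)
    rwa [yPoly_natDegree] at this
  have h2 : (∑ x : F, ((yPoly W x).roots.toFinset).card) ≤ ∑ _x : F, 2 :=
    Finset.sum_le_sum fun x _ => h x
  rw [Finset.sum_const, Finset.card_univ, smul_eq_mul, mul_comm] at h2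
  omega

/-- **The trivial upper bound**: a Weierstrass curve over a finite field `F` has at most
`2 #F + 1` (nonsingular) points. -/
theorem card_point_le : Nat.card W.toAffine.Point ≤ 2 * Nat.card F + 1 := by
  classical
  have _ : Finite W.toAffine.Point := Finite.of_injective _ (ptCoord_injective W)
  have _ : Fintype W.toAffine.Point := Fintype.ofFinite _
  rw [Nat.card_eq_fintype_card, Nat.card_eq_fintype_card]
  refine le_trans ?_ (card_coordSet_le W)
  rw [← Finset.card_univ]
  exact Finset.card_le_card_of_injOn (ptCoord W) (fun P _ => ptCoord_mem W P)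
    (fun P _ Q _ h => ptCoord_injective W h)

omit [DecidableEq F] in
/-- a Weierstrass curve over a finite field has at least one point -/
theorem one_le_card_point : 1 ≤ Nat.card W.toAffine.Point := by
  have _ : Finite W.toAffine.Point := Finite.of_injective _ (ptCoord_injective W)
  exact Nat.one_le_iff_ne_zero.mpr (Nat.card_ne_zero.mpr ⟨⟨0⟩, inferInstance⟩)

end Field

section Model

variable (W : WeierstrassCurve ℤ) (q : ℕ) [Fact q.Prime]

theorem card_reductionMod_le : (W.reductionMod q).card ≤ 2 * q + 1 := by
  classical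
  have h := card_point_le (W.reductionMod q)
  rw [Nat.card_zmod] at h
  exact h

theorem one_le_card_reductionMod : 1 ≤ (W.reductionMod q).card :=
  one_le_card_point (W.reductionMod q)

omit [Fact q.Prime] in
theorem apOfModel_eq : W.apOfModel q = (q : ℤ) + 1 - ((W.reductionMod q).card : ℤ) := by
  unfold WeierstrassCurve.apOfModel WeierstrassCurve.traceOfFrobenius
  rw [Nat.card_zmod]

/-- `a_q(W) ≤ q` -/
theorem apOfModel_le : W.apOfModel q ≤ q := by
  have h := one_le_card_reductionMod W q
  rw [apOfModel_eq]
  omega

/-- `-q ≤ a_q(W)` -/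
theorem neg_le_apOfModel : -(q : ℤ) ≤ W.apOfModel q := by
  have h := card_reductionMod_le W q
  rw [apOfModel_eq]
  omega

theorem apOfModel_ne_add_one : W.apOfModel q ≠ (q : ℤ) + 1 := by
  have h := apOfModel_le W q
  omega

theorem apOfModel_ne_neg_add_one : W.apOfModel q ≠ -((q : ℤ) + 1) := by
  have h := neg_le_apOfModel W q
  omega

end Model

end Fermat.Agent.S58.helper5

end
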