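import Mathlib
import Fermat.Prelude.Def_FLTPrelim_Modularity

/-!
# S58 prep, leaf [COUNT] (helper6): the trivial bound `|a_q(W)| ≤ q`

A Weierstrass cubic over a finite field with `q` elements has at least one and at most `2 q + 1`
points (for every `x` at most two `y`), hence `|q + 1 - #W(𝔽_q)| ≤ q`.  In particular
`a_q(W) ≠ ± (q + 1)` (no Hasse bound needed).
-/

set_option autoImplicit false
set_option linter.style.haveILetI false

open Polynomial

namespace Fermat.Agent.S58.helper6

section Count

variable {F : Type*} [Field F] [Fintype F] (E : WeierstrassCurve F)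

/-- the solutions of the Weierstrass equation with a given `x` -/
lemma card_fibre_le (x : F) [DecidablePred fun y : F => E.toAffine.Equation x y] :
    (Finset.univ.filter fun y : F => E.toAffine.Equation x y).card ≤ 2 := by
  classical
  set p : F[X] := E.toAffine.polynomial.map (evalRingHom x) with hp
  have hmonic : p.Monic := (WeierstrassCurve.Affine.monic_polynomial).map _
  have hdeg : p.natDegree = 2 := by
    rw [hp, (WeierstrassCurve.Affine.monic_polynomial).natDegree_map,
      WeierstrassCurve.Affine.natDegree_polynomial]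
  have hsub : (Finset.univ.filter fun y : F => E.toAffine.Equation x y) ⊆ p.roots.toFinset := by
    intro y hy
    rw [Finset.mem_filter] at hy
    rw [Multiset.mem_toFinset, mem_roots hmonic.ne_zero, IsRoot.def, hp,
      Polynomial.map_evalRingHom_eval]
    exact hy.2
  calc (Finset.univ.filter fun y : F => E.toAffine.Equation x y).card
      ≤ p.roots.toFinset.card := Finset.card_le_card hsub
    _ ≤ Multiset.card p.roots := Multiset.toFinset_card_le _
    _ ≤ p.natDegree := card_roots' p
    _ = 2 := hdeg

/-- a Weierstrass cubic over a finite field `F` has at most `2 #F + 1` points -/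
theorem card_point_le : Nat.card E.toAffine.Point ≤ 2 * Fintype.card F + 1 := by
  classical
  let f : E.toAffine.Point → Option (F × F) := fun P =>
    match P with
    | .zero => none
    | .some x y _ => some (x, y)
  have hf : Function.Injective f := by
    rintro (_ | ⟨x₁, y₁, h₁⟩) (_ | ⟨x₂, y₂, h₂⟩) h <;>
      simp only [f, Option.some.injEq, Prod.mk.injEq, reduceCtorEq] at h
    · rfl
    · obtain ⟨rfl, rfl⟩ := h; rfl
  let T : Finset (Option (F × F)) :=
    insert none ((Finset.univ.sigma fun x : F =>
      Finset.univ.filter fun y : F => E.toAffine.Equation x y).image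
        fun p : (Σ _ : F, F) => some (p.1, p.2))
  have hT : ∀ P, f P ∈ T := by
    rintro (_ | ⟨x, y, h⟩)
    · exact Finset.mem_insert_self _ _
    · refine Finset.mem_insert_of_mem (Finset.mem_image.mpr ⟨⟨x, y⟩, ?_, rfl⟩)
      rw [Finset.mem_sigma]
      exact ⟨Finset.mem_univ _, Finset.mem_filter.mpr ⟨Finset.mem_univ _, h.1⟩⟩
  have hcardT : T.card ≤ 2 * Fintype.card F + 1 := by
    refine (Finset.card_insert_le _ _).trans (Nat.succ_le_succ ?_)
    refine Finset.card_image_le.trans ?_
    rw [Finset.card_sigma]
    calc ∑ x : F, (Finset.univ.filter fun y : F => E.toAffine.Equation x y).card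
        ≤ ∑ _x : F, 2 := Finset.sum_le_sum fun x _ => card_fibre_le E x
      _ = 2 * Fintype.card F := by
        rw [Finset.sum_const, Finset.card_univ, smul_eq_mul, mul_comm]
  let g : E.toAffine.Point → T := fun P => ⟨f P, hT P⟩
  have hg : Function.Injective g := fun P Q h => hf (congrArg Subtype.val h)
  calc Nat.card E.toAffine.Point ≤ Nat.card T := Nat.card_le_card_of_injective g hg
    _ = T.card := by rw [Nat.card_eq_fintype_card, Fintype.card_coe]
    _ ≤ 2 * Fintype.card F + 1 := hcardT

/-- a Weierstrass cubic over a finite field has a point -/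
theorem one_le_card_point : 1 ≤ Nat.card E.toAffine.Point := by
  haveI : Finite F := Finite.of_fintype F
  haveI : Finite E.toAffine.Point := inferInstance
  haveI : Nonempty E.toAffine.Point := ⟨.zero⟩
  exact Nat.card_pos

end Count

/-- **[COUNT]** the trivial bound `|a_q(W)| ≤ q`. -/
theorem abs_apOfModel_le (W : WeierstrassCurve ℤ) {q : ℕ} (hq : q.Prime) :
    |W.apOfModel q| ≤ (q : ℤ) := by
  haveI : Fact q.Prime := ⟨hq⟩
  have h1 := card_point_le (W.reductionMod q)
  have h2 := one_le_card_point (W.reductionMod q)
  rw [ZMod.card] at h1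
  rw [WeierstrassCurve.apOfModel, WeierstrassCurve.traceOfFrobenius, WeierstrassCurve.card,
    Nat.card_eq_fintype_card, ZMod.card, abs_le]
  constructor <;> omega

/-- `a_q(W) ≠ q + 1`. -/
theorem apOfModel_ne_add_one (W : WeierstrassCurve ℤ) {q : ℕ} (hq : q.Prime) :
    W.apOfModel q ≠ (q : ℤ) + 1 := by
  have h := abs_le.mp (abs_apOfModel_le W hq)
  omega

/-- `a_q(W) ≠ -(q + 1)`. -/
theorem apOfModel_ne_neg_add_one (W : WeierstrassCurve ℤ) {q : ℕ} (hq : q.Prime) :
    W.apOfModel q ≠ -((q : ℤ) + 1) := by
  have h := abs_le.mp (abs_apOfModel_le W hq)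
  omega

end Fermat.Agent.S58.helper6
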