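import Fermat.Agent.S58.helper6_Xfer
import Fermat.Agent.S58.helper8_OPrime
import Fermat.Agent.S58.helper7_EcUnip
import Fermat.Agent.P3.helper54_EigenChar
import Fermat.Agent.T3.helper34_WireS36
import Fermat.Agent.S35

/-!
# S58 prep (helper6): the comparison package

For a newform `g₀` of level `M₀ ∣ N` whose good eigenvalues are the `a_ℓ(W)` of a Weierstrass
curve `W` (`ℓ ∤ N` good), and every bound `B`, there are a prime `lam > max B 2` and a `lam`-adic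
representation `ρ` (from S35, coefficient ring `ℤ_[lam]` via helper8's degree-one primes) with

* (i)   the Frobenius characteristic polynomials of `g₀` at the primes `ℓ ∤ M₀ lam`, the
        eigenvalue being read INJECTIVELY in the coefficient ring;
* (ii)  the Frobenius characteristic polynomials `(X ∓ 1)(X ∓ q)` at the primes `q ∥ M₀`;
* (iii) `ρ` is not unipotent on inertia at the primes `q` with `q² ∥ M₀`
        (from `helper34.S36CoreStatement`);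
* (iv)  the transfer [XFER] from the torsion of `W` (from `helper52.CEStatement`).
-/

set_option autoImplicit false
set_option linter.unusedSectionVars false
set_option linter.unusedVariables false
set_option linter.style.haveILetI false

open Polynomial CongruenceSubgroup ModularFormClass

noncomputable section

namespace Fermat.Agent.S58.helper6

open Fermat.Agent.P3 Fermat.Agent.P6.helper78

/-! ## The eigencharacter and its range -/

section Range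

variable {M : ℕ} [NeZero M] (g : CuspForm (Gamma0 M) 2) (hg : g.IsNormalizedEigenform)

/-- the range of the eigencharacter away from `S` lies in the range of the full one -/
lemma eigenRange_le (S : Set ℕ) :
    (Fermat.Agent.P3.helper54.eigenCharC S g hg).range ≤
      (Fermat.Agent.P3.helper54.eigenCharC (∅ : Set ℕ) g hg).range := by
  rintro x ⟨t, rfl⟩
  exact ⟨⟨t.1, CuspForm.heckeAlgebra_mono (Set.empty_subset S) t.2⟩, rfl⟩

/-- the range of the eigencharacter is a finitely generated `ℤ`-module -/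
lemma finite_eigenRange (S : Set ℕ) :
    Module.Finite ℤ (Fermat.Agent.P3.helper54.eigenCharC S g hg).range := by
  haveI : Module.Finite ℤ (CuspForm.heckeAlgebra M 2 S) := Fermat.Agent.S22.result M 2 S
  exact Module.Finite.of_surjective
    ((Fermat.Agent.P3.helper54.eigenCharC S g hg).rangeRestrict.toIntAlgHom.toLinearMap)
    (Fermat.Agent.P3.helper54.eigenCharC S g hg).rangeRestrict_surjective

end Range

/-! ## The package -/

section Package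

/-- `(X - 1)² = X² - 2 X + 1`, with casts -/
lemma subOneSq_eq {R : Type*} [CommRing R] :
    (X - 1 : R[X]) ^ 2 = X ^ 2 - C (((2 : ℤ) : ℤ) : R) * X + C (((1 : ℕ) : ℕ) : R) := by
  simp only [Int.cast_ofNat, Nat.cast_one, map_ofNat, map_one]
  ring

/-- **The comparison package**. -/
theorem exists_rep (hCore : Fermat.Agent.T3.helper34.S36CoreStatement)
    (hCE : Fermat.Agent.P7.helper52.CEStatement)
    (W : WeierstrassCurve ℤ) (hss : W.IsSemistableModel) (hΔ : W.Δ ≠ 0) (N : ℕ) (hN0 : N ≠ 0)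
    {M₀ : ℕ} [NeZero M₀] (hM₀N : M₀ ∣ N) (g₀ : CuspForm (Gamma0 M₀) 2) (hg₀ : g₀.IsNewform)
    (hgW : ∀ ℓ : ℕ, ℓ.Prime → ¬ ℓ ∣ N → W.IsGoodPrimeFor ℓ →
      qCoeff ⇑g₀ ℓ = ((W.apOfModel ℓ : ℤ) : ℂ))
    (B : ℕ) :
    ∃ (lam : ℕ) (_ : lam.Prime) (_ : B < lam) (_ : 2 < lam)
      (O : Type) (_ : CommRing O) (_ : IsDomain O) (_ : IsDiscreteValuationRing O)
      (_ : CharZero O) (ρ : GaloisRepAdic O),
      (∀ ℓ : ℕ, ℓ.Prime → ¬ ℓ ∣ M₀ → ℓ ≠ lam →
        ∀ A : ValuationSubring Qbar, A.LiesOverPrime ℓ → ∀ σ : GQ, A.IsFrobeniusAt σ ℓ →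
          ∃ α : O, LinearMap.charpoly (ρ.ρ σ) = X ^ 2 - C α * X + C ((ℓ : O)) ∧
            ∀ a : ℤ, α = (a : O) → qCoeff ⇑g₀ ℓ = (a : ℂ)) ∧
      (∀ q : ℕ, q.Prime → q ≠ lam → q ∣ M₀ → ¬ q ^ 2 ∣ M₀ →
        ∀ A : ValuationSubring Qbar, A.LiesOverPrime q → ∀ σ : GQ, A.IsFrobeniusAt σ q →
          LinearMap.charpoly (ρ.ρ σ) = X ^ 2 - C ((q : O) + 1) * X + C ((q : O)) ∨
          LinearMap.charpoly (ρ.ρ σ) = X ^ 2 + C ((q : O) + 1) * X + C ((q : O))) ∧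
      (∀ q : ℕ, q.Prime → q ≠ lam → M₀.factorization q = 2 → ¬ ρ.IsUnipotentOnInertiaAt q) ∧
      (∀ (s : GQ) (T₀ : ℤ) (D₀ : ℕ),
        (∀ e : ℕ, ∀ P : Tors W (lam ^ e), s • s • P - T₀ • (s • P) + (D₀ : ℤ) • P = 0) →
        (∀ e : ℕ, ∀ ζ : Qbar, ζ ^ (lam ^ e) = 1 → s ζ = ζ ^ D₀) →
        LinearMap.charpoly (ρ.ρ s) = X ^ 2 - C ((T₀ : ℤ) : O) * X + C ((D₀ : ℕ) : O)) := by
  classical
  have hM₀0 : M₀ ≠ 0 := NeZero.ne M₀
  -- the prime `lam` and the embedding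
  haveI := finite_eigenRange g₀ hg₀.1 (∅ : Set ℕ)
  obtain ⟨lam, hlamF, hBlam, hiota⟩ := Fermat.Agent.S58.helper8.exists_padic_embedding_of_le
    (Fermat.Agent.P3.helper54.eigenCharC (∅ : Set ℕ) g₀ hg₀.1).range (max B 2)
  haveI := hlamF
  have hlam : lam.Prime := hlamF.out
  have hB : B < lam := lt_of_le_of_lt (le_max_left _ _) hBlam
  have h2 : 2 < lam := lt_of_le_of_lt (le_max_right _ _) hBlam
  -- the set `S`
  obtain ⟨S, hSdef⟩ : ∃ S : Finset ℕ, S = M₀.primeFactors ∪ {lam} := ⟨_, rfl⟩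
  have hlamS : lam ∈ S := by
    rw [hSdef]
    exact Finset.mem_union_right _ (Finset.mem_singleton_self _)
  have hMS : ∀ q : ℕ, q.Prime → q ∣ M₀ → q ∈ S := by
    intro q hq hqM
    rw [hSdef]
    exact Finset.mem_union_left _ (Nat.mem_primeFactors.mpr ⟨hq, hqM, hM₀0⟩)
  have hnotS : ∀ ℓ : ℕ, ¬ ℓ ∣ M₀ → ℓ ≠ lam → ℓ ∉ (↑S : Set ℕ) := by
    intro ℓ hℓM hℓlam hmem
    rw [Finset.mem_coe, hSdef, Finset.mem_union, Finset.mem_singleton] at hmem
    rcases hmem with h | h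
    · exact hℓM (Nat.dvd_of_mem_primeFactors h)
    · exact hℓlam h
  -- the eigencharacter
  obtain ⟨chig, hchigdef⟩ : ∃ chig : CuspForm.heckeAlgebra M₀ 2 (↑S : Set ℕ) →+* ℂ,
      chig = Fermat.Agent.P3.helper54.eigenCharC (↑S : Set ℕ) g₀ hg₀.1 := ⟨_, rfl⟩
  have hchig : ∀ (ℓ : ℕ) (hℓ : ℓ.Prime) (hℓM : ¬ ℓ ∣ M₀) (hℓS : ℓ ∉ (↑S : Set ℕ)),
      chig (CuspForm.heckeAlgebra.T hℓ hℓM hℓS) = qCoeff ⇑g₀ ℓ := by
    intro ℓ hℓ hℓM hℓS
    rw [hchigdef]
    exact Fermat.Agent.P3.helper54.eigenCharC_T _ g₀ hg₀.1 hℓ hℓM hℓS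
  obtain ⟨iota, hinj⟩ := hiota chig.range (by rw [hchigdef]; exact eigenRange_le g₀ hg₀.1 _)
  have hlamO' : (lam : ℤ_[lam]) ∈ IsLocalRing.maximalIdeal ℤ_[lam] := by
    rw [PadicInt.maximalIdeal_eq_span_p]
    exact Ideal.mem_span_singleton_self _
  -- S35
  obtain ⟨O, iCR, iDom, iDVR, iAC, iFin, iChar, iAlg, iMF, iLoc, hinjO, ρ, hρ1, hρ2⟩ :=
    Fermat.Agent.S35.result hg₀ lam S ℤ_[lam] hlamO' chig hchig iota hlamS hMS
  have hlamO : (lam : O) ∈ IsLocalRing.maximalIdeal O := by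
    have h1 : (lam : O) = algebraMap ℤ_[lam] O (lam : ℤ_[lam]) := by rw [map_natCast]
    rw [h1, IsLocalRing.mem_maximalIdeal, mem_nonunits_iff]
    intro hu
    have h3 : IsUnit (lam : ℤ_[lam]) := isUnit_of_map_unit (algebraMap ℤ_[lam] O) _ hu
    exact (IsLocalRing.mem_maximalIdeal _).mp hlamO' h3
  -- the value of the eigencharacter at a good prime
  have hval : ∀ (ℓ : ℕ) (hℓ : ℓ.Prime) (hℓM : ¬ ℓ ∣ M₀) (hℓS : ℓ ∉ (↑S : Set ℕ)) (a : ℤ),
      qCoeff ⇑g₀ ℓ = (a : ℂ) →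
      algebraMap ℤ_[lam] O ((iota.comp chig.rangeRestrict)
        (CuspForm.heckeAlgebra.T hℓ hℓM hℓS)) = (a : O) := by
    intro ℓ hℓ hℓM hℓS a ha
    have h1 : chig.rangeRestrict (CuspForm.heckeAlgebra.T hℓ hℓM hℓS) = (a : chig.range) := by
      apply Subtype.ext
      rw [RingHom.coe_rangeRestrict, hchig ℓ hℓ hℓM hℓS, ha]
      simp
    rw [RingHom.comp_apply, h1, map_intCast, map_intCast]
  have hval' : ∀ (ℓ : ℕ) (hℓ : ℓ.Prime) (hℓM : ¬ ℓ ∣ M₀) (hℓS : ℓ ∉ (↑S : Set ℕ)) (a : ℤ),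
      algebraMap ℤ_[lam] O ((iota.comp chig.rangeRestrict)
        (CuspForm.heckeAlgebra.T hℓ hℓM hℓS)) = (a : O) → qCoeff ⇑g₀ ℓ = (a : ℂ) := by
    intro ℓ hℓ hℓM hℓS a ha
    have h1 : (a : O) = algebraMap ℤ_[lam] O (iota (a : chig.range)) := by
      rw [map_intCast, map_intCast]
    rw [h1] at ha
    have h3 := hinj (hinjO ha)
    rw [← hchig ℓ hℓ hℓM hℓS]
    have h4 := congrArg Subtype.val h3
    rw [RingHom.coe_rangeRestrict] at h4
    rw [h4]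
    simp
  refine ⟨lam, hlam, hB, h2, O, iCR, iDom, iDVR, iChar, ρ, ?_, ?_, ?_, ?_⟩
  · -- (i)
    intro ℓ hℓ hℓM hℓlam A hA σ hσ
    exact ⟨_, hρ1 ℓ hℓ hℓM (hnotS ℓ hℓM hℓlam) A hA σ hσ,
      fun a ha => hval' ℓ hℓ hℓM (hnotS ℓ hℓM hℓlam) a ha⟩
  · -- (ii)
    exact hρ2
  · -- (iii)
    intro q hq hqlam hq2 hunip
    have hlam2 : lam ≠ 2 := by omega
    obtain ⟨M', hM', hNM, D, Y, hY, f, c, A, hc, hA, hf, hEV, hNI⟩ :=
      hCore hg₀ lam S O hlamO hlam2 chig hchig ((algebraMap ℤ_[lam] O).comp iota) hlamS hMS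
        q hq hqlam hq2
    haveI := hM'
    letI := hY
    exact Fermat.Agent.T3.helper34.not_unipotent_of_core lam M₀ S M' hNM D O hlamO
      (((algebraMap ℤ_[lam] O).comp iota).comp chig.rangeRestrict) ρ
      (fun ℓ hℓ hℓM hℓS A' hA' σ hσ => hρ1 ℓ hℓ hℓM hℓS A' hA' σ hσ)
      q hq hqlam A hA f c hc hf hEV hNI (fun σ hσ => hunip A hA σ hσ)
  · -- (iv)
    intro s T₀ D₀ hs hsμ
    refine charpoly_eq_of_torsRel ρ hlam hlamO W hΔ
      (S ∪ N.primeFactors ∪ W.Δ.natAbs.primeFactors) (fun ℓ => W.apOfModel ℓ) ?_ ?_ s T₀ D₀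
      hs hsμ
    · intro ℓ hℓ hℓBad A hA φ hφ
      have hℓS : ℓ ∉ S := fun h => hℓBad (Finset.mem_union_left _ (Finset.mem_union_left _ h))
      have hℓN : ¬ ℓ ∣ N := fun h => hℓBad (Finset.mem_union_left _ (Finset.mem_union_right _
        (Nat.mem_primeFactors.mpr ⟨hℓ, h, hN0⟩)))
      have hℓΔ : W.IsGoodPrimeFor ℓ := by
        intro h
        apply hℓBad
        refine Finset.mem_union_right _ (Nat.mem_primeFactors.mpr ⟨hℓ, ?_, ?_⟩)
        · exact Int.natCast_dvd.mp h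
        · exact Int.natAbs_ne_zero.mpr hΔ
      have hℓM : ¬ ℓ ∣ M₀ := fun h => hℓN (h.trans hM₀N)
      have hℓS' : ℓ ∉ (↑S : Set ℕ) := fun h => hℓS (Finset.mem_coe.mp h)
      rw [hρ1 ℓ hℓ hℓM hℓS' A hA φ hφ, hval ℓ hℓ hℓM hℓS' _ (hgW ℓ hℓ hℓN hℓΔ)]
    · intro e ℓ hℓ hℓBad hℓlam A hA φ hφ P
      have hℓΔ : W.IsGoodPrimeFor ℓ := by
        intro h
        apply hℓBad
        refine Finset.mem_union_right _ (Nat.mem_primeFactors.mpr ⟨hℓ, ?_, ?_⟩)
        · exact Int.natCast_dvd.mp h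
        · exact Int.natAbs_ne_zero.mpr hΔ
      have hℓn : ¬ ℓ ∣ lam ^ e := fun h =>
        hℓlam ((Nat.prime_dvd_prime_iff_eq hℓ hlam).mp (hℓ.dvd_of_dvd_pow h))
      exact ecFrob hCE W hℓ hℓn hℓΔ A hA hφ P

end Package

end Fermat.Agent.S58.helper6
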