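import Fermat.Agent.S58.helper6_Rep
import Fermat.Agent.S58.helper6_CountBound
import Fermat.Agent.S58.helper32_FormsNew
import Fermat.Agent.S58.helper32_FormsPush
import Fermat.Prelude.Def_WeierstrassCurve_ConductorLevel
import Fermat.Prelude.Def_FLTPrelim_ModularRep

/-!
# S58 (helper6): conductor-level matching from the geometric core of S36 and the characteristic
equation of Frobenius

`s58_of_core_ce : helper34.S36CoreStatement → helper52.CEStatement → <frozen S58>`.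

Let `W` be a semistable integral model, modular of a cube-free level `N` divisible by the bad
primes.  Let `g₀` be the newform of minimal level `M₀ ∣ N` of the eigensystem (helper32, [F1]).
For an auxiliary prime `lam` (large, of degree one in the coefficient ring: helper8), let `ρ` be
the `lam`-adic representation of `g₀` (S35).  By [XFER] (`helper6_Xfer`), `ρ(s)` has the
characteristic polynomial `X² - T₀ X + D₀` as soon as `s² - T₀ s + D₀ = 0` on `W[lam ^ e]` for
all `e`.  Hence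

* `q² ∤ M₀`: inertia at `q` is unipotent on `W[lam ^ e]` (helper7, [EC-UNIP]), so `ρ` would be
  unipotent on inertia at `q`, against the core of S36;
* `q ∥ M₀ ⇒ q ∣ Δ`: at a good `q` the Frobenius has trace `a_q(W)` by [XFER] and `± (q + 1)` by
  S35, against `|a_q(W)| ≤ q`;
* so `M₀ ∣ rad Δ`, and [F2'] (helper32) pushes `g₀` to the level `rad Δ`;
* `a_ℓ(g₀) = a_ℓ(W)` at the good primes `ℓ ∣ N`: [XFER] at a Frobenius lift at `ℓ`.

The hypotheses `p ≠ 2`, `hirr`, `¬ p² ∣ N` of the frozen statement are not used.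
-/

set_option autoImplicit false
set_option linter.unusedSectionVars false
set_option linter.unusedVariables false
set_option linter.style.haveILetI false

open Polynomial CongruenceSubgroup ModularFormClass

noncomputable section

namespace Fermat.Agent.S58.helper6

open Fermat.Agent.P3 Fermat.Agent.P6.helper78

/-! ## Relations on the torsion -/

section Relations

variable (W : WeierstrassCurve ℤ)

/-- a Frobenius lift at a good prime `ℓ ≠ lam`: the hypotheses of [XFER] -/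
lemma frob_rel (hCE : Fermat.Agent.P7.helper52.CEStatement) {ℓ lam : ℕ} (hℓ : ℓ.Prime)
    (hlam : lam.Prime) (hℓlam : ℓ ≠ lam) (hW : W.IsGoodPrimeFor ℓ) (A : ValuationSubring Qbar)
    (hA : A.LiesOverPrime ℓ) {σ : GQ} (hσ : A.IsFrobeniusAt σ ℓ) :
    (∀ e : ℕ, ∀ P : Tors W (lam ^ e),
      σ • σ • P - W.apOfModel ℓ • (σ • P) + ((ℓ : ℕ) : ℤ) • P = 0) ∧
    (∀ e : ℕ, ∀ ζ : Qbar, ζ ^ (lam ^ e) = 1 → σ ζ = ζ ^ ℓ) := by
  have hℓn : ∀ e : ℕ, ¬ ℓ ∣ lam ^ e := fun e h =>
    hℓlam ((Nat.prime_dvd_prime_iff_eq hℓ hlam).mp (hℓ.dvd_of_dvd_pow h))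
  exact ⟨fun e P => ecFrob hCE W hℓ (hℓn e) hW A hA hσ P,
    fun e ζ hζ => Fermat.Agent.P6.helper31.frobenius_apply_root hℓ (hℓn e) hA hσ hζ⟩

/-- an element of an inertia group at `q ≠ lam` (`lam` odd, `W` semistable): the hypotheses of
[XFER] -/
lemma inertia_rel (hss : W.IsSemistableModel) {q lam : ℕ} (hq : q.Prime) (hlam : lam.Prime)
    (hlam2 : 2 < lam) (hqlam : q ≠ lam) (A : ValuationSubring Qbar) (hA : A.LiesOverPrime q)
    {τ : GQ} (hτ : τ ∈ A.inertiaSubgroupIn ℚ) :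
    (∀ e : ℕ, ∀ P : Tors W (lam ^ e),
      τ • τ • P - (2 : ℤ) • (τ • P) + ((1 : ℕ) : ℤ) • P = 0) ∧
    (∀ e : ℕ, ∀ ζ : Qbar, ζ ^ (lam ^ e) = 1 → τ ζ = ζ ^ 1) := by
  have hqn : ∀ e : ℕ, ¬ q ∣ lam ^ e := fun e h =>
    hqlam ((Nat.prime_dvd_prime_iff_eq hq hlam).mp (hq.dvd_of_dvd_pow h))
  refine ⟨fun e P => ?_, fun e ζ hζ => ?_⟩
  · have h := Fermat.Agent.S58.helper7.ecUnip_of_semistable W hss hq hlam (by omega) hqlam e
      A hA τ hτ P
    rw [Nat.cast_one, one_smul]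
    exact h
  · rw [pow_one]
    exact Fermat.Agent.P3.helper24.apply_eq_of_mem_inertia A hq hA (hqn e) hτ hζ

end Relations

/-! ## The assembly -/

section Assembly

/-- the coefficient of `X` in `X² + C a X + C b` -/
lemma coeffOneQuadPlus {R : Type*} [CommRing R] (a b : R) :
    (X ^ 2 + C a * X + C b : R[X]).coeff 1 = a := by
  rw [coeff_add, coeff_add, coeff_X_pow, coeff_C_mul, coeff_X_one, coeff_C]
  simp

/-- **S58 from the geometric core of S36 and the characteristic equation of Frobenius.** -/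
theorem s58_of_core_ce (hCore : Fermat.Agent.T3.helper34.S36CoreStatement)
    (hCE : Fermat.Agent.P7.helper52.CEStatement)
    (W : WeierstrassCurve ℤ) (hss : W.IsSemistableModel) (N : ℕ)
    (hN : W.IsModularModelOfLevel N) (hbad : ∀ ℓ : ℕ, ℓ.Prime → (ℓ : ℤ) ∣ W.Δ → ℓ ∣ N)
    (hN3 : ∀ q : ℕ, q.Prime → ¬ q ^ 3 ∣ N) :
    W.IsModularModelOfLevel W.conductorLevel := by
  classical
  -- `N ≠ 0`, `Δ ≠ 0`
  have hN0 : N ≠ 0 := by
    rintro rfl
    exact hN3 2 Nat.prime_two (dvd_zero _)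
  have hΔ : W.Δ ≠ 0 := by
    intro h0
    obtain ⟨ℓ, hℓN, hℓ⟩ := Nat.exists_infinite_primes (N + 1)
    have h1 : ℓ ∣ N := hbad ℓ hℓ (by rw [h0]; exact dvd_zero _)
    have h2 := Nat.le_of_dvd (Nat.pos_of_ne_zero hN0) h1
    omega
  -- the newform of minimal level
  obtain ⟨f, hf, hfW⟩ := hN
  obtain ⟨M₀, hM₀N, g₀, hg₀, hg₀f⟩ := Fermat.Agent.S58.helper32.exists_isNewform hN0 f hf
  have hM₀0 : M₀ ≠ 0 := fun h => hN0 (by rw [h] at hM₀N; exact zero_dvd_iff.mp hM₀N)
  haveI : NeZero M₀ := ⟨hM₀0⟩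
  have hgW : ∀ ℓ : ℕ, ℓ.Prime → ¬ ℓ ∣ N → W.IsGoodPrimeFor ℓ →
      qCoeff ⇑g₀ ℓ = ((W.apOfModel ℓ : ℤ) : ℂ) := by
    intro ℓ hℓ hℓN hℓW
    rw [hg₀f ℓ hℓ hℓN, hfW ℓ hℓ hℓW hℓN]
  have hpkg := exists_rep hCore hCE W hss hΔ N hN0 hM₀N g₀ hg₀ hgW
  -- `M₀` is squarefree
  have hsq : ∀ q : ℕ, q.Prime → ¬ q ^ 2 ∣ M₀ := by
    intro q hq hq2
    have hfac : M₀.factorization q = 2 := by
      have h1 : 2 ≤ M₀.factorization q := (hq.pow_dvd_iff_le_factorization hM₀0).mp hq2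
      have h2 : ¬ 3 ≤ M₀.factorization q := fun h =>
        hN3 q hq (((hq.pow_dvd_iff_le_factorization hM₀0).mpr h).trans hM₀N)
      omega
    obtain ⟨lam, hlam, hB, hlam2, O, iCR, iDom, iDVR, iChar, ρ, -, -, h3, h4⟩ := hpkg q
    have hqlam : q ≠ lam := by omega
    apply h3 q hq hqlam hfac
    intro A hA τ hτ
    obtain ⟨r1, r2⟩ := inertia_rel W hss hq hlam hlam2 hqlam A hA hτ
    rw [h4 τ 2 1 r1 r2]
    exact subOneSq_eq.symm
  -- the primes of `M₀` are bad
  have hbadM : ∀ q : ℕ, q.Prime → q ∣ M₀ → (q : ℤ) ∣ W.Δ := by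
    intro q hq hqM
    by_contra hgood
    obtain ⟨lam, hlam, hB, hlam2, O, iCR, iDom, iDVR, iChar, ρ, -, h2, -, h4⟩ := hpkg q
    have hqlam : q ≠ lam := by omega
    obtain ⟨A, hA⟩ := Fermat.Agent.S54.helper91.exists_valuationSubring_liesOver hq
    obtain ⟨σ, hσ⟩ := Fermat.Agent.S54.helper91.exists_isFrobeniusAt_of_liesOver A hq hA
    obtain ⟨r1, r2⟩ := frob_rel W hCE hq hlam hqlam hgood A hA hσ
    have e1 := h4 σ (W.apOfModel q) q r1 r2
    rcases h2 q hq hqlam hqM (hsq q hq) A hA σ hσ with e2 | e2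
    · rw [e1] at e2
      have e3 := congrArg (fun P : O[X] => P.coeff 1) e2
      simp only [Fermat.Agent.T3.helper34.coeffOneQuad, neg_inj] at e3
      have e4 : ((W.apOfModel q : ℤ) : O) = (((q : ℤ) + 1 : ℤ) : O) := by
        rw [e3]; push_cast; ring
      exact apOfModel_ne_add_one W hq (Int.cast_injective e4)
    · rw [e1] at e2
      have e3 := congrArg (fun P : O[X] => P.coeff 1) e2
      simp only [Fermat.Agent.T3.helper34.coeffOneQuad, coeffOneQuadPlus] at e3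
      have e4 : ((W.apOfModel q : ℤ) : O) = ((-((q : ℤ) + 1) : ℤ) : O) := by
        have : ((W.apOfModel q : ℤ) : O) = -((q : O) + 1) := by
          rw [← e3, neg_neg]
        rw [this]; push_cast; ring
      exact apOfModel_ne_neg_add_one W hq (Int.cast_injective e4)
  -- `M₀ ∣ rad Δ`
  have hM₀sq : Squarefree M₀ := by
    rw [Nat.squarefree_iff_prime_squarefree]
    intro q hq hqq
    exact hsq q hq (by rw [pow_two]; exact hqq)
  have hM₀C : M₀ ∣ W.conductorLevel := by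
    rw [← Nat.prod_primeFactors_of_squarefree hM₀sq]
    refine Finset.prod_primes_dvd _ (fun q hq => (Nat.prime_of_mem_primeFactors hq).prime)
      (fun q hq => ?_)
    have hq' := Nat.prime_of_mem_primeFactors hq
    exact (W.prime_dvd_conductorLevel_iff hΔ hq').mpr
      (hbadM q hq' (Nat.dvd_of_mem_primeFactors hq))
  -- push to the conductor level
  obtain ⟨f', hf', hf'g⟩ := Fermat.Agent.S58.helper32.exists_eigenform_of_dvd W.conductorLevel
    W.squarefree_conductorLevel M₀ hM₀C g₀ hg₀.1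
  refine ⟨f', hf', fun p hp hgood hpC => ?_⟩
  rw [hf'g p hp hpC]
  have hpM : ¬ p ∣ M₀ := fun h => hpC (h.trans hM₀C)
  obtain ⟨lam, hlam, hB, hlam2, O, iCR, iDom, iDVR, iChar, ρ, h1, -, -, h4⟩ := hpkg p
  have hplam : p ≠ lam := by omega
  obtain ⟨A, hA⟩ := Fermat.Agent.S54.helper91.exists_valuationSubring_liesOver hp
  obtain ⟨σ, hσ⟩ := Fermat.Agent.S54.helper91.exists_isFrobeniusAt_of_liesOver A hp hA
  obtain ⟨r1, r2⟩ := frob_rel W hCE hp hlam hplam hgood A hA hσ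
  have e1 := h4 σ (W.apOfModel p) p r1 r2
  obtain ⟨α, e2, hα⟩ := h1 p hp hpM hplam A hA σ hσ
  rw [e1] at e2
  have e3 := congrArg (fun P : O[X] => P.coeff 1) e2
  simp only [Fermat.Agent.T3.helper34.coeffOneQuad, neg_inj] at e3
  exact hα _ e3.symm

end Assembly

end Fermat.Agent.S58.helper6
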