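import Fermat.Agent.P7.helper65_Cong
import Fermat.Agent.P7.helper52_CEDefs
import Fermat.Agent.P7.helper97_RedTors
import Fermat.Agent.P6.helper38_NWL

/-!
# S58 prep, leaves [EC-FROB-n] and [EC-TORS] (helper6)

For an integral Weierstrass curve `W` and `Tors W n = E[n](ℚ̄)` (prelude shape):

* `ecFrob` : **[EC-FROB-n]** the characteristic equation of Frobenius on `E[n]`, `n` ANY number
  prime to the good prime `ℓ`: `σ² P - a_ℓ(W) σ P + ℓ P = 0` for every Frobenius element `σ` at a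
  place over `ℓ` (from `helper52.CEStatement`; `helper65.ce_galois` without primality of `n`);
* `exists_tors_exact` : **[EC-TORS]** `E[lam ^ e]` contains a point of exact order `lam ^ e`:
  a point `P` with `z • P = 0 → lam ^ e ∣ z`;
* `dvd_of_forall_smul_eq_zero` : an integer killing `E[lam ^ e]` is divisible by `lam ^ e`.
-/

set_option autoImplicit false
set_option linter.style.haveILetI false

open WeierstrassCurve WeierstrassCurve.Affine
open scoped WeierstrassCurve.Affine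

namespace Fermat.Agent.S58.helper6

open Fermat.Agent.P6.helper78 Fermat.Agent.P6.helper65 Fermat.Agent.P7.helper65

/-- **[EC-FROB-n]**: the characteristic equation of Frobenius on `E[n](ℚ̄)`, for every `n` prime
to the good prime `ℓ`. -/
theorem ecFrob (hCE : Fermat.Agent.P7.helper52.CEStatement) (W : WeierstrassCurve ℤ) {n ℓ : ℕ}
    (hℓ : ℓ.Prime) (hℓn : ¬ ℓ ∣ n) (hW : W.IsGoodPrimeFor ℓ) (A : ValuationSubring NQbar)
    (hA : A.LiesOverPrime ℓ) {σ : NGQ} (hσ : A.IsFrobeniusAt σ ℓ) (P : Tors W n) :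
    σ • σ • P - W.apOfModel ℓ • (σ • P) + (ℓ : ℤ) • P = 0 := by
  classical
  haveI : Fact ℓ.Prime := ⟨hℓ⟩
  haveI : CharP (IsLocalRing.ResidueField A) ℓ := nred_charP A hℓ hA
  haveI : IsAlgClosed (IsLocalRing.ResidueField A) :=
    Fermat.Agent.P6.helper38.isAlgClosed_resField A
  have hgood := nred_good A W hℓ hA hW
  have hn : ((n : ℕ) : NQbar) ∉ A.nonunits :=
    Fermat.Agent.P7.helper97.natCast_notMem_nonunits A hℓ hA hℓn
  apply redTors_injective hgood hn
  rw [map_zero, map_add, map_sub, map_zsmul, map_zsmul, redTors_frobPt hgood hn hσ,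
    redTors_frobPt hgood hn hσ]
  exact hCE W ℓ hW (IsLocalRing.ResidueField A) _

/-- `#E[n](ℚ̄) = n ^ 2` for the integral model (`Δ ≠ 0`). -/
theorem card_tors (W : WeierstrassCurve ℤ) (hΔ : W.Δ ≠ 0) {n : ℕ} (hn : 1 ≤ n) :
    Nat.card (Tors W n) = n ^ 2 := by
  have hΔQ : (W.map (Int.castRingHom ℚ)).Δ ≠ 0 := by
    rw [WeierstrassCurve.map_Δ, eq_intCast]
    exact_mod_cast hΔ
  exact Fermat.Agent.P6.helper78.card_torsionBy_Qbar (W.map (Int.castRingHom ℚ)) hΔQ hn

/-- `E[n](ℚ̄)` is finite. -/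
theorem finite_tors (W : WeierstrassCurve ℤ) (hΔ : W.Δ ≠ 0) {n : ℕ} (hn : 1 ≤ n) :
    Finite (Tors W n) := by
  apply Nat.finite_of_card_ne_zero
  rw [card_tors W hΔ hn]
  positivity

/-- **[EC-TORS]**: `E[lam ^ e]` contains a point of exact order `lam ^ e`. -/
theorem exists_tors_exact (W : WeierstrassCurve ℤ) (hΔ : W.Δ ≠ 0) {lam : ℕ} (hlam : lam.Prime)
    (e : ℕ) : ∃ P : Tors W (lam ^ e), ∀ z : ℤ, z • P = 0 → ((lam ^ e : ℕ) : ℤ) ∣ z := by
  rcases Nat.eq_zero_or_pos e with he | he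
  · subst he
    exact ⟨0, fun z _ => by simp⟩
  obtain ⟨e', rfl⟩ : ∃ e', e = e' + 1 := ⟨e - 1, by omega⟩
  have h1 : 1 ≤ lam ^ (e' + 1) := Nat.one_le_pow _ _ hlam.pos
  have h1' : 1 ≤ lam ^ e' := Nat.one_le_pow _ _ hlam.pos
  -- a point not killed by `lam ^ e'`
  obtain ⟨P, hP⟩ : ∃ P : Tors W (lam ^ (e' + 1)), ((lam ^ e' : ℕ) : ℤ) • P ≠ 0 := by
    by_contra hcon
    push Not at hcon
    haveI := finite_tors W hΔ h1'
    let f : Tors W (lam ^ (e' + 1)) → Tors W (lam ^ e') := fun P =>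
      ⟨P.1, by
        rw [Submodule.mem_torsionBy_iff]
        have := congrArg Subtype.val (hcon P)
        simpa using this⟩
    have hf : Function.Injective f := by
      intro P Q h
      apply Subtype.ext
      have h' : (f P).1 = (f Q).1 := by rw [h]
      exact h'
    have hle := Nat.card_le_card_of_injective f hf
    rw [card_tors W hΔ h1, card_tors W hΔ h1'] at hle
    have hlt : (lam ^ e') ^ 2 < (lam ^ (e' + 1)) ^ 2 := by
      apply Nat.pow_lt_pow_left _ (by norm_num)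
      exact Nat.pow_lt_pow_right hlam.one_lt (by omega)
    omega
  refine ⟨P, fun z hz => ?_⟩
  have hlamZ : Prime (lam : ℤ) := Nat.prime_iff_prime_int.mp hlam
  have hkill : ((lam ^ (e' + 1) : ℕ) : ℤ) • P = 0 := Submodule.smul_torsionBy _ P
  -- the gcd of `z` and `lam ^ (e' + 1)` kills `P`
  by_contra hnd
  apply hP
  have hg : ((Int.gcd z ((lam ^ (e' + 1) : ℕ) : ℤ) : ℕ) : ℤ) • P = 0 := by
    rw [Int.gcd_eq_gcd_ab, add_smul, mul_comm z, mul_comm (((lam ^ (e' + 1) : ℕ) : ℤ)),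
      mul_smul, mul_smul, hz, hkill, smul_zero, smul_zero, add_zero]
  have hgdvd : Int.gcd z ((lam ^ (e' + 1) : ℕ) : ℤ) ∣ lam ^ (e' + 1) := by
    have := Int.gcd_dvd_right z ((lam ^ (e' + 1) : ℕ) : ℤ)
    exact_mod_cast this
  obtain ⟨j, hj, hgj⟩ := (Nat.dvd_prime_pow hlam).mp hgdvd
  have hjlt : j ≤ e' := by
    by_contra hcon
    have hje : j = e' + 1 := by omega
    apply hnd
    rw [hje] at hgj
    rw [← hgj]
    exact Int.gcd_dvd_left z _
  rw [hgj] at hg
  have : ((lam ^ e' : ℕ) : ℤ) = ((lam ^ (e' - j) : ℕ) : ℤ) * ((lam ^ j : ℕ) : ℤ) := by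
    rw [← Nat.cast_mul, ← pow_add]
    congr 2
    omega
  rw [this, mul_smul, hg, smul_zero]

/-- An integer killing `E[lam ^ e]` is divisible by `lam ^ e`. -/
theorem dvd_of_forall_smul_eq_zero (W : WeierstrassCurve ℤ) (hΔ : W.Δ ≠ 0) {lam : ℕ}
    (hlam : lam.Prime) (e : ℕ) (z : ℤ) (hz : ∀ P : Tors W (lam ^ e), z • P = 0) :
    ((lam ^ e : ℕ) : ℤ) ∣ z := by
  obtain ⟨P, hP⟩ := exists_tors_exact W hΔ hlam e
  exact hP z (hz P)

end Fermat.Agent.S58.helper6
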