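import Fermat.Agent.S58.helper6_TorsRel
import Fermat.Agent.P6.helper31_NCheb
import Fermat.Agent.P3.helper64_TraceAlg
import Fermat.Agent.T2.helper72_Wire34
import Fermat.Agent.Cheb.helper91_ChebWFinal

/-!
# S58 prep, leaf [XFER] (helper6): transfer of quadratic relations from `E[lam ^ e]` to a
`lam`-adic representation with the Frobenius characteristic polynomials of `E`

Let `ρ` be a `lam`-adic representation (`GaloisRepAdic O`, `O` a noetherian local domain with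
`lam ∈ 𝔪`) such that, for all primes `ℓ` outside a finite set `Bad`, every Frobenius lift `φ` at
`ℓ` has `charpoly ρ(φ) = X² - a_ℓ X + ℓ` with INTEGERS `a_ℓ`, and such that the same `φ` satisfy
`φ² - a_ℓ φ + ℓ = 0` on `E[lam ^ e]` for all `e` (`E` the curve of an integral model `W`).
If `s ∈ G_ℚ` satisfies `s² - T₀ s + D₀ = 0` on `E[lam ^ e]` and `s ζ = ζ ^ D₀` on `μ_{lam ^ e}`
for all `e`, then `charpoly ρ(s) = X² - T₀ X + D₀` (`charpoly_eq_of_torsRel`).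

Proof: weak Chebotarev (cyclic form) on the joint level field gives `s = φ ^ j` there;
the Dickson recursion computes trace and determinant of `ρ(φ) ^ j` and the quadratic relation of
`φ ^ j` on `E[lam ^ e]`; subtracting the two relations of `s` on `E[lam ^ e]` and using a point of
exact order `lam ^ e` gives the congruences modulo `lam ^ e`; Krull's intersection theorem.
-/

set_option autoImplicit false
set_option linter.unusedSectionVars false
set_option linter.style.haveILetI false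

open Polynomial

noncomputable section

namespace Fermat.Agent.S58.helper6

open Fermat.Agent.P3 Fermat.Agent.P6.helper78

/-! ## Dickson recursion for a group element acting on an abelian group -/

section Dickson

variable {M : Type*} [AddCommGroup M] {G : Type*} [Group G] [DistribMulAction G M]

/-- If `φ² - a φ + b = 0` on `M` then `(φ ^ j)² - D_j(a, b) φ ^ j + b ^ j = 0` on `M`. -/
theorem pow_rel (φ : G) (a b : ℤ) (h : ∀ P : M, φ • φ • P - a • (φ • P) + b • P = 0) (j : ℕ)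
    (P : M) :
    (φ ^ j) • (φ ^ j) • P - ((dickson 1 b j).eval a) • ((φ ^ j) • P) + (b ^ j) • P = 0 := by
  let r : G →* Module.End ℤ M := DistribMulAction.toModuleEnd ℤ M
  have hr : ∀ (g : G) (Q : M), r g Q = g • Q := fun g Q => rfl
  let x : (Module.End ℤ M)ˣ := Units.map r (toUnits φ)
  have hx : ∀ Q : M, (x : Module.End ℤ M) Q = φ • Q := fun Q => rfl
  have hxpow : ∀ (i : ℕ) (Q : M), ((x : Module.End ℤ M) ^ i) Q = (φ ^ i) • Q := by
    intro i Q
    have : (x : Module.End ℤ M) ^ i = r (φ ^ i) := by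
      rw [map_pow]; rfl
    rw [this, hr]
  have hrel : (x : Module.End ℤ M) * x - algebraMap ℤ (Module.End ℤ M) a * x
      + algebraMap ℤ (Module.End ℤ M) b = 0 := by
    apply LinearMap.ext
    intro Q
    simp only [LinearMap.add_apply, LinearMap.sub_apply, Module.End.mul_apply,
      Module.algebraMap_end_apply, LinearMap.zero_apply, hx]
    exact h Q
  have hD := Fermat.Agent.P3.helper64.unit_pow_add_eq_dickson (R := ℤ) x
    (algebraMap ℤ (Module.End ℤ M) a) b (Algebra.commute_algebraMap_left a _) hrel j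
  rw [Polynomial.aeval_algebraMap_apply] at hD
  -- multiply by `x ^ j`
  have h2 : ((x : Module.End ℤ M) ^ j + algebraMap ℤ (Module.End ℤ M) (b ^ j) *
      ((x⁻¹ : (Module.End ℤ M)ˣ) : Module.End ℤ M) ^ j) * (x : Module.End ℤ M) ^ j =
      (x : Module.End ℤ M) ^ j * (x : Module.End ℤ M) ^ j
        + algebraMap ℤ (Module.End ℤ M) (b ^ j) := by
    have hinv : ((x⁻¹ : (Module.End ℤ M)ˣ) : Module.End ℤ M) ^ j * (x : Module.End ℤ M) ^ j
        = 1 := by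
      rw [← Units.val_pow_eq_pow_val, ← Units.val_pow_eq_pow_val, ← Units.val_mul, inv_pow,
        inv_mul_cancel, Units.val_one]
    rw [add_mul, mul_assoc, hinv, mul_one]
  rw [hD] at h2
  have h3 := congrArg (fun f : Module.End ℤ M => f P) h2
  simp only [LinearMap.add_apply, Module.End.mul_apply, Module.algebraMap_end_apply, hxpow,
    Polynomial.aeval_def, Polynomial.eval₂_eq_eval_map] at h3
  have h4 : (eval a (dickson 1 b j)) • ((φ ^ j) • P) = (φ ^ j) • (φ ^ j) • P + b ^ j • P := by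
    rw [← h3]
    simp
  rw [h4]
  abel

end Dickson

/-! ## Congruences of trace and determinant -/

section Congr

variable {R : Type*} [CommRing R] {V : Type*} [AddCommGroup V] [Module R V]
  [Module.Free R V] [Module.Finite R V]

/-- a linear map preserves `I • ⊤` -/
lemma map_mem_smul_top (I : Ideal R) (f : Module.End R V) {v : V}
    (hv : v ∈ I • (⊤ : Submodule R V)) : f v ∈ I • (⊤ : Submodule R V) := by
  refine Submodule.smul_induction_on (p := fun v => f v ∈ I • (⊤ : Submodule R V)) hv ?_ ?_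
  · intro r hr w _
    rw [map_smul]
    exact Submodule.smul_mem_smul hr Submodule.mem_top
  · intro x y hx hy
    rw [map_add]
    exact Submodule.add_mem _ hx hy

/-- `tr (f u) ≡ tr f` modulo `I` if `u ≡ 1` modulo `I` -/
lemma trace_mul_sub_mem (I : Ideal R) (f u : Module.End R V)
    (h : ∀ v, u v - v ∈ I • (⊤ : Submodule R V)) :
    LinearMap.trace R V (f * u) - LinearMap.trace R V f ∈ I := by
  have e : LinearMap.trace R V (f * u) - LinearMap.trace R V f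
      = LinearMap.trace R V (f * (u - 1)) := by
    rw [mul_sub, mul_one, map_sub]
  rw [e]
  refine Fermat.Agent.P3.helper64.trace_mem_of_forall_mem I _ fun v => ?_
  rw [Module.End.mul_apply, LinearMap.sub_apply, Module.End.one_apply]
  exact map_mem_smul_top I f (h v)

/-- `det (f u) ≡ det f` modulo `I` if `u ≡ 1` modulo `I` -/
lemma det_mul_sub_mem (I : Ideal R) (f u : Module.End R V)
    (h : ∀ v, u v - v ∈ I • (⊤ : Submodule R V)) :
    LinearMap.det (f * u) - LinearMap.det f ∈ I := by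
  have e : LinearMap.det (f * u) - LinearMap.det f = LinearMap.det f * (LinearMap.det u - 1) := by
    rw [map_mul]
    ring
  rw [e]
  exact Ideal.mul_mem_left _ _ (Fermat.Agent.T2.helper72.det_sub_one_mem I u h)

end Congr

/-! ## Roots of unity -/

section Roots

/-- the powers of a Frobenius lift at `ℓ ∤ m` act on `μ_m` by `ζ ↦ ζ ^ (ℓ ^ j)` -/
lemma frobenius_pow_apply_root {m ℓ : ℕ} (hℓ : ℓ.Prime) (hℓm : ¬ ℓ ∣ m)
    {A : ValuationSubring Qbar} (hA : A.LiesOverPrime ℓ) {φ : GQ} (hφ : A.IsFrobeniusAt φ ℓ)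
    (j : ℕ) {ζ : Qbar} (hζ : ζ ^ m = 1) : (φ ^ j) ζ = ζ ^ (ℓ ^ j) := by
  induction j generalizing ζ with
  | zero => simp
  | succ j ih =>
    rw [pow_succ, AlgEquiv.mul_apply,
      Fermat.Agent.P6.helper31.frobenius_apply_root hℓ hℓm hA hφ hζ]
    have h1 : (ζ ^ ℓ) ^ m = 1 := by rw [← pow_mul, mul_comm, pow_mul, hζ, one_pow]
    rw [ih h1, ← pow_mul, pow_succ, mul_comm]

/-- equal powers of a primitive root: the exponents are congruent -/
lemma dvd_sub_of_pow_eq_pow {ζ : Qbar} {k : ℕ} (hk : k ≠ 0) (hζ : IsPrimitiveRoot ζ k)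
    {a b : ℕ} (h : ζ ^ a = ζ ^ b) : (k : ℤ) ∣ (b : ℤ) - a := by
  have hζ0 : ζ ≠ 0 := hζ.ne_zero hk
  have h1 : ζ ^ ((b : ℤ) - a) = 1 := by
    rw [zpow_sub₀ hζ0, zpow_natCast, zpow_natCast, h, div_self (pow_ne_zero _ hζ0)]
  exact (hζ.zpow_eq_one_iff_dvd _).mp h1

end Roots

/-! ## The transfer -/

section Main

variable {O : Type} [CommRing O] [IsDomain O] [IsLocalRing O] [IsNoetherianRing O]

/-- an integer divisible by `lam ^ e` lies in `𝔪 ^ e` -/
lemma intCast_mem_pow_of_dvd {lam : ℕ} (hlamO : (lam : O) ∈ IsLocalRing.maximalIdeal O) (e : ℕ)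
    {z : ℤ} (hz : ((lam ^ e : ℕ) : ℤ) ∣ z) : (z : O) ∈ IsLocalRing.maximalIdeal O ^ e := by
  obtain ⟨c, rfl⟩ := hz
  push_cast
  exact Ideal.mul_mem_right _ _ (Ideal.pow_mem_pow hlamO e)

/-- **[XFER], congruence form**: trace and determinant of `ρ(s)` modulo `𝔪 ^ e`. -/
theorem trace_det_sub_mem_of_torsRel (ρ : GaloisRepAdic O) {lam : ℕ} (hlam : lam.Prime)
    (hlamO : (lam : O) ∈ IsLocalRing.maximalIdeal O)
    (W : WeierstrassCurve ℤ) (hΔ : W.Δ ≠ 0) (Bad : Finset ℕ) (a : ℕ → ℤ)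
    (hρ : ∀ ℓ : ℕ, ℓ.Prime → ℓ ∉ Bad → ∀ A : ValuationSubring Qbar, A.LiesOverPrime ℓ →
      ∀ φ : GQ, A.IsFrobeniusAt φ ℓ →
        LinearMap.charpoly (ρ.ρ φ) = X ^ 2 - C ((a ℓ : ℤ) : O) * X + C ((ℓ : O)))
    (e : ℕ)
    (hE : ∀ ℓ : ℕ, ℓ.Prime → ℓ ∉ Bad → ℓ ≠ lam → ∀ A : ValuationSubring Qbar,
      A.LiesOverPrime ℓ → ∀ φ : GQ, A.IsFrobeniusAt φ ℓ → ∀ P : Tors W (lam ^ e),
        φ • φ • P - a ℓ • (φ • P) + (ℓ : ℤ) • P = 0)
    (s : GQ) (T₀ : ℤ) (D₀ : ℕ)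
    (hs : ∀ P : Tors W (lam ^ e), s • s • P - T₀ • (s • P) + (D₀ : ℤ) • P = 0)
    (hsμ : ∀ ζ : Qbar, ζ ^ (lam ^ e) = 1 → s ζ = ζ ^ D₀) :
    LinearMap.trace O ρ.V (ρ.ρ s) - ((T₀ : ℤ) : O) ∈ IsLocalRing.maximalIdeal O ^ e ∧
      LinearMap.det (ρ.ρ s) - ((D₀ : ℕ) : O) ∈ IsLocalRing.maximalIdeal O ^ e := by
  classical
  obtain ⟨L₁, hL₁, h₁⟩ := ρ.isAdicContinuous e
  haveI := hL₁
  have hne : lam ^ e ≠ 0 := pow_ne_zero _ hlam.ne_zero
  have hone : 1 ≤ lam ^ e := Nat.one_le_pow _ _ hlam.pos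
  haveI : NeZero ((lam ^ e : ℕ) : Qbar) := ⟨Nat.cast_ne_zero.2 hne⟩
  obtain ⟨ζ, hζ⟩ := HasEnoughRootsOfUnity.exists_primitiveRoot Qbar (lam ^ e)
  haveI : Finite (Tors W (lam ^ e)) := finite_tors W hΔ hone
  haveI := Fermat.Agent.P6.helper31.finiteDimensional_torsionField
    (W.map (Int.castRingHom ℚ)) (lam ^ e) ζ
  obtain ⟨ℓ, A, φ, hℓ, hℓB, hA, hφ, -, ⟨j, hj⟩, -⟩ :=
    Fermat.Agent.Cheb.helper91.weakChebotarev_finite
      (L₁ ⊔ Fermat.Agent.P6.helper31.torsionField (W.map (Int.castRingHom ℚ)) (lam ^ e) ζ) s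
      (Bad ∪ {lam})
  have hℓBad : ℓ ∉ Bad := fun h => hℓB (Finset.mem_union_left _ h)
  have hℓlam : ℓ ≠ lam := fun h =>
    hℓB (Finset.mem_union_right _ (Finset.mem_singleton.mpr h))
  have hℓn : ¬ ℓ ∣ lam ^ e := fun h =>
    hℓlam ((Nat.prime_dvd_prime_iff_eq hℓ hlam).mp (hℓ.dvd_of_dvd_pow h))
  -- the two sides at `g = φ ^ j`
  obtain ⟨g, hgdef⟩ : ∃ g : GQ, g = φ ^ j := ⟨_, rfl⟩
  rw [← hgdef] at hj
  obtain ⟨h, hhdef⟩ : ∃ h : GQ, h = g⁻¹ * s := ⟨_, rfl⟩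
  have hsgh : s = g * h := by rw [hhdef, mul_inv_cancel_left]
  have hfix : ∀ x ∈ L₁, h x = x := by
    intro x hx
    rw [hhdef, AlgEquiv.mul_apply, ← hj x (le_sup_left (a := L₁) hx)]
    exact AlgEquiv.symm_apply_apply g x
  have hcong := h₁ h hfix
  obtain ⟨T, hTdef⟩ : ∃ T : ℤ, T = (dickson 1 (ℓ : ℤ) j).eval (a ℓ) := ⟨_, rfl⟩
  have hcp := hρ ℓ hℓ hℓBad A hA φ hφ
  -- trace and determinant of `ρ g`
  have htrg : LinearMap.trace O ρ.V (ρ.ρ g) = ((T : ℤ) : O) := by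
    rw [hgdef, map_pow, Fermat.Agent.P3.helper64.trace_pow_eq_dickson ρ.finrank_eq _ _ _ hcp j,
      hTdef]
    have h1 : dickson 1 ((ℓ : ℕ) : O) j = (dickson 1 ((ℓ : ℕ) : ℤ) j).map (Int.castRingHom O) := by
      rw [Polynomial.map_dickson]
      simp
    rw [h1, Polynomial.eval_intCast_map, eq_intCast, Int.cast_id]
  have hdetg : LinearMap.det (ρ.ρ g) = (((ℓ ^ j : ℕ) : ℤ) : O) := by
    rw [hgdef, map_pow, map_pow,
      Fermat.Agent.T2.helper72.det_of_charpoly_eq ρ.finrank_eq _ _ _ hcp]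
    push_cast
    rfl
  -- the elliptic side
  have hEg : ∀ P : Tors W (lam ^ e),
      g • g • P - T • (g • P) + ((ℓ ^ j : ℕ) : ℤ) • P = 0 := by
    intro P
    have := pow_rel φ (a ℓ) (ℓ : ℤ) (hE ℓ hℓ hℓBad hℓlam A hA φ hφ) j P
    rw [hgdef, hTdef]
    push_cast
    exact this
  have hsg : ∀ P : Tors W (lam ^ e), s • P = g • P := by
    intro P
    exact Fermat.Agent.P6.helper31.smul_eq_of_eqOn_torsionField (W.map (Int.castRingHom ℚ))
      (lam ^ e) ζ s g (fun x hx => (hj x (le_sup_right (a := L₁) hx)).symm) P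
  -- the determinants
  have hD : ((lam ^ e : ℕ) : ℤ) ∣ (D₀ : ℤ) - ((ℓ ^ j : ℕ) : ℤ) := by
    apply dvd_sub_of_pow_eq_pow hne hζ
    have h1 : g ζ = ζ ^ (ℓ ^ j) := by
      rw [hgdef]
      exact frobenius_pow_apply_root hℓ hℓn hA hφ j hζ.pow_eq_one
    have h2 : g ζ = s ζ := hj ζ (le_sup_right (a := L₁)
      (Fermat.Agent.P6.helper31.root_mem_torsionField (W.map (Int.castRingHom ℚ)) (lam ^ e) ζ))
    rw [← h1, h2, hsμ ζ hζ.pow_eq_one]
  -- the traces
  have hT : ((lam ^ e : ℕ) : ℤ) ∣ T - T₀ := by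
    apply dvd_of_forall_smul_eq_zero W hΔ hlam e
    intro P
    -- `P = s • Q`
    obtain ⟨Q, rfl⟩ : ∃ Q : Tors W (lam ^ e), s • Q = P := ⟨s⁻¹ • P, smul_inv_smul s P⟩
    have e1 := hs Q
    have e2 := hEg Q
    rw [← hsg Q, ← hsg (s • Q)] at e2
    have e3 : (T - T₀) • (s • Q) = (((ℓ ^ j : ℕ) : ℤ) - (D₀ : ℤ)) • Q := by
      rw [sub_smul, sub_smul]
      have := congrArg₂ (· - ·) e1 e2
      simp only [sub_self] at this
      rw [sub_eq_sub_iff_add_eq_add]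
      rw [← sub_eq_zero]
      rw [← this]
      abel
    rw [e3]
    obtain ⟨c, hc⟩ := hD
    have hkill : ((lam ^ e : ℕ) : ℤ) • Q = 0 := Submodule.smul_torsionBy _ Q
    have : ((ℓ ^ j : ℕ) : ℤ) - (D₀ : ℤ) = (-c) * ((lam ^ e : ℕ) : ℤ) := by
      linear_combination -hc
    rw [this, mul_smul, hkill, smul_zero]
  constructor
  · have e1 : LinearMap.trace O ρ.V (ρ.ρ s) - ((T₀ : ℤ) : O) =
        (LinearMap.trace O ρ.V (ρ.ρ g * ρ.ρ h) - LinearMap.trace O ρ.V (ρ.ρ g))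
          + (((T - T₀ : ℤ)) : O) := by
      rw [hsgh, map_mul, htrg]
      push_cast
      ring
    rw [e1]
    exact Ideal.add_mem _ (trace_mul_sub_mem _ _ _ hcong) (intCast_mem_pow_of_dvd hlamO e hT)
  · have e1 : LinearMap.det (ρ.ρ s) - ((D₀ : ℕ) : O) =
        (LinearMap.det (ρ.ρ g * ρ.ρ h) - LinearMap.det (ρ.ρ g))
          - ((((D₀ : ℤ) - ((ℓ ^ j : ℕ) : ℤ) : ℤ)) : O) := by
      rw [hsgh, map_mul, hdetg]
      push_cast
      ring
    rw [e1]
    exact Ideal.sub_mem _ (det_mul_sub_mem _ _ _ hcong) (intCast_mem_pow_of_dvd hlamO e hD)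

/-- **[XFER]**: if `s` satisfies `s² - T₀ s + D₀ = 0` on `E[lam ^ e]` and acts on `μ_{lam ^ e}`
by `ζ ↦ ζ ^ D₀`, for all `e`, then `charpoly ρ(s) = X² - T₀ X + D₀` for every `lam`-adic
representation `ρ` with the Frobenius characteristic polynomials of `E` outside `Bad`. -/
theorem charpoly_eq_of_torsRel (ρ : GaloisRepAdic O) {lam : ℕ} (hlam : lam.Prime)
    (hlamO : (lam : O) ∈ IsLocalRing.maximalIdeal O)
    (W : WeierstrassCurve ℤ) (hΔ : W.Δ ≠ 0) (Bad : Finset ℕ) (a : ℕ → ℤ)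
    (hρ : ∀ ℓ : ℕ, ℓ.Prime → ℓ ∉ Bad → ∀ A : ValuationSubring Qbar, A.LiesOverPrime ℓ →
      ∀ φ : GQ, A.IsFrobeniusAt φ ℓ →
        LinearMap.charpoly (ρ.ρ φ) = X ^ 2 - C ((a ℓ : ℤ) : O) * X + C ((ℓ : O)))
    (hE : ∀ e : ℕ, ∀ ℓ : ℕ, ℓ.Prime → ℓ ∉ Bad → ℓ ≠ lam → ∀ A : ValuationSubring Qbar,
      A.LiesOverPrime ℓ → ∀ φ : GQ, A.IsFrobeniusAt φ ℓ → ∀ P : Tors W (lam ^ e),
        φ • φ • P - a ℓ • (φ • P) + (ℓ : ℤ) • P = 0)
    (s : GQ) (T₀ : ℤ) (D₀ : ℕ)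
    (hs : ∀ e : ℕ, ∀ P : Tors W (lam ^ e), s • s • P - T₀ • (s • P) + (D₀ : ℤ) • P = 0)
    (hsμ : ∀ e : ℕ, ∀ ζ : Qbar, ζ ^ (lam ^ e) = 1 → s ζ = ζ ^ D₀) :
    LinearMap.charpoly (ρ.ρ s) = X ^ 2 - C ((T₀ : ℤ) : O) * X + C ((D₀ : ℕ) : O) := by
  have hK := Ideal.iInf_pow_eq_bot_of_isLocalRing (IsLocalRing.maximalIdeal O)
    (Ideal.IsPrime.ne_top inferInstance)
  have key := fun e : ℕ => trace_det_sub_mem_of_torsRel ρ hlam hlamO W hΔ Bad a hρ e (hE e) s
    T₀ D₀ (hs e) (hsμ e)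
  have htr : LinearMap.trace O ρ.V (ρ.ρ s) = ((T₀ : ℤ) : O) := by
    rw [← sub_eq_zero]
    have hmem : LinearMap.trace O ρ.V (ρ.ρ s) - ((T₀ : ℤ) : O) ∈
        ⨅ n : ℕ, IsLocalRing.maximalIdeal O ^ n := by
      rw [Ideal.mem_iInf]
      exact fun e => (key e).1
    rw [hK] at hmem
    exact hmem
  have hdet : LinearMap.det (ρ.ρ s) = ((D₀ : ℕ) : O) := by
    rw [← sub_eq_zero]
    have hmem : LinearMap.det (ρ.ρ s) - ((D₀ : ℕ) : O) ∈
        ⨅ n : ℕ, IsLocalRing.maximalIdeal O ^ n := by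
      rw [Ideal.mem_iInf]
      exact fun e => (key e).2
    rw [hK] at hmem
    exact hmem
  rw [Fermat.Agent.T2.helper72.charpoly_eq_of_finrank_two ρ.finrank_eq, htr, hdet]

end Main

end Fermat.Agent.S58.helper6
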