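/-
S58 prep [EC-UNIP], part 1 (helper7): abstract unipotence at a node, in arbitrary residue
characteristic (only `2 ≠ 0` in the field) and for points of arbitrary odd order.

Setting of `Fermat.Agent.S13.helper7` (node coordinates `X = x - e`, `M = 2 y + a₁ x + a₃`,
`M ^ 2 = 4 X ^ 3 + C2 X ^ 2 + 4 c X` with `|C2| = 1`, `|c| < 1`).  `f` is a ring endomorphism
of `K` which preserves the valuation, is congruent to the identity on integers, fixes `a₁` and
moves the root `e` by at most `|4 c|`; `φ` is the induced endomorphism of the group of points.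
Then `(φ - 1) ^ 2` kills every point of odd order `m`, provided the `m`-torsion points are
integral and `φ` fixes the `m`-torsion points which do not reduce to the node.
-/
import Mathlib.FieldTheory.Finite.Basic
import Fermat.Agent.S13.helper7_Sawtooth2

set_option autoImplicit false
set_option linter.unusedSimpArgs false
set_option linter.unusedVariables false
set_option linter.unusedSectionVars false

namespace Fermat.Agent.S58.helper7

open WeierstrassCurve Fermat.Agent.S05.helper7 Fermat.Agent.S13.helper7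

variable {K : Type*} [Field K] {Γ₀ : Type*} [LinearOrderedCommGroupWithZero Γ₀]
  {v : Valuation K Γ₀}

/-! ### Valuation lemmas -/

/-- A root of a monic quadratic with integral coefficients is integral. -/
lemma v_le_one_of_quadratic {b t ν : K} (hb : v b ≤ 1) (ht : v t ≤ 1)
    (h : ν ^ 2 + b * ν = t) : v ν ≤ 1 := by
  by_contra hcon
  rw [not_le] at hcon
  have hpos : 0 < v ν := lt_trans zero_lt_one hcon
  have h1 : v ν < v ν ^ 2 := by
    rw [pow_two]
    calc v ν = v ν * 1 := (mul_one _).symm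
      _ < v ν * v ν := mul_lt_mul_of_pos_left hcon hpos
  have h2 : v (b * ν) < v (ν ^ 2) := by
    rw [map_mul, map_pow]
    calc v b * v ν ≤ 1 * v ν := mul_le_mul_left hb _
      _ = v ν := one_mul _
      _ < v ν ^ 2 := h1
  have h3 : v (ν ^ 2 + b * ν) = v ν ^ 2 := by
    rw [Valuation.map_add_eq_of_lt_left v h2, map_pow]
  rw [h] at h3
  rw [h3] at ht
  exact absurd (lt_trans hcon h1) (not_lt.mpr ht)

variable {c C2 : K}

/-- Doubling a point which is off the node gives a point which is off the node. -/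
lemma rule_double_off (hv : NodeVal2 v c C2) {X M X₃ : K}
    (hp : IsPt (4 * c) C2 X M) (hM0 : M ≠ 0) (hX : 1 ≤ v X)
    (I2 : 4 * X₃ * (M * X + M * X) ^ 2 = X * X * (4 * X * X - 4 * c) ^ 2) :
    1 ≤ v X₃ := by
  have hXpos : 0 < v X := lt_of_lt_of_le zero_lt_one hX
  have hXne : v X ≠ 0 := ne_of_gt hXpos
  have hMne : v M ≠ 0 := (Valuation.ne_zero_iff v).mpr hM0
  have hXX : 1 ≤ v X * v X := by
    calc (1 : Γ₀) = 1 * 1 := (one_mul _).symm
      _ ≤ v X * v X := mul_le_mul' hX hX
  have hsq : v c < v X * v X := lt_of_lt_of_le hv.vc hXX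
  have hT : v (4 * X * X - 4 * c) = v 4 * (v X * v X) := by
    have e : 4 * X * X - 4 * c = 4 * (X * X - c) := by ring
    rw [e, map_mul, Valuation.map_sub_eq_of_lt_left, map_mul]
    rw [map_mul]; exact hsq
  have hMM : v (M * X + M * X) = v 2 * (v M * v X) := by
    have : M * X + M * X = 2 * (M * X) := by ring
    rw [this, map_mul, map_mul]
  have hX2 : v X ^ 2 ≤ v X ^ 3 := by
    calc v X ^ 2 = v X ^ 2 * 1 := (mul_one _).symm
      _ ≤ v X ^ 2 * v X := mul_le_mul_right hX _
      _ = v X ^ 3 := (pow_succ _ _).symm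
  have hX1 : v X ≤ v X ^ 3 := by
    calc v X = v X * 1 := (mul_one _).symm
      _ ≤ v X * (v X * v X) := mul_le_mul_right hXX _
      _ = v X ^ 3 := by simp only [pow_succ, pow_zero, one_mul, mul_assoc]
  have hMle : v M ^ 2 ≤ v X ^ 3 := by
    have e : M ^ 2 = 4 * X ^ 3 + C2 * X ^ 2 + 4 * c * X := hp
    rw [← map_pow, e]
    refine le_trans (Valuation.map_add _ _ _) (max_le ?_ ?_)
    · refine le_trans (Valuation.map_add _ _ _) (max_le ?_ ?_)
      · rw [map_mul, map_pow]
        calc v 4 * v X ^ 3 ≤ 1 * v X ^ 3 := mul_le_mul_left hv.v4_le _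
          _ = v X ^ 3 := one_mul _
      · rw [map_mul, hv.vC2, one_mul, map_pow]
        exact hX2
    · rw [map_mul, map_mul]
      calc v 4 * v c * v X ≤ 1 * v X :=
            mul_le_mul_left (mul_le_one' hv.v4_le hv.vc.le) _
        _ = v X := one_mul _
        _ ≤ v X ^ 3 := hX1
  have := congrArg v I2
  simp only [map_mul, map_pow, hT, hMM] at this
  by_contra hcon
  rw [not_le] at hcon
  have h1 : v 4 * v X₃ * (v 2 * (v M * v X)) ^ 2 < v X * v X * (v 4 * (v X * v X)) ^ 2 := by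
    calc v 4 * v X₃ * (v 2 * (v M * v X)) ^ 2
        = v X₃ * (v 4 * (v 2 * (v M * v X)) ^ 2) := by
          simp only [pow_two, mul_assoc, mul_comm, mul_left_comm]
      _ < 1 * (v 4 * (v 2 * (v M * v X)) ^ 2) :=
          mul_lt_mul_of_pos_right hcon (zero_lt_iff.mpr
            (mul_ne_zero hv.v4_ne (pow_ne_zero 2 (mul_ne_zero hv.v2 (mul_ne_zero hMne hXne)))))
      _ = (v X * v X * v 4 ^ 2) * v M ^ 2 := by
          rw [hv.v4]; simp only [one_mul, pow_two, mul_assoc, mul_comm, mul_left_comm]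
      _ ≤ (v X * v X * v 4 ^ 2) * v X ^ 3 := mul_le_mul_right hMle _
      _ ≤ (v X * v X * v 4 ^ 2) * (v X ^ 3 * v X) := by
          refine mul_le_mul_right ?_ _
          calc v X ^ 3 = v X ^ 3 * 1 := (mul_one _).symm
            _ ≤ v X ^ 3 * v X := mul_le_mul_right hX _
      _ = v X * v X * (v 4 * (v X * v X)) ^ 2 := by
          simp only [pow_succ, pow_zero, one_mul, mul_assoc, mul_comm, mul_left_comm]
  exact absurd this (ne_of_lt h1)

/-- A point of the middle region and the negative of its image under an inertia-like map have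
opposite signs (arbitrary residue characteristic). -/
lemma oppS2_of_inertiaLike (hv : NodeVal2 v c C2) {a₁ a₂ e : K} (ha₁ : v a₁ ≤ 1)
    (ha₂ : v a₂ ≤ 1) (he : v e ≤ 1) (hC2 : C2 = a₁ ^ 2 + 4 * a₂ + 12 * e) {X M : K}
    (hpt : IsPt (4 * c) C2 X M) (hX : Mid v c X) (f : K →+* K) (hfv : ∀ x, v (f x) = v x)
    (hfI : ∀ x, v x ≤ 1 → v (f x - x) < 1) (hfa₁ : f a₁ = a₁) {δ : K}
    (hδ : v δ ≤ v (4 * c)) :
    OppS2 v X M (f X + δ) (-f M) := by
  unfold OppS2
  have hX0 : X ≠ 0 := hX.X_ne_zero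
  have h2 : (2 : K) ≠ 0 := (Valuation.ne_zero_iff v).mp hv.v2
  have hpos : 0 < v X := hX.pos
  have hvM : v M = v X := v_M_eq2 hv hpt hX
  have h3 : v (3 : K) ≤ 1 := by
    have h : (3 : K) = 2 + 1 := by norm_num
    rw [h]
    exact le_trans (Valuation.map_add _ _ _) (max_le (v_two_le_one v) (by simp))
  -- the slope of the line through the point and the `2`-torsion point at the node
  have hν : ((M - a₁ * X) / (2 * X)) ^ 2 + a₁ * ((M - a₁ * X) / (2 * X)) =
      a₂ + 3 * e + X + c / X := by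
    have e1 : M ^ 2 = 4 * X ^ 3 + C2 * X ^ 2 + 4 * c * X := hpt
    field_simp
    rw [hC2] at e1
    linear_combination e1
  have ht : v (a₂ + 3 * e + X + c / X) ≤ 1 := by
    refine le_trans (Valuation.map_add _ _ _) (max_le ?_ ?_)
    · refine le_trans (Valuation.map_add _ _ _) (max_le ?_ hX.2.le)
      refine le_trans (Valuation.map_add _ _ _) (max_le ha₂ ?_)
      rw [map_mul]
      exact mul_le_one' h3 he
    · rw [map_div₀]
      exact (div_le_one₀ hpos).mpr hX.1.le
  have hνle : v ((M - a₁ * X) / (2 * X)) ≤ 1 := v_le_one_of_quadratic ha₁ ht hν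
  have h1 := hfI _ hνle
  have hf2 : f 2 = 2 := map_ofNat f 2
  have hfX0 : f X ≠ 0 := by
    rw [← Valuation.ne_zero_iff v, hfv]
    exact hX.ne_zero
  have key : M * (f X + δ) + -f M * X =
      M * δ + -(2 * (X * f X) * (f ((M - a₁ * X) / (2 * X)) - (M - a₁ * X) / (2 * X))) := by
    rw [map_div₀, map_sub, map_mul, map_mul, hfa₁, hf2]
    field_simp
    ring
  have hc4 : v (4 * c) ≤ v 2 * v c := by
    have : (4 : K) * c = 2 * (2 * c) := by ring
    rw [this, map_mul, map_mul]
    refine mul_le_mul_right ?_ _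
    calc v 2 * v c ≤ 1 * v c := mul_le_mul_left (v_two_le_one v) _
      _ = v c := one_mul _
  have hδX : v δ < v X := by
    refine lt_of_le_of_lt hδ (lt_of_le_of_lt hc4 ?_)
    calc v 2 * v c ≤ 1 * v c := mul_le_mul_left (v_two_le_one v) _
      _ = v c := one_mul _
      _ < v X := hX.1
  have hXX' : v (X * (f X + δ)) = v X * v X := by
    have : v (f X + δ) = v X := by
      rw [Valuation.map_add_eq_of_lt_left v (by rw [hfv]; exact hδX), hfv]
    rw [map_mul, this]
  rw [key, hXX']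
  refine lt_of_le_of_lt (Valuation.map_add _ _ _) (max_lt ?_ ?_)
  · rw [map_mul, hvM]
    calc v X * v δ ≤ v X * (v 2 * v c) := mul_le_mul_right (le_trans hδ hc4) _
      _ = v 2 * (v X * v c) := by simp only [mul_assoc, mul_comm, mul_left_comm]
      _ < v 2 * (v X * v X) :=
          mul_lt_mul_of_pos_left (mul_lt_mul_of_pos_left hX.1 hpos) hv.v2_pos
  · rw [Valuation.map_neg, map_mul, map_mul, map_mul, hfv]
    calc v 2 * (v X * v X) * v (f ((M - a₁ * X) / (2 * X)) - (M - a₁ * X) / (2 * X))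
        < v 2 * (v X * v X) * 1 :=
          mul_lt_mul_of_pos_left h1 (mul_pos hv.v2_pos (mul_pos hpos hpos))
      _ = v 2 * (v X * v X) := mul_one _

/-! ### Points off the node -/

section Points

variable [DecidableEq K] {W : WeierstrassCurve K} {e : K}

/-- "Off the node": the point is zero or its `X`-coordinate is not small. -/
def OffNode (v : Valuation K Γ₀) (W : WeierstrassCurve K) (e : K) (Q : W.toAffine.Point) :
    Prop :=
  Q = 0 ∨ 1 ≤ v (pX W e Q)

lemma offNode_zero : OffNode v W e 0 := Or.inl rfl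

lemma offNode_neg {Q : W.toAffine.Point} (h : OffNode v W e Q) : OffNode v W e (-Q) := by
  rcases h with h | h
  · left
    rw [h, neg_zero]
  · right
    rw [pX_neg]
    exact h

lemma offNode_double (hm : NodeModel W e (4 * c) C2) (hv : NodeVal2 v c C2)
    {Q : W.toAffine.Point} (h : OffNode v W e Q) : OffNode v W e (Q + Q) := by
  rcases h with h | h
  · left
    rw [h, add_zero]
  by_cases hQQ : Q + Q = 0
  · exact Or.inl hQQ
  have hQ : Q ≠ 0 := by
    rintro rfl
    exact hQQ (add_zero _)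
  right
  have h2K := two_ne_zero_of_nodeVal2 hv
  have hp := isPt_of_ne_zero hm hQ
  have hM0 : pM W Q ≠ 0 := fun h => hQQ (add_self_eq_zero_of_pM_eq_zero h2K hQ h)
  obtain ⟨I2, -, -, -⟩ := add_identities hm hQ hQ hQQ
  exact rule_double_off hv hp hM0 h I2

lemma offNode_two_pow (hm : NodeModel W e (4 * c) C2) (hv : NodeVal2 v c C2)
    {Q : W.toAffine.Point} (h : OffNode v W e Q) (j : ℕ) : OffNode v W e ((2 ^ j) • Q) := by
  induction j with
  | zero => rwa [pow_zero, one_nsmul]
  | succ j ih =>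
    have : (2 ^ (j + 1)) • Q = (2 ^ j) • Q + (2 ^ j) • Q := by
      rw [pow_succ, mul_two, add_nsmul]
    rw [this]
    exact offNode_double hm hv ih

end Points

/-! ### Odd order -/

lemma exists_two_pow_nsmul_eq {G : Type*} [AddCommGroup G] {m : ℕ} (hodd : Odd m) {Q : G}
    (hQ : m • Q = 0) : ∃ k : ℕ, (2 ^ (k + 1)) • Q = Q := by
  have hm0 : 0 < m := hodd.pos
  have hcop : Nat.Coprime 2 m := Nat.coprime_two_left.mpr hodd
  have hφ : 0 < Nat.totient m := Nat.totient_pos.mpr hm0
  have h1 : 2 ^ Nat.totient m ≡ 1 [MOD m] := Nat.ModEq.pow_totient hcop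
  have h2 : m ∣ 2 ^ Nat.totient m - 1 :=
    (Nat.modEq_iff_dvd' (Nat.one_le_two_pow)).mp h1.symm
  obtain ⟨t, ht⟩ := h2
  refine ⟨Nat.totient m - 1, ?_⟩
  rw [Nat.sub_add_cancel hφ]
  have h3 : 2 ^ Nat.totient m = m * t + 1 := by
    have := Nat.one_le_two_pow (n := Nat.totient m)
    omega
  rw [h3, add_nsmul, one_nsmul, mul_nsmul, hQ, smul_zero, zero_add]

lemma nsmul_two_ne_zero_of_odd {G : Type*} [AddCommGroup G] {m : ℕ} (hodd : Odd m) {Q : G}
    (hQ : m • Q = 0) (hQ0 : Q ≠ 0) : Q + Q ≠ 0 := by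
  intro h
  obtain ⟨t, ht⟩ := hodd
  apply hQ0
  have h2 : (2 : ℕ) • Q = 0 := by rw [two_nsmul]; exact h
  have : m • Q = Q := by
    rw [ht, add_nsmul, one_nsmul, mul_nsmul, h2, smul_zero, zero_add]
  rw [← this]
  exact hQ

section Main

variable [DecidableEq K] {W : WeierstrassCurve K} {e : K}

/-- A point of odd order is off the node or in the middle region. -/
lemma offNode_or_mid (hm : NodeModel W e (4 * c) C2) (hv : NodeVal2 v c C2) {m : ℕ}
    (hodd : Odd m) {Q : W.toAffine.Point} (hQ : m • Q = 0) :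
    OffNode v W e Q ∨ Mid v c (pX W e Q) := by
  by_cases hoff : OffNode v W e Q
  · exact Or.inl hoff
  right
  have hQ0 : Q ≠ 0 := fun h => hoff (Or.inl h)
  have hlt : v (pX W e Q) < 1 := by
    by_contra hcon
    exact hoff (Or.inr (not_lt.mp hcon))
  have hQQ : Q + Q ≠ 0 := nsmul_two_ne_zero_of_odd hodd hQ hQ0
  by_cases h2 : v (pX W e (Q + Q)) < 1
  · exact mid_of_double2 hm hv hQ0 hQQ hlt h2
  exfalso
  have hoff2 : OffNode v W e (Q + Q) := Or.inr (not_lt.mp h2)
  obtain ⟨k, hk⟩ := exists_two_pow_nsmul_eq hodd hQ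
  apply hoff
  have h3 := offNode_two_pow hm hv hoff2 k
  have e1 : (2 ^ k) • (Q + Q) = (2 ^ (k + 1)) • Q := by
    rw [pow_succ, mul_nsmul', two_nsmul]
  rw [e1, hk] at h3
  exact h3

/-- **Abstract unipotence at a node**, arbitrary residue characteristic, arbitrary odd order. -/
theorem node_unipotent2 (hm : NodeModel W e (4 * c) C2) (hv : NodeVal2 v c C2)
    (ha₁ : v W.a₁ ≤ 1) (ha₂ : v W.a₂ ≤ 1) (he : v e ≤ 1) {m : ℕ} (hodd : Odd m)
    (f : K →+* K) (hfv : ∀ x, v (f x) = v x) (hfI : ∀ x, v x ≤ 1 → v (f x - x) < 1)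
    (hfa₁ : f W.a₁ = W.a₁) (hfe : v (f e - e) ≤ v (4 * c))
    (φ : W.toAffine.Point →+ W.toAffine.Point)
    (hφ0 : ∀ Q, φ Q = 0 → Q = 0)
    (hφX : ∀ Q, Q ≠ 0 → pX W e (φ Q) = f (pX W e Q) + (f e - e))
    (hφM : ∀ Q, pM W (φ Q) = f (pM W Q))
    (hA : ∀ Q : W.toAffine.Point, m • Q = 0 → Q ≠ 0 → v (pX W e Q) ≤ 1)
    (h0 : ∀ Q : W.toAffine.Point, m • Q = 0 → v (pX W e Q) = 1 → φ Q = Q)
    {P : W.toAffine.Point} (hmP : m • P = 0) : φ (φ P - P) = φ P - P := by
  -- points off the node are fixed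
  have hfix : ∀ Q : W.toAffine.Point, m • Q = 0 → OffNode v W e Q → φ Q = Q := by
    intro Q hQ hoff
    rcases hoff with h | h
    · rw [h, map_zero]
    · by_cases hQ0 : Q = 0
      · rw [hQ0, map_zero]
      · exact h0 Q hQ (le_antisymm (hA Q hQ hQ0) h)
  have hfix_of_eq : φ P = P → φ (φ P - P) = φ P - P := by
    intro h
    rw [h, sub_self, map_zero]
  rcases offNode_or_mid hm hv hodd hmP with hoff | hmidP
  · exact hfix_of_eq (hfix P hmP hoff)
  have hP : P ≠ 0 := by
    rintro rfl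
    have := hmidP.X_ne_zero
    exact this rfl
  have hptP : IsPt (4 * c) C2 (pX W e P) (pM W P) := isPt_of_ne_zero hm hP
  have hφP : φ P ≠ 0 := fun h => hP (hφ0 P h)
  have hnφP : -φ P ≠ 0 := neg_ne_zero.mpr hφP
  have hXφ : pX W e (-φ P) = f (pX W e P) + (f e - e) := by
    rw [pX_neg, hφX P hP]
  have hMφ : pM W (-φ P) = -f (pM W P) := by
    rw [pM_neg, hφM]
  have hC2 : C2 = W.a₁ ^ 2 + 4 * W.a₂ + 12 * e := by
    rw [hm.hC2, WeierstrassCurve.b₂]
  have hO : OppS2 v (pX W e P) (pM W P) (pX W e (-φ P)) (pM W (-φ P)) := by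
    rw [hXφ, hMφ]
    exact oppS2_of_inertiaLike hv ha₁ ha₂ he hC2 hptP hmidP f hfv hfI hfa₁ hfe
  have hc4 : v (4 * c) ≤ v c := by
    rw [map_mul]
    calc v 4 * v c ≤ 1 * v c := mul_le_mul_left hv.v4_le _
      _ = v c := one_mul _
  have hvX' : v (pX W e (-φ P)) = v (pX W e P) := by
    rw [hXφ, Valuation.map_add_eq_of_lt_left v
      (by rw [hfv]; exact lt_of_le_of_lt (le_trans hfe hc4) hmidP.1), hfv]
  have hmid' : Mid v c (pX W e (-φ P)) := by
    unfold Mid
    rw [hvX']
    exact hmidP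
  have hpt' : IsPt (4 * c) C2 (pX W e (-φ P)) (pM W (-φ P)) := isPt_of_ne_zero hm hnφP
  have h2 : (2 : K) ≠ 0 := two_ne_zero_of_nodeVal2 hv
  have hmR : m • (P + -φ P) = 0 := by
    rw [smul_add, smul_neg, hmP, ← map_nsmul, hmP, map_zero, neg_zero, add_zero]
  have hfinish : OffNode v W e (P + -φ P) → φ (φ P - P) = φ P - P := by
    intro hoff
    have hfixR : φ (P + -φ P) = P + -φ P := hfix _ hmR hoff
    have e1 : φ P - P = -(P + -φ P) := by abel
    rw [e1, map_neg, hfixR]
  by_cases hXeq : pX W e P = pX W e (-φ P)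
  · rcases eq_or_eq_neg_of_pX_eq hm h2 hP hnφP hXeq with h | h
    · exfalso
      rw [← h] at hO
      exact not_sameS2_and_oppS2 (sameS2_self hv hptP hmidP) hO
    · rw [neg_neg] at h
      exact hfix_of_eq h.symm
  · by_cases hsum : P + -φ P = 0
    · exact hfinish (Or.inl hsum)
    · obtain ⟨-, -, -, I1⟩ := add_identities hm hP hnφP hsum
      exact hfinish (Or.inr (rule_opp_eq2 hv hpt' hmidP hmid' hO (I1 hXeq) hXeq hvX'.symm))

end Main

end Fermat.Agent.S58.helper7
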