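/-
S58 prep [EC-UNIP], part 2 (helper7): existence of node coordinates for a Weierstrass curve
with multiplicative reduction over an algebraically closed valued field, in ARBITRARY residue
characteristic (only `2 ≠ 0` in the field), and two valuation computations in node coordinates.

(The odd residue characteristic case is `Fermat.Agent.P7.helper59.exists_nodeModel`; the
argument here is uniform: with `c_i = ∏_{j ≠ i} (e_i - e_j)` for the roots `e_i` of the
`2`-division cubic one has `Δ = c_i ^ 2 * (16 d_i ^ 2)` and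
`c₄ ^ 2 = ∑_{i < j} (16 d_i ^ 2) (16 d_j ^ 2)`, so some `c_i` is small.)
-/
import Mathlib.Algebra.CubicDiscriminant
import Mathlib.FieldTheory.IsAlgClosed.Basic
import Fermat.Agent.S13.helper7_Sawtooth2

set_option autoImplicit false
set_option linter.unusedSimpArgs false
set_option linter.unusedVariables false
set_option linter.unusedSectionVars false

namespace Fermat.Agent.S58.helper7

open WeierstrassCurve Fermat.Agent.S05.helper7 Fermat.Agent.S13.helper7

variable {K : Type*} [Field K] {Γ₀ : Type*} [LinearOrderedCommGroupWithZero Γ₀]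
  (v : Valuation K Γ₀) (W : WeierstrassCurve K)

lemma ecu_v_three_le_one : v (3 : K) ≤ 1 := by
  have h : (3 : K) = 2 + 1 := by norm_num
  rw [h]
  exact le_trans (Valuation.map_add _ _ _) (max_le (v_two_le_one v) (by simp))

lemma ecu_v_four_le_one : v (4 : K) ≤ 1 := by
  have h : (4 : K) = 2 * 2 := by norm_num
  rw [h, map_mul]
  exact mul_le_one' (v_two_le_one v) (v_two_le_one v)

lemma ecu_v_twelve_le_one : v (12 : K) ≤ 1 := by
  have h : (12 : K) = 4 * 3 := by norm_num
  rw [h, map_mul]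
  exact mul_le_one' (ecu_v_four_le_one v) (ecu_v_three_le_one v)

lemma ecu_v_sixteen_le_one : v (16 : K) ≤ 1 := by
  have h : (16 : K) = 4 * 4 := by norm_num
  rw [h, map_mul]
  exact mul_le_one' (ecu_v_four_le_one v) (ecu_v_four_le_one v)

/-- Node coordinates from a root `x` of the `2`-division cubic with `|(x - y) (x - z)| < 1`. -/
lemma nodeModel2_of_small (h2 : (2 : K) ≠ 0) (hb₂ : v W.b₂ ≤ 1) (hb₄ : v W.b₄ ≤ 1)
    (hb₆ : v W.b₆ ≤ 1) (hc₄ : v W.c₄ = 1) {x y z : K}
    (hb : W.b₂ = 4 * -(x + y + z)) (hc : 2 * W.b₄ = 4 * (x * y + x * z + y * z))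
    (hd : W.b₆ = 4 * -(x * y * z)) (hsmall : v ((x - y) * (x - z)) < 1) :
    ∃ e c C2 : K, NodeModel W e (4 * c) C2 ∧ NodeVal2 v c C2 ∧ v e ≤ 1 := by
  have hC1 : 4 * ((x - y) * (x - z)) = 12 * x ^ 2 + 2 * W.b₂ * x + 2 * W.b₄ := by
    rw [hb]
    linear_combination -hc
  have hroot : 4 * x ^ 3 + W.b₂ * x ^ 2 + 2 * W.b₄ * x + W.b₆ = 0 := by
    rw [hb, hd]
    linear_combination x * hc
  have hvC2 : v (W.b₂ + 12 * x) = 1 := by
    have e2 : (W.b₂ + 12 * x) ^ 2 = W.c₄ + 12 * (4 * ((x - y) * (x - z))) := by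
      rw [hC1, WeierstrassCurve.c₄]
      ring
    have h48 : v (12 * (4 * ((x - y) * (x - z)))) < 1 := by
      rw [map_mul, map_mul]
      calc v 12 * (v 4 * v ((x - y) * (x - z)))
          ≤ 1 * (1 * v ((x - y) * (x - z))) :=
            mul_le_mul' (ecu_v_twelve_le_one v) (mul_le_mul_left (ecu_v_four_le_one v) _)
        _ = v ((x - y) * (x - z)) := by rw [one_mul, one_mul]
        _ < 1 := hsmall
    have h3 : v ((W.b₂ + 12 * x) ^ 2) = 1 := by
      rw [e2, Valuation.map_add_eq_of_lt_left v (by rw [hc₄]; exact h48), hc₄]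
    rw [map_pow] at h3
    exact (pow_eq_one_iff_of_nonneg zero_le two_ne_zero).mp h3
  refine ⟨x, (x - y) * (x - z), W.b₂ + 12 * x, ⟨rfl, hC1, hroot⟩,
    ⟨(Valuation.ne_zero_iff v).mpr h2, hvC2, hsmall⟩, ?_⟩
  -- integrality of the root
  by_contra hcon
  rw [not_le] at hcon
  have hpos : 0 < v x := lt_trans zero_lt_one hcon
  have e1 : x ^ 2 * (4 * x + W.b₂) = -(2 * W.b₄ * x + W.b₆) := by linear_combination hroot
  have hle : v (-(2 * W.b₄ * x + W.b₆)) ≤ v x := by
    rw [Valuation.map_neg]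
    refine le_trans (Valuation.map_add _ _ _) (max_le ?_ (le_trans hb₆ hcon.le))
    rw [map_mul, map_mul]
    calc v 2 * v W.b₄ * v x ≤ 1 * v x :=
          mul_le_mul_left (mul_le_one' (v_two_le_one v) hb₄) _
      _ = v x := one_mul _
  rw [← e1, map_mul, map_pow] at hle
  have hlt : v (4 * x + W.b₂) < 1 := by
    by_contra hcon2
    rw [not_lt] at hcon2
    have h1 : v x < v x ^ 2 * v (4 * x + W.b₂) := by
      calc v x = v x * 1 := (mul_one _).symm
        _ < v x * v x := mul_lt_mul_of_pos_left hcon hpos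
        _ = v x ^ 2 * 1 := by rw [mul_one, pow_two]
        _ ≤ v x ^ 2 * v (4 * x + W.b₂) := mul_le_mul_right hcon2 _
    exact absurd hle (not_le.mpr h1)
  rcases lt_or_eq_of_le (v_two_le_one v) with h2lt | h2eq
  · -- residue characteristic `2`: `C2 = 3 (4 x + b₂) - 2 b₂` is small
    have e3 : W.b₂ + 12 * x = 3 * (4 * x + W.b₂) - 2 * W.b₂ := by ring
    have : v (W.b₂ + 12 * x) < 1 := by
      rw [e3]
      refine lt_of_le_of_lt (Valuation.map_sub _ _ _) (max_lt ?_ ?_)
      · rw [map_mul]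
        calc v 3 * v (4 * x + W.b₂) ≤ 1 * v (4 * x + W.b₂) :=
              mul_le_mul_left (ecu_v_three_le_one v) _
          _ = v (4 * x + W.b₂) := one_mul _
          _ < 1 := hlt
      · rw [map_mul]
        calc v 2 * v W.b₂ ≤ v 2 * 1 := mul_le_mul_right hb₂ _
          _ = v 2 := mul_one _
          _ < 1 := h2lt
    rw [hvC2] at this
    exact lt_irrefl _ this
  · -- odd residue characteristic: `|4 x + b₂| = |x| > 1`
    have h4 : v (4 : K) = 1 := by
      have h : (4 : K) = 2 * 2 := by norm_num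
      rw [h, map_mul, h2eq, one_mul]
    have h4x : v (4 * x) = v x := by rw [map_mul, h4, one_mul]
    have : v (4 * x + W.b₂) = v x := by
      rw [Valuation.map_add_eq_of_lt_left v (by rw [h4x]; exact lt_of_le_of_lt hb₂ hcon), h4x]
    rw [this] at hlt
    exact absurd hlt (not_lt.mpr hcon.le)

/-- **Existence of node coordinates, arbitrary residue characteristic**: an integral
Weierstrass curve over an algebraically closed valued field with `2 ≠ 0`, `|Δ| < 1`,
`|c₄| = 1` has an integral root `e` of its `2`-division cubic with `F'(e) = 4 c`, `|c| < 1`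
and `|b₂ + 12 e| = 1`. -/
theorem exists_nodeModel2 [IsAlgClosed K] (h2 : (2 : K) ≠ 0) (hb₂ : v W.b₂ ≤ 1)
    (hb₄ : v W.b₄ ≤ 1) (hb₆ : v W.b₆ ≤ 1) (hΔ : v W.Δ < 1) (hc₄ : v W.c₄ = 1) :
    ∃ e c C2 : K, NodeModel W e (4 * c) C2 ∧ NodeVal2 v c C2 ∧ v e ≤ 1 := by
  have h4 : (4 : K) ≠ 0 := by
    have : (4 : K) = 2 * 2 := by norm_num
    rw [this]
    exact mul_ne_zero h2 h2
  have ha : W.twoTorsionPolynomial.a ≠ 0 := h4
  have hsplit : (Polynomial.map (RingHom.id K) W.twoTorsionPolynomial.toPoly).Splits :=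
    IsAlgClosed.splits _
  obtain ⟨x, y, z, h3⟩ := (Cubic.splits_iff_roots_eq_three ha).mp hsplit
  have hb := Cubic.b_eq_three_roots ha h3
  have hc := Cubic.c_eq_three_roots ha h3
  have hd := Cubic.d_eq_three_roots ha h3
  have hdisc := Cubic.discr_eq_prod_three_roots ha h3
  rw [twoTorsionPolynomial_discr] at hdisc
  simp only [RingHom.id_apply, twoTorsionPolynomial] at hb hc hd hdisc
  have h16 : (16 : K) ≠ 0 := by
    have : (16 : K) = 4 * 4 := by norm_num
    rw [this]
    exact mul_ne_zero h4 h4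
  have eΔ : W.Δ = 16 * ((x - y) * (x - z) * (y - z)) ^ 2 := by
    apply mul_left_cancel₀ h16
    rw [hdisc]
    ring
  have ec₄ : W.c₄ ^ 2 = (16 * (y - z) ^ 2) * (16 * (x - z) ^ 2) +
      (16 * (y - z) ^ 2) * (16 * (x - y) ^ 2) + (16 * (x - z) ^ 2) * (16 * (x - y) ^ 2) := by
    have e0 : W.c₄ = W.b₂ ^ 2 - 12 * (2 * W.b₄) := by
      rw [WeierstrassCurve.c₄]
      ring
    rw [e0, hb, hc]
    ring
  -- one of the three products is small
  have key : ∀ (c d : K), W.Δ = c ^ 2 * (16 * d ^ 2) → 1 ≤ v c → v (16 * d ^ 2) < 1 := by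
    intro c d hcd hc1
    have h := congrArg v hcd
    rw [map_mul, map_pow] at h
    refine lt_of_le_of_lt ?_ (h ▸ hΔ)
    calc v (16 * d ^ 2) = 1 * v (16 * d ^ 2) := (one_mul _).symm
      _ ≤ v c ^ 2 * v (16 * d ^ 2) := mul_le_mul_left (one_le_pow₀ hc1) _
  by_cases c1 : v ((x - y) * (x - z)) < 1
  · exact nodeModel2_of_small v W h2 hb₂ hb₄ hb₆ hc₄ hb hc hd c1
  by_cases c2 : v ((y - x) * (y - z)) < 1
  · refine nodeModel2_of_small v W h2 hb₂ hb₄ hb₆ hc₄ (x := y) (y := x) (z := z) ?_ ?_ ?_ c2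
    · rw [hb]; ring
    · rw [hc]; ring
    · rw [hd]; ring
  by_cases c3 : v ((z - x) * (z - y)) < 1
  · refine nodeModel2_of_small v W h2 hb₂ hb₄ hb₆ hc₄ (x := z) (y := x) (z := y) ?_ ?_ ?_ c3
    · rw [hb]; ring
    · rw [hc]; ring
    · rw [hd]; ring
  exfalso
  have k1 : v (16 * (y - z) ^ 2) < 1 :=
    key ((x - y) * (x - z)) (y - z) (by rw [eΔ]; ring) (not_lt.mp c1)
  have k2 : v (16 * (x - z) ^ 2) < 1 :=
    key ((y - x) * (y - z)) (x - z) (by rw [eΔ]; ring) (not_lt.mp c2)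
  have k3 : v (16 * (x - y) ^ 2) < 1 :=
    key ((z - x) * (z - y)) (x - y) (by rw [eΔ]; ring) (not_lt.mp c3)
  have hlt : v (W.c₄ ^ 2) < 1 := by
    rw [ec₄]
    refine lt_of_le_of_lt (Valuation.map_add _ _ _) (max_lt ?_ ?_)
    · refine lt_of_le_of_lt (Valuation.map_add _ _ _) (max_lt ?_ ?_)
      · rw [map_mul]
        exact mul_lt_one_of_nonneg_of_lt_one_left zero_le k1 k2.le
      · rw [map_mul]
        exact mul_lt_one_of_nonneg_of_lt_one_left zero_le k1 k3.le
    · rw [map_mul]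
      exact mul_lt_one_of_nonneg_of_lt_one_left zero_le k2 k3.le
  rw [map_pow, hc₄, one_pow] at hlt
  exact lt_irrefl _ hlt

variable {v W} {e c C2 : K}

/-- Another root of the `2`-division cubic which is congruent to `e` differs from `e` by at
most `|4 c|`. -/
lemma v_root_sub_le2 (hm : NodeModel W e (4 * c) C2) (hv : NodeVal2 v c C2) {e' : K}
    (he' : 4 * e' ^ 3 + W.b₂ * e' ^ 2 + 2 * W.b₄ * e' + W.b₆ = 0) (hclose : v (e' - e) < 1) :
    v (e' - e) ≤ v (4 * c) := by
  by_cases hδ : e' - e = 0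
  · rw [hδ, map_zero]
    exact zero_le
  have key : (e' - e) * (4 * c + (C2 * (e' - e) + 4 * (e' - e) ^ 2)) = 0 := by
    rw [hm.hC1, hm.hC2]
    linear_combination he' - hm.he
  have h0 : 4 * c + (C2 * (e' - e) + 4 * (e' - e) ^ 2) = 0 :=
    (mul_eq_zero.mp key).resolve_left hδ
  have hC1 : 4 * c = -((e' - e) * (C2 + 4 * (e' - e))) := by linear_combination h0
  have h4δ : v (4 * (e' - e)) < 1 := by
    rw [map_mul]
    calc v 4 * v (e' - e) ≤ 1 * v (e' - e) := mul_le_mul_left hv.v4_le _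
      _ = v (e' - e) := one_mul _
      _ < 1 := hclose
  have hunit : v (C2 + 4 * (e' - e)) = 1 := by
    rw [Valuation.map_add_eq_of_lt_left v (by rw [hv.vC2]; exact h4δ), hv.vC2]
  rw [hC1, Valuation.map_neg, map_mul, hunit, mul_one]

/-- A point whose `x`-coordinate does not reduce to the node has nonsingular reduction
(arbitrary residue characteristic). -/
lemma v_polynomial_eq_one_of_not_node2 [DecidableEq K] (hm : NodeModel W e (4 * c) C2)
    (hv : NodeVal2 v c C2) (ha₁ : v W.a₁ ≤ 1) {x y : K} (h : W.toAffine.Equation x y)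
    (hX : v (x - e) = 1) (hM : v (2 * y + W.a₁ * x + W.a₃) ≤ 1) :
    v (W.toAffine.polynomialX.evalEval x y) = 1 ∨
      v (W.toAffine.polynomialY.evalEval x y) = 1 := by
  rw [Affine.evalEval_polynomialX, Affine.evalEval_polynomialY]
  by_cases hM1 : v (2 * y + W.a₁ * x + W.a₃) = 1
  · exact Or.inr hM1
  left
  have hMlt : v (2 * y + W.a₁ * x + W.a₃) < 1 := lt_of_le_of_ne hM hM1
  have heq := hm.equation h
  simp only [nM, nX] at heq
  have hc4 : v (4 * c) < 1 := by
    rw [map_mul]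
    calc v 4 * v c ≤ 1 * v c := mul_le_mul_left hv.v4_le _
      _ = v c := one_mul _
      _ < 1 := hv.vc
  -- `M ^ 2 = X * (4 X ^ 2 + C2 X + 4 c)`
  have hq : v (4 * (x - e) ^ 2 + C2 * (x - e) + 4 * c) < 1 := by
    have e1 : (2 * y + W.a₁ * x + W.a₃) ^ 2 =
        (x - e) * (4 * (x - e) ^ 2 + C2 * (x - e) + 4 * c) := by
      rw [heq]; ring
    have := congrArg v e1
    rw [map_pow, map_mul, hX, one_mul] at this
    rw [← this]
    exact pow_lt_one₀ zero_le hMlt two_ne_zero
  have hmain : v (C2 * (x - e)) = 1 := by rw [map_mul, hv.vC2, hX, one_mul]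
  -- the residue characteristic is odd
  have h2 : v (2 : K) = 1 := by
    rcases lt_or_eq_of_le (v_two_le_one v) with h2lt | h2eq
    · exfalso
      have h4lt : v (4 : K) < 1 := by
        rw [hv.v4]
        exact mul_lt_one_of_nonneg_of_lt_one_left zero_le h2lt (v_two_le_one v)
      have e2 : 4 * (x - e) ^ 2 + C2 * (x - e) + 4 * c =
          C2 * (x - e) + (4 * (x - e) ^ 2 + 4 * c) := by ring
      have hsm : v (4 * (x - e) ^ 2 + 4 * c) < 1 := by
        refine lt_of_le_of_lt (Valuation.map_add _ _ _) (max_lt ?_ hc4)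
        rw [map_mul, map_pow, hX, one_pow, mul_one]
        exact h4lt
      rw [e2, Valuation.map_add_eq_of_lt_left v (by rw [hmain]; exact hsm), hmain] at hq
      exact lt_irrefl _ hq
    · exact h2eq
  have h4 : v (4 : K) = 1 := by rw [hv.v4, h2, one_mul]
  have e4 : 4 * (W.a₁ * y - (3 * x ^ 2 + 2 * W.a₂ * x + W.a₄)) =
      C2 * (x - e) + (2 * W.a₁ * (2 * y + W.a₁ * x + W.a₃) -
        3 * (4 * (x - e) ^ 2 + C2 * (x - e) + 4 * c) + 2 * (4 * c)) := by
    rw [hm.hC1, hm.hC2]
    simp only [WeierstrassCurve.b₂, WeierstrassCurve.b₄]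
    ring
  have hsmall : v (2 * W.a₁ * (2 * y + W.a₁ * x + W.a₃) -
        3 * (4 * (x - e) ^ 2 + C2 * (x - e) + 4 * c) + 2 * (4 * c)) < 1 := by
    refine lt_of_le_of_lt (Valuation.map_add _ _ _) (max_lt ?_ ?_)
    · refine lt_of_le_of_lt (Valuation.map_sub _ _ _) (max_lt ?_ ?_)
      · rw [map_mul, map_mul, h2, one_mul]
        calc v W.a₁ * v (2 * y + W.a₁ * x + W.a₃) ≤ 1 * v (2 * y + W.a₁ * x + W.a₃) :=
              mul_le_mul_left ha₁ _
          _ = v (2 * y + W.a₁ * x + W.a₃) := one_mul _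
          _ < 1 := hMlt
      · rw [map_mul]
        calc v 3 * v (4 * (x - e) ^ 2 + C2 * (x - e) + 4 * c)
            ≤ 1 * v (4 * (x - e) ^ 2 + C2 * (x - e) + 4 * c) :=
              mul_le_mul_left (ecu_v_three_le_one v) _
          _ = v (4 * (x - e) ^ 2 + C2 * (x - e) + 4 * c) := one_mul _
          _ < 1 := hq
    · rw [map_mul, h2, one_mul]
      exact hc4
  have := congrArg v e4
  rw [map_mul, h4, one_mul,
    Valuation.map_add_eq_of_lt_left v (by rw [hmain]; exact hsmall), hmain] at this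
  exact this

end Fermat.Agent.S58.helper7
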