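/-
S58 prep [EC-UNIP], part 3 (helper7): inertia at ANY prime `ℓ` of semistable reduction
(`ℓ = 2` included) acts unipotently on the `m`-torsion of an integral Weierstrass curve,
for every odd `m` prime to `ℓ` (no primality of `m`).

* `ecu_core_fixes_of_good` : good reduction at `ℓ`, inertia acts trivially on `E[m]`
  (any `m` prime to `ℓ`);
* `ecu_core_unipotent_of_mult` : `ℓ ∣ Δ`, `ℓ ∤ c₄`, `(τ - 1) ^ 2 = 0` on `E[m]`, `m` odd.

The wiring follows `Fermat.Agent.P7.helper59_Loc3Core` (odd `ℓ`, prime `p`).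
-/
import Fermat.Agent.S58.helper7_EcUnipAbs
import Fermat.Agent.S58.helper7_EcUnipNode
import Fermat.Agent.P6.helper65_NRed
import Fermat.Agent.S05.helper92_Inertia

set_option autoImplicit false
set_option linter.unusedSimpArgs false
set_option linter.unusedVariables false
set_option linter.unusedSectionVars false
set_option linter.style.haveILetI false

open WeierstrassCurve WeierstrassCurve.Affine
open scoped WeierstrassCurve.Affine

namespace Fermat.Agent.S58.helper7

open Fermat.Agent.S05.helper7 Fermat.Agent.S13.helper7 Fermat.Agent.S05.helper92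
  Fermat.Agent.P6.helper65 Fermat.Agent.P6.helper78

noncomputable section

section core

variable (A : ValuationSubring NQbar) (W : WeierstrassCurve ℤ) {E : Affine NQbar}
  (hE : E = W.map (Int.castRingHom NQbar)) {ℓ m : ℕ} (hℓ : ℓ.Prime)
  (hℓm : ¬ ℓ ∣ m) (hA : A.LiesOverPrime ℓ) (τ : NGQ) (hτ : τ ∈ A.inertiaSubgroupIn ℚ)
  (φ : E.Point →+ E.Point)
  (hφ : ∀ (x y : NQbar) (h : E.Nonsingular x y),
    ∃ h', φ (Point.some x y h) = Point.some (τ x) (τ y) h')

include hE hℓ hℓm hA hτ hφ

/-- Good reduction: inertia fixes the `m`-torsion (`m` prime to the residue characteristic). -/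
theorem ecu_core_fixes_of_good (hW : W.IsGoodPrimeFor ℓ) (Q : E.Point) (hQ : m • Q = 0) :
    φ Q = Q := by
  subst hE
  cases Q with
  | zero => exact map_zero φ
  | some x y h =>
    obtain ⟨h', hφQ⟩ := hφ x y h
    rw [hφQ]
    have hn : ((m : ℕ) : NQbar) ∉ A.nonunits := fun h =>
      hℓm ((natCast_mem_nonunits_iff hℓ hA m).mp h)
    have hmem := nred_mem_of_tors A W rfl hn h hQ
    obtain ⟨c1, c2, c3, c4, c6⟩ := nred_coeff_mem A W
    have hgood := nred_good A W hℓ hA hW
    have hQ' : m • (Point.some (τ x) (τ y) h' : (W.map (Int.castRingHom NQbar)).toAffine.Point)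
        = 0 := by
      rw [← hφQ, ← map_nsmul, hQ, map_zero]
    have hx : x - τ x ∈ A.nonunits := by
      have := apply_sub_mem_nonunits_of_mem_inertiaSubgroupIn hτ hmem.1
      have e : x - τ x = -(τ x - x) := by ring
      rw [e]
      exact A.nonunits.neg_mem this
    have hy : y - τ y ∈ A.nonunits := by
      have := apply_sub_mem_nonunits_of_mem_inertiaSubgroupIn hτ hmem.2
      have e : y - τ y = -(τ y - y) := by ring
      rw [e]
      exact A.nonunits.neg_mem this
    exact (Fermat.Agent.S13.eq_of_same_reduction_of_nsmul_eq_zero_of_mem A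
      (W.map (Int.castRingHom NQbar)).toAffine c1 c2 c3 c4 c6 hn h h' hQ hQ' hx hy
      (nred_hns A W hmem.1 hmem.2 (nred_nonsingular_red A W hgood hmem.1 hmem.2 h.1))).symm

/-- Multiplicative reduction at any prime: `(φ - 1) ^ 2 = 0` on the `m`-torsion, `m` odd and
prime to the residue characteristic. -/
theorem ecu_core_unipotent_of_mult (hodd : Odd m) (hΔ : (ℓ : ℤ) ∣ W.Δ)
    (hc₄ : ¬ (ℓ : ℤ) ∣ W.c₄) (P : E.Point) (hP : m • P = 0) :
    φ (φ P - P) = φ P - P := by
  subst hE
  haveI : Algebra.IsAlgebraic ℚ NQbar := AlgebraicClosure.isAlgebraic ℚ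
  have hn : ((m : ℕ) : NQbar) ∉ A.nonunits := fun h =>
    hℓm ((natCast_mem_nonunits_iff hℓ hA m).mp h)
  obtain ⟨c1, c2, c3, c4, c6⟩ := nred_coeff_mem A W
  have hint : ∀ n : ℤ, A.valuation ((n : ℤ) : NQbar) ≤ 1 := fun n =>
    (A.valuation_le_one_iff _).mpr (intCast_mem A n)
  have h2K : (2 : NQbar) ≠ 0 := two_ne_zero
  have hb₂ : A.valuation (W.map (Int.castRingHom NQbar)).b₂ ≤ 1 := by
    rw [WeierstrassCurve.map_b₂, eq_intCast]; exact hint _
  have hb₄ : A.valuation (W.map (Int.castRingHom NQbar)).b₄ ≤ 1 := by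
    rw [WeierstrassCurve.map_b₄, eq_intCast]; exact hint _
  have hb₆ : A.valuation (W.map (Int.castRingHom NQbar)).b₆ ≤ 1 := by
    rw [WeierstrassCurve.map_b₆, eq_intCast]; exact hint _
  have hΔv : A.valuation (W.map (Int.castRingHom NQbar)).Δ < 1 := by
    rw [WeierstrassCurve.map_Δ, eq_intCast, ← A.mem_nonunits_iff]
    exact (intCast_mem_nonunits_iff hℓ hA _).mpr hΔ
  have hc₄v : A.valuation (W.map (Int.castRingHom NQbar)).c₄ = 1 := by
    rw [WeierstrassCurve.map_c₄, eq_intCast]
    exact valuation_intCast_eq_one_of_not_dvd hℓ hA hc₄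
  obtain ⟨e, c, C2, hm, hv, hev⟩ :=
    exists_nodeModel2 A.valuation (W.map (Int.castRingHom NQbar)) h2K hb₂ hb₄ hb₆ hΔv hc₄v
  have heA : e ∈ A := (A.valuation_le_one_iff _).mp hev
  have ha₁v : A.valuation (W.map (Int.castRingHom NQbar)).a₁ ≤ 1 :=
    (A.valuation_le_one_iff _).mpr c1
  have ha₂v : A.valuation (W.map (Int.castRingHom NQbar)).a₂ ≤ 1 :=
    (A.valuation_le_one_iff _).mpr c2
  -- the ring homomorphism
  let f : NQbar →+* NQbar := τ.toAlgHom.toRingHom
  have hf : ∀ x, f x = τ x := fun x => rfl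
  have hfv : ∀ x, A.valuation (f x) = A.valuation x := fun x =>
    valuation_apply_of_mem_inertiaSubgroupIn hτ x
  have hfI : ∀ x, A.valuation x ≤ 1 → A.valuation (f x - x) < 1 := by
    intro x hx
    rw [← A.mem_nonunits_iff]
    exact apply_sub_mem_nonunits_of_mem_inertiaSubgroupIn hτ ((A.valuation_le_one_iff _).mp hx)
  have hfe : A.valuation (f e - e) ≤ A.valuation (4 * c) := by
    refine v_root_sub_le2 hm hv ?_ (hfI e hev)
    have h := congrArg τ hm.he
    simp only [map_add, map_mul, map_pow, map_zero, WeierstrassCurve.map_b₂,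
      WeierstrassCurve.map_b₄, WeierstrassCurve.map_b₆, eq_intCast, map_intCast,
      map_ofNat] at h ⊢
    exact h
  have ha₁ : τ (W.map (Int.castRingHom NQbar)).a₁ = (W.map (Int.castRingHom NQbar)).a₁ := by
    rw [WeierstrassCurve.map_a₁, eq_intCast, map_intCast]
  have ha₃ : τ (W.map (Int.castRingHom NQbar)).a₃ = (W.map (Int.castRingHom NQbar)).a₃ := by
    rw [WeierstrassCurve.map_a₃, eq_intCast, map_intCast]
  have hφ0 : ∀ Q, φ Q = 0 → Q = 0 := by
    intro Q hQ
    cases Q with
    | zero => rfl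
    | some x y h =>
      obtain ⟨h', hφQ⟩ := hφ x y h
      rw [hφQ] at hQ
      exact absurd hQ (Point.some_ne_zero _)
  have hφX : ∀ Q, Q ≠ 0 → pX (W.map (Int.castRingHom NQbar)) e (φ Q) =
      f (pX (W.map (Int.castRingHom NQbar)) e Q) + (f e - e) := by
    intro Q hQ
    cases Q with
    | zero => exact absurd rfl hQ
    | some x y h =>
      obtain ⟨h', hφQ⟩ := hφ x y h
      rw [hφQ, pX_some, pX_some, hf, hf, map_sub]
      ring
  have hφM : ∀ Q, pM (W.map (Int.castRingHom NQbar)) (φ Q) =
      f (pM (W.map (Int.castRingHom NQbar)) Q) := by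
    intro Q
    cases Q with
    | zero =>
      have h0 : φ Point.zero = 0 := map_zero φ
      rw [h0]
      show pM _ Point.zero = f (pM _ Point.zero)
      simp only [pM, map_zero]
    | some x y h =>
      obtain ⟨h', hφQ⟩ := hφ x y h
      rw [hφQ, pM_some, pM_some, hf, map_add, map_add, map_mul, map_mul, ha₁, ha₃, map_ofNat]
  have hA' : ∀ Q : (W.map (Int.castRingHom NQbar)).toAffine.Point, m • Q = 0 → Q ≠ 0 →
      A.valuation (pX (W.map (Int.castRingHom NQbar)) e Q) ≤ 1 := by
    intro Q hQ hQ0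
    cases Q with
    | zero => exact absurd rfl hQ0
    | some x y h =>
      have hmem := nred_mem_of_tors A W rfl hn h hQ
      rw [pX_some]
      exact (A.valuation_le_one_iff _).mpr (A.sub_mem hmem.1 heA)
  have h0 : ∀ Q : (W.map (Int.castRingHom NQbar)).toAffine.Point, m • Q = 0 →
      A.valuation (pX (W.map (Int.castRingHom NQbar)) e Q) = 1 → φ Q = Q := by
    intro Q hQ hX
    cases Q with
    | zero => exact map_zero φ
    | some x y h =>
      obtain ⟨h', hφQ⟩ := hφ x y h
      rw [hφQ]
      have hmem := nred_mem_of_tors A W rfl hn h hQ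
      have hQ' : m • (Point.some (τ x) (τ y) h' :
          (W.map (Int.castRingHom NQbar)).toAffine.Point) = 0 := by
        rw [← hφQ, ← map_nsmul, hQ, map_zero]
      have hx : x - τ x ∈ A.nonunits := by
        have := apply_sub_mem_nonunits_of_mem_inertiaSubgroupIn hτ hmem.1
        have e : x - τ x = -(τ x - x) := by ring
        rw [e]
        exact A.nonunits.neg_mem this
      have hy : y - τ y ∈ A.nonunits := by
        have := apply_sub_mem_nonunits_of_mem_inertiaSubgroupIn hτ hmem.2
        have e : y - τ y = -(τ y - y) := by ring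
        rw [e]
        exact A.nonunits.neg_mem this
      rw [pX_some] at hX
      have hM : A.valuation (2 * y + (W.map (Int.castRingHom NQbar)).a₁ * x +
          (W.map (Int.castRingHom NQbar)).a₃) ≤ 1 := by
        rw [A.valuation_le_one_iff]
        have h2A : (2 : NQbar) ∈ A := by
          have h := intCast_mem A (2 : ℤ)
          rw [Int.cast_ofNat] at h
          exact h
        exact add_mem (add_mem (mul_mem h2A hmem.2) (mul_mem c1 hmem.1)) c3
      have hns := v_polynomial_eq_one_of_not_node2 hm hv ha₁v h.1 hX hM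
      have hns' : (W.map (Int.castRingHom NQbar)).toAffine.polynomialX.evalEval x y ∉
          A.nonunits ∨ (W.map (Int.castRingHom NQbar)).toAffine.polynomialY.evalEval x y ∉
          A.nonunits := by
        rcases hns with h1 | h1
        · left
          rw [A.mem_nonunits_iff, h1]
          exact lt_irrefl _
        · right
          rw [A.mem_nonunits_iff, h1]
          exact lt_irrefl _
      exact (Fermat.Agent.S13.eq_of_same_reduction_of_nsmul_eq_zero_of_mem A
        (W.map (Int.castRingHom NQbar)).toAffine c1 c2 c3 c4 c6 hn h h' hQ hQ' hx hy hns').symm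
  exact node_unipotent2 hm hv ha₁v ha₂v hev hodd f hfv hfI ha₁ hfe φ hφ0 hφX hφM hA' h0 hP

end core

end

end Fermat.Agent.S58.helper7
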